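import Mathlib
import Fermat.Prelude.Def_FLTPrelim_Ramification
import Fermat.Agent.S14.PlumbInertia

/-!
# S13, layer G1: the Minkowski glue

A normal subgroup `H` of `Gal(Qbar/ℚ)` which is open (contains the fixing subgroup of a finite
extension) and contains every inertia subgroup `A.inertiaSubgroupIn ℚ` is the whole group:
its fixed field is a finite Galois extension of `ℚ` unramified at every prime, hence equal to `ℚ`
by Minkowski (`NumberField.exists_not_isUnramifiedAt_int`).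

Uses `Fermat.Agent.S14.exists_inertia_lift` (S14 leaf A-U, helper11).
-/

set_option autoImplicit false

namespace Fermat.Agent.S13

open NumberField

/-- The inertia group of a prime of a finite Galois `L ⊆ Qbar` is trivial as soon as all the
inertia subgroups of valuation subrings of `Qbar` fix `L` pointwise. -/
theorem mink_inertia_eq_bot (L : IntermediateField ℚ (AlgebraicClosure ℚ)) [FiniteDimensional ℚ L]
    [h : IsGalois ℚ L]
    (hunr : ∀ (q : ℕ) (A : ValuationSubring (AlgebraicClosure ℚ)), q.Prime → A.LiesOverPrime q →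
      A.inertiaSubgroupIn ℚ ≤ L.fixingSubgroup)
    (P : Ideal (𝓞 L)) [P.IsPrime] (hP : P ≠ ⊥) :
    Ideal.inertia (L ≃ₐ[ℚ] L) P = ⊥ := by
  rw [eq_bot_iff]
  intro σ hσ
  obtain ⟨ℓ, A, τ, hℓ, hA, -, hτ, rfl⟩ := Fermat.Agent.S14.exists_inertia_lift L P hP σ hσ
  have h1 : τ ∈ L.fixingSubgroup := hunr ℓ A hℓ hA hτ
  have hN : @Normal ℚ L _ _ L.algebra' := h.to_normal
  have h2 := @IntermediateField.restrictNormalHom_ker ℚ _ _ _ _ L hN
  rw [← h2, MonoidHom.mem_ker] at h1
  rw [Subgroup.mem_bot]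
  exact h1

/-- Minkowski: a finite Galois `L ⊆ Qbar` fixed by all inertia subgroups is `ℚ`. -/
theorem mink_finrank_eq_one (L : IntermediateField ℚ (AlgebraicClosure ℚ)) [FiniteDimensional ℚ L]
    [IsGalois ℚ L]
    (hunr : ∀ (q : ℕ) (A : ValuationSubring (AlgebraicClosure ℚ)), q.Prime → A.LiesOverPrime q →
      A.inertiaSubgroupIn ℚ ≤ L.fixingSubgroup) :
    Module.finrank ℚ L = 1 := by
  by_contra H
  have : NumberField L := ⟨⟩
  obtain ⟨P, hPmax, hP⟩ := NumberField.exists_not_isUnramifiedAt_int (K := L) (𝒪 := 𝓞 L) H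
  apply hP
  have hP0 : P ≠ ⊥ := Ideal.IsMaximal.ne_bot_of_isIntegral_int P
  have hI := mink_inertia_eq_bot L hunr P hP0
  have hc := Ideal.card_inertia_eq_ramificationIdxIn (G := L ≃ₐ[ℚ] L) (P.under ℤ) P
  rw [hI] at hc
  rw [← Ideal.ramificationIdx_eq_one_iff,
    ← Ideal.ramificationIdxIn_eq_ramificationIdx (P.under ℤ) P (L ≃ₐ[ℚ] L), ← hc]
  simp

/-- **Minkowski glue.** An open normal subgroup of `Gal(Qbar/ℚ)` containing all inertia subgroups
is everything. -/
theorem eq_top_of_inertia_le (H : Subgroup (AlgebraicClosure ℚ ≃ₐ[ℚ] AlgebraicClosure ℚ))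
    [hHn : H.Normal]
    (hopen : ∃ F : IntermediateField ℚ (AlgebraicClosure ℚ),
      FiniteDimensional ℚ F ∧ F.fixingSubgroup ≤ H)
    (hunr : ∀ (q : ℕ) (A : ValuationSubring (AlgebraicClosure ℚ)), q.Prime → A.LiesOverPrime q →
      A.inertiaSubgroupIn ℚ ≤ H) : H = ⊤ := by
  obtain ⟨F, hF, hFH⟩ := hopen
  have hA1 : Algebra.IsAlgebraic ℚ (AlgebraicClosure ℚ) := AlgebraicClosure.isAlgebraic ℚ
  have hA2 : IsAlgClosure ℚ (AlgebraicClosure ℚ) := ⟨inferInstance, inferInstance⟩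
  have hA3 : IsGalois ℚ (AlgebraicClosure ℚ) := inferInstance
  have hFo : IsOpen (F.fixingSubgroup : Set (AlgebraicClosure ℚ ≃ₐ[ℚ] AlgebraicClosure ℚ)) := by
    have hF' : @FiniteDimensional ℚ F _ _ F.algebra'.toModule := hF
    exact @IntermediateField.fixingSubgroup_isOpen ℚ (AlgebraicClosure ℚ) _ _ _ F hF'
  have hHo : IsOpen (H : Set (AlgebraicClosure ℚ ≃ₐ[ℚ] AlgebraicClosure ℚ)) :=
    Subgroup.isOpen_mono hFH hFo
  have hHc : IsClosed (H : Set (AlgebraicClosure ℚ ≃ₐ[ℚ] AlgebraicClosure ℚ)) :=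
    Subgroup.isClosed_of_isOpen H hHo
  let Hc : ClosedSubgroup (AlgebraicClosure ℚ ≃ₐ[ℚ] AlgebraicClosure ℚ) := ⟨H, hHc⟩
  set L : IntermediateField ℚ (AlgebraicClosure ℚ) := IntermediateField.fixedField H with hL
  have hLH : L.fixingSubgroup = H := InfiniteGalois.fixingSubgroup_fixedField Hc
  have hfin : @FiniteDimensional ℚ L _ _ L.algebra'.toModule := by
    rw [← InfiniteGalois.isOpen_iff_finite, hLH]
    exact hHo
  have hgal : @IsGalois ℚ _ L _ L.algebra' := by
    rw [← InfiniteGalois.normal_iff_isGalois, hLH]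
    exact hHn
  have hfin' : FiniteDimensional ℚ L := hfin
  have hgal' : IsGalois ℚ L := hgal
  have h1 : Module.finrank ℚ L = 1 := mink_finrank_eq_one L (by rw [hLH]; exact hunr)
  have h1' : @Module.finrank ℚ L _ _ L.algebra'.toModule = 1 := h1
  rw [IntermediateField.finrank_eq_one_iff] at h1'
  rw [← hLH, h1', IntermediateField.fixingSubgroup_bot]

/-- **Minkowski glue, character form.** A homomorphism from `Gal(Qbar/ℚ)` to any group which
factors through a finite extension and kills every inertia subgroup is trivial. -/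
theorem hom_eq_one_of_inertia_le_ker {M : Type*} [Group M]
    (ψ : (AlgebraicClosure ℚ ≃ₐ[ℚ] AlgebraicClosure ℚ) →* M)
    (hopen : ∃ F : IntermediateField ℚ (AlgebraicClosure ℚ),
      FiniteDimensional ℚ F ∧ F.fixingSubgroup ≤ ψ.ker)
    (hunr : ∀ (q : ℕ) (A : ValuationSubring (AlgebraicClosure ℚ)), q.Prime → A.LiesOverPrime q →
      ∀ σ ∈ A.inertiaSubgroupIn ℚ, ψ σ = 1)
    (σ : AlgebraicClosure ℚ ≃ₐ[ℚ] AlgebraicClosure ℚ) : ψ σ = 1 := by
  have h : ψ.ker = ⊤ := eq_top_of_inertia_le ψ.ker hopen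
    (fun q A hq hA τ hτ => MonoidHom.mem_ker.mpr (hunr q A hq hA τ hτ))
  have : σ ∈ ψ.ker := by rw [h]; trivial
  exact MonoidHom.mem_ker.mp this

end Fermat.Agent.S13
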