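import Mathlib
import Fermat.Agent.S54.Frobenius
import Fermat.Agent.S05.Inertia
import Fermat.Agent.S13.Minkowski

/-!
# S13, layer G1': Minkowski glue with one exceptional prime

* `mink_mem_inertiaSubgroupIn_of_isInertial` : converse of `S05.isInertial_of_mem_inertiaSubgroupIn`.
* `mink_conj_mem_inertiaSubgroupIn` : `g I_A g⁻¹ ⊆ I_{gA}`.
* `mink_exists_smul_eq` : valuation subrings of `Qbar` over the same prime are conjugate.
* `mink_inertia_le_of_conj` : a normal subgroup containing `I_A` contains `I_{A'}` for all `A'`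
  over the same prime.
* `mink_two` : two open normal subgroups `H₁, H₂` of `Gal(Qbar/ℚ)`, both containing all inertia
  groups away from `p`, and such that every inertia group at `p` is inside `H₁` or inside `H₂`:
  then `H₁ = ⊤` or `H₂ = ⊤`.
-/

set_option autoImplicit false

open scoped Pointwise

namespace Fermat.Agent.S13

open Fermat.Agent.S05

section general
variable {F K : Type*} [Field F] [Field K] [Algebra F K]

theorem mink_mem_decomp_of_isInertial (A : ValuationSubring K) (σ : K ≃ₐ[F] K)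
    (h : IsInertial A σ) : σ ∈ A.decompositionSubgroup F := by
  rw [MulAction.mem_stabilizer_iff]
  apply le_antisymm
  · intro x hx
    rw [ValuationSubring.mem_pointwise_smul_iff_inv_smul_mem] at hx
    have h1 : σ.symm x ∈ A := hx
    exact (h.symm_mem_iff x).mp h1
  · intro x hx
    rw [ValuationSubring.mem_pointwise_smul_iff_inv_smul_mem]
    show σ.symm x ∈ A
    exact (h.symm_mem_iff x).mpr hx

theorem mink_mem_inertiaSubgroupIn_of_isInertial (A : ValuationSubring K) (σ : K ≃ₐ[F] K)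
    (h : IsInertial A σ) : σ ∈ A.inertiaSubgroupIn F := by
  have hmem := mink_mem_decomp_of_isInertial A σ h
  refine ⟨⟨σ, hmem⟩, ?_, rfl⟩
  show (⟨σ, hmem⟩ : A.decompositionSubgroup F) ∈ (MulSemiringAction.toRingAut
    (A.decompositionSubgroup F) (IsLocalRing.ResidueField A)).ker
  rw [MonoidHom.mem_ker]
  ext xbar
  obtain ⟨a, rfl⟩ := IsLocalRing.residue_surjective xbar
  show (⟨σ, hmem⟩ : A.decompositionSubgroup F) • IsLocalRing.residue A a = IsLocalRing.residue A a
  rw [← IsLocalRing.ResidueField.residue_smul, ← sub_eq_zero, ← map_sub,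
    IsLocalRing.residue_eq_zero_iff, ← ValuationSubring.coe_mem_nonunits_iff]
  exact h.sub_mem a.1 a.2

end general

section general2
variable {F K : Type*} [Field F] [Field K] [Algebra F K]

theorem mink_mem_nonunits_iff (A : ValuationSubring K) (x : K) :
    x ∈ A.nonunits ↔ x ∈ A ∧ (x = 0 ∨ x⁻¹ ∉ A) := by
  rw [A.mem_nonunits_iff, ← A.valuation_le_one_iff, ← A.valuation_le_one_iff]
  by_cases hx : x = 0
  · subst hx; simp
  · have h0 : A.valuation x ≠ 0 := (Valuation.ne_zero_iff _).mpr hx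
    rw [map_inv₀, inv_le_one₀ (zero_lt_iff.mpr h0)]
    constructor
    · intro h
      exact ⟨h.le, Or.inr (not_le.mpr h)⟩
    · rintro ⟨-, h | h⟩
      · exact absurd h hx
      · exact not_le.mp h

theorem mink_smul_mem_smul_nonunits_iff (A : ValuationSubring K) (g : K ≃ₐ[F] K) (x : K) :
    g x ∈ (g • A).nonunits ↔ x ∈ A.nonunits := by
  rw [mink_mem_nonunits_iff, mink_mem_nonunits_iff,
    ValuationSubring.mem_pointwise_smul_iff_inv_smul_mem,
    ValuationSubring.mem_pointwise_smul_iff_inv_smul_mem]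
  have h1 : g⁻¹ • g x = x := by
    show g.symm (g x) = x
    simp
  have h2 : g⁻¹ • (g x)⁻¹ = x⁻¹ := by
    show g.symm ((g x)⁻¹) = x⁻¹
    rw [map_inv₀]; simp
  rw [h1, h2]
  simp

theorem mink_isInertial_conj (A : ValuationSubring K) (σ g : K ≃ₐ[F] K) (h : IsInertial A σ) :
    IsInertial (g • A) (g * σ * g⁻¹) := by
  have key : ∀ x : K, x ∈ g • A ↔ g.symm x ∈ A := fun x => by
    rw [ValuationSubring.mem_pointwise_smul_iff_inv_smul_mem]; rfl
  constructor
  · intro x
    rw [key, key]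
    have : g.symm ((g * σ * g⁻¹) x) = σ (g.symm x) := by
      show g.symm (g (σ (g.symm x))) = _
      simp
    rw [this]
    exact h.mem_iff _
  · intro x hx
    rw [key] at hx
    have h1 := h.sub_mem _ hx
    rw [← mink_smul_mem_smul_nonunits_iff (F := F) A g] at h1
    have : g (σ (g.symm x) - g.symm x) = (g * σ * g⁻¹) x - x := by
      rw [map_sub]
      show g (σ (g.symm x)) - g (g.symm x) = g (σ (g.symm x)) - x
      simp
    rw [this] at h1
    exact h1

theorem mink_conj_mem_inertiaSubgroupIn [Algebra.IsAlgebraic F K] (A : ValuationSubring K)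
    (σ g : K ≃ₐ[F] K) (hσ : σ ∈ A.inertiaSubgroupIn F) :
    g * σ * g⁻¹ ∈ (g • A).inertiaSubgroupIn F :=
  mink_mem_inertiaSubgroupIn_of_isInertial _ _
    (mink_isInertial_conj A σ g (isInertial_of_mem_inertiaSubgroupIn A σ hσ))

end general2

section Qbar
open Fermat.Agent.S54

local instance minkT_isAlgebraic : Algebra.IsAlgebraic ℚ (AlgebraicClosure ℚ) :=
  AlgebraicClosure.isAlgebraic ℚ
local instance minkT_isAlgClosure : IsAlgClosure ℚ (AlgebraicClosure ℚ) :=
  ⟨inferInstance, inferInstance⟩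
local instance minkT_normal : Normal ℚ (AlgebraicClosure ℚ) :=
  IsAlgClosure.normal ℚ (AlgebraicClosure ℚ)
local instance minkT_isGalois : IsGalois ℚ (AlgebraicClosure ℚ) := inferInstance
local instance minkT_topZb : TopologicalSpace Zb := ⊥
local instance minkT_discZb : DiscreteTopology Zb := ⟨rfl⟩
local instance minkT_contZb : ContinuousSMul GQ Zb := continuousSMul_Zb
local instance minkT_invZb : Algebra.IsInvariant ℤ Zb GQ := isInvariant_Zb

/-- if `g` moves the prime below `A` to the prime below `A'`, it maps `A` into `A'` -/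
theorem mink_map_mem_of_smul_primeBelow (A A' : ValuationSubring Qb) (ℓ : ℕ) (hℓ : ℓ.Prime)
    (hA : A.LiesOverPrime ℓ) (g : GQ) (hg : primeBelow A' = g • primeBelow A)
    (x : Qb) (hx : x ∈ A) : g x ∈ A' := by
  obtain ⟨y, b, hy, hb, hyA, hyn, hxy⟩ := exists_integral_mul_eq A ℓ hℓ hA x hx
    ((IsFractionRing.isAlgebraic_iff ℤ ℚ Qb).mpr (Algebra.IsAlgebraic.isAlgebraic x))
  have hτy : IsIntegral ℤ (g y) := hy.map (g.toAlgHom.restrictScalars ℤ)
  have hτb : IsIntegral ℤ (g b) := hb.map (g.toAlgHom.restrictScalars ℤ)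
  have hτyn : g y ∉ A'.nonunits := by
    intro hcon
    have h1 : (⟨g y, hτy⟩ : Zb) ∈ primeBelow A' := (mem_primeBelow_iff A' _).mpr hcon
    have h2 : (⟨g y, hτy⟩ : Zb) = g • (⟨y, hy⟩ : Zb) := rfl
    rw [h2, hg, Ideal.smul_mem_pointwise_smul_iff] at h1
    exact hyn ((mem_primeBelow_iff A _).mp h1)
  have hτyA : g y ∈ A' := mem_valuationSubring_of_isIntegral A' _ hτy
  have hτbA : g b ∈ A' := mem_valuationSubring_of_isIntegral A' _ hτb
  have hunit : (g y)⁻¹ ∈ A' := by
    by_contra hinv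
    apply hτyn
    rw [mink_mem_nonunits_iff]
    exact ⟨hτyA, Or.inr hinv⟩
  have hτy0 : g y ≠ 0 := by
    intro h0
    rw [h0, inv_zero] at hunit
    apply hτyn
    rw [h0, A'.mem_nonunits_iff, map_zero]
    exact zero_lt_one
  have : g x = g b * (g y)⁻¹ := by
    rw [← hxy, map_mul]
    field_simp
  rw [this]
  exact A'.mul_mem _ _ hτbA hunit

theorem mink_exists_smul_eq (ℓ : ℕ) (hℓ : ℓ.Prime) (A A' : ValuationSubring Qb)
    (hA : A.LiesOverPrime ℓ) (hA' : A'.LiesOverPrime ℓ) : ∃ g : GQ, g • A = A' := by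
  have h1 := primeBelow_liesOver A ℓ hℓ hA
  have h2 := primeBelow_liesOver A' ℓ hℓ hA'
  have hunder : (primeBelow A).under ℤ = (primeBelow A').under ℤ := by
    rw [← h1.over, ← h2.over]
  obtain ⟨g, hg⟩ := Algebra.IsInvariant.exists_smul_of_under_eq_of_profinite (A := ℤ)
    (G := GQ) (primeBelow A) (primeBelow A') hunder
  refine ⟨g, le_antisymm ?_ ?_⟩
  · intro x hx
    rw [ValuationSubring.mem_pointwise_smul_iff_inv_smul_mem] at hx
    have := mink_map_mem_of_smul_primeBelow A A' ℓ hℓ hA g hg _ hx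
    simpa using this
  · intro x hx
    rw [ValuationSubring.mem_pointwise_smul_iff_inv_smul_mem]
    have hg' : primeBelow A = g⁻¹ • primeBelow A' := by rw [hg, inv_smul_smul]
    exact mink_map_mem_of_smul_primeBelow A' A ℓ hℓ hA' g⁻¹ hg' x hx

end Qbar

section two
open Fermat.Agent.S54

local instance minkT2_isAlgebraic : Algebra.IsAlgebraic ℚ (AlgebraicClosure ℚ) :=
  AlgebraicClosure.isAlgebraic ℚ

/-- inertia subgroups over the same prime are simultaneously contained in a normal subgroup -/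
theorem mink_inertia_le_of_conj (ℓ : ℕ) (hℓ : ℓ.Prime) (H : Subgroup GQ) [hH : H.Normal]
    (A A' : ValuationSubring Qb) (hA : A.LiesOverPrime ℓ) (hA' : A'.LiesOverPrime ℓ)
    (h : A.inertiaSubgroupIn ℚ ≤ H) : A'.inertiaSubgroupIn ℚ ≤ H := by
  obtain ⟨g, hg⟩ := mink_exists_smul_eq ℓ hℓ A' A hA' hA
  intro σ hσ
  have h1 := mink_conj_mem_inertiaSubgroupIn A' σ g hσ
  rw [hg] at h1
  have h2 := h h1
  have h3 := hH.conj_mem _ h2 g⁻¹
  simpa [mul_assoc] using h3

end two

/-- **Minkowski with one exceptional prime.** -/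
theorem mink_two (p : ℕ) (hp : p.Prime)
    (H₁ H₂ : Subgroup (AlgebraicClosure ℚ ≃ₐ[ℚ] AlgebraicClosure ℚ)) [H₁.Normal] [H₂.Normal]
    (hopen₁ : ∃ F : IntermediateField ℚ (AlgebraicClosure ℚ),
      FiniteDimensional ℚ F ∧ F.fixingSubgroup ≤ H₁)
    (hopen₂ : ∃ F : IntermediateField ℚ (AlgebraicClosure ℚ),
      FiniteDimensional ℚ F ∧ F.fixingSubgroup ≤ H₂)
    (hunr₁ : ∀ (q : ℕ) (A : ValuationSubring (AlgebraicClosure ℚ)), q.Prime → q ≠ p →
      A.LiesOverPrime q → A.inertiaSubgroupIn ℚ ≤ H₁)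
    (hunr₂ : ∀ (q : ℕ) (A : ValuationSubring (AlgebraicClosure ℚ)), q.Prime → q ≠ p →
      A.LiesOverPrime q → A.inertiaSubgroupIn ℚ ≤ H₂)
    (hp₁₂ : ∀ A : ValuationSubring (AlgebraicClosure ℚ), A.LiesOverPrime p →
      A.inertiaSubgroupIn ℚ ≤ H₁ ∨ A.inertiaSubgroupIn ℚ ≤ H₂) :
    H₁ = ⊤ ∨ H₂ = ⊤ := by
  by_cases h : ∀ A : ValuationSubring (AlgebraicClosure ℚ), A.LiesOverPrime p →
      A.inertiaSubgroupIn ℚ ≤ H₁
  · left
    refine eq_top_of_inertia_le H₁ hopen₁ (fun q A hq hA => ?_)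
    by_cases hqp : q = p
    · subst hqp; exact h A hA
    · exact hunr₁ q A hq hqp hA
  · right
    push Not at h
    obtain ⟨A₀, hA₀, hnot⟩ := h
    refine eq_top_of_inertia_le H₂ hopen₂ (fun q A hq hA => ?_)
    by_cases hqp : q = p
    · subst hqp
      rcases hp₁₂ A hA with h1 | h2
      · exact absurd (mink_inertia_le_of_conj q hq H₁ A A₀ hA hA₀ h1) hnot
      · exact h2
    · exact hunr₂ q A hq hqp hA

end Fermat.Agent.S13
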