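import Mathlib
import Fermat.Agent.S05.Legendre

set_option autoImplicit false

/-!
# Division polynomials and the group law: definitions (route DP of S13)

Everything is for GENERAL Weierstrass curves (any `a₁, …, a₆`, any characteristic).
`dpv W x y n` is the value at `(x, y)` of Mathlib's bivariate division polynomial `W.ψ n`.
`dpT` is the symmetric polynomial with
`(a - x(B+C)) (a - x(B-C)) (x_B - x_C)² = dpT W a x_B x_C`.
`DpSeq W X b N` packages what the geometry gives for the `x`-coordinates `X k = x(kP)`,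
`1 ≤ k ≤ N`, of the multiples of a point `P = (x, y)` with `kP ≠ 0` for `1 ≤ k ≤ N`
(`b = ψ₂(P) = 2y + a₁x + a₃`), and
`dpU X b` is the sequence defined from them by `U₀ = 0`, `U₁ = 1`, `U₂ = b`,
`U_{k+1} = (X 1 - X k) U_k² / U_{k-1}`.
-/

namespace Fermat.Agent.S13

open WeierstrassCurve Polynomial

section defs

variable {R : Type*} [CommRing R]

/-- the symmetric polynomial with `(a - x(B+C)) (a - x(B-C)) (x_B - x_C)² = dpT W a x_B x_C` -/
def dpT (W : WeierstrassCurve R) (a b c : R) : R :=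
  a ^ 2 * b ^ 2 + a ^ 2 * c ^ 2 + b ^ 2 * c ^ 2 - 2 * a * b * c * (a + b + c)
    - W.b₂ * (a * b * c) - W.b₄ * (a * b + a * c + b * c) - W.b₆ * (a + b + c) - W.b₈

lemma dpT_comm₁₂ (W : WeierstrassCurve R) (a b c : R) : dpT W a b c = dpT W b a c := by
  unfold dpT; ring

lemma dpT_comm₂₃ (W : WeierstrassCurve R) (a b c : R) : dpT W a b c = dpT W a c b := by
  unfold dpT; ring

/-- value at `(x, y)` of the `n`-th division polynomial `ψₙ` -/
noncomputable def dpv (W : WeierstrassCurve R) (x y : R) (n : ℤ) : R := (W.ψ n).evalEval x y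

end defs

section seq

variable {K : Type*} [Field K]

/-- what the group law gives for the `x`-coordinates `X k = x(kP)`, `1 ≤ k ≤ N`, of the multiples
of a point `P` with `kP ≠ 0` for `1 ≤ k ≤ N`; `b = ψ₂(P) = 2y + a₁x + a₃` -/
structure DpSeq (W : WeierstrassCurve K) (X : ℕ → K) (b : K) (N : ℕ) : Prop where
  b_sq : b ^ 2 = W.Ψ₂Sq.eval (X 1)
  b_ne : 2 ≤ N → b ≠ 0
  ne : ∀ i j : ℕ, 1 ≤ j → j < i → i + j ≤ N → X i ≠ X j
  dbl : 2 ≤ N → ∀ a : K, (a - X 2) * b ^ 2 = -dpT W a (X 1) (X 1)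
  add : ∀ i : ℕ, 2 ≤ i → i + 1 ≤ N → ∀ a : K,
    (a - X (i + 1)) * (a - X (i - 1)) * (X i - X 1) ^ 2 = dpT W a (X i) (X 1)

/-- the sequence `U₀ = 0`, `U₁ = 1`, `U₂ = b`, `U_{k+1} = (X 1 - X k) U_k² / U_{k-1}` -/
noncomputable def dpU (X : ℕ → K) (b : K) : ℕ → K
  | 0 => 0
  | 1 => 1
  | 2 => b
  | (k + 3) => (X 1 - X (k + 2)) * dpU X b (k + 2) ^ 2 / dpU X b (k + 1)

@[simp] lemma dpU_zero (X : ℕ → K) (b : K) : dpU X b 0 = 0 := by rw [dpU]
@[simp] lemma dpU_one (X : ℕ → K) (b : K) : dpU X b 1 = 1 := by rw [dpU]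
@[simp] lemma dpU_two (X : ℕ → K) (b : K) : dpU X b 2 = b := by rw [dpU]
lemma dpU_add_three (X : ℕ → K) (b : K) (k : ℕ) :
    dpU X b (k + 3) = (X 1 - X (k + 2)) * dpU X b (k + 2) ^ 2 / dpU X b (k + 1) := by rw [dpU]

end seq

end Fermat.Agent.S13
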