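import Mathlib
import Fermat.Agent.S05.Legendre
import Fermat.Agent.S13.DPDefs

set_option autoImplicit false

namespace Fermat.Agent.S13

open WeierstrassCurve WeierstrassCurve.Affine Polynomial
open Fermat.Agent.S05 (xc yc)

section A

variable {K : Type*} [Field K] [DecidableEq K] {W : Affine K}

/-- polynomial form of the T-identity -/
lemma dpa_T_poly {R : Type*} [CommRing R] (W : WeierstrassCurve R) (a x₁ y₁ x₂ y₂ : R)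
    (e₁ : y₁ ^ 2 + W.a₁ * x₁ * y₁ + W.a₃ * y₁ = x₁ ^ 3 + W.a₂ * x₁ ^ 2 + W.a₄ * x₁ + W.a₆)
    (e₂ : y₂ ^ 2 + W.a₁ * x₂ * y₂ + W.a₃ * y₂ = x₂ ^ 3 + W.a₂ * x₂ ^ 2 + W.a₄ * x₂ + W.a₆) :
    (a * (x₁ - x₂) ^ 2 - ((y₁ - y₂) ^ 2 + W.a₁ * (y₁ - y₂) * (x₁ - x₂)
        - (W.a₂ + x₁ + x₂) * (x₁ - x₂) ^ 2)) *
      (a * (x₁ - x₂) ^ 2 - ((y₁ - (-y₂ - W.a₁ * x₂ - W.a₃)) ^ 2
        + W.a₁ * (y₁ - (-y₂ - W.a₁ * x₂ - W.a₃)) * (x₁ - x₂)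
        - (W.a₂ + x₁ + x₂) * (x₁ - x₂) ^ 2)) = dpT W a x₁ x₂ * (x₁ - x₂) ^ 2 := by
  simp only [dpT, WeierstrassCurve.b₂, WeierstrassCurve.b₄, WeierstrassCurve.b₆,
    WeierstrassCurve.b₈]
  linear_combination
    (W.a₁ ^ 2 * x₁ * x₂ - W.a₁ ^ 2 * x₂ ^ 2 + W.a₁ * W.a₃ * x₁ - W.a₁ * W.a₃ * x₂ + W.a₁ * x₁ * y₁ - 2 * W.a₁ * x₂ * y₂ - W.a₂ * x₁ ^ 2 + 4 * W.a₂ * x₁ * x₂ - 2 * W.a₂ * x₂ ^ 2 + W.a₃ * y₁ - 2 * W.a₃ * y₂ + W.a₄ * x₁ + W.a₆ - 2 * a * x₁ ^ 2 + 4 * a * x₁ * x₂ - 2 * a * x₂ ^ 2 - x₁ ^ 3 + 2 * x₁ ^ 2 * x₂ + 2 * x₁ * x₂ ^ 2 + y₁ ^ 2 - 2 * x₂ ^ 3 - 2 * y₂ ^ 2) * e₁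
    + (-W.a₁ ^ 2 * x₁ ^ 2 + W.a₁ ^ 2 * x₁ * x₂ - W.a₁ * W.a₃ * x₁ + W.a₁ * W.a₃ * x₂ + W.a₁ * x₂ * y₂ - 4 * W.a₂ * x₁ ^ 2 + 4 * W.a₂ * x₁ * x₂ - W.a₂ * x₂ ^ 2 + W.a₃ * y₂ - 2 * W.a₄ * x₁ + W.a₄ * x₂ - W.a₆ - 2 * a * x₁ ^ 2 + 4 * a * x₁ * x₂ - 2 * a * x₂ ^ 2 - 4 * x₁ ^ 3 + 2 * x₁ ^ 2 * x₂ + 2 * x₁ * x₂ ^ 2 - x₂ ^ 3 + y₂ ^ 2) * e₂


lemma dpa_xc_add_of_ne {x₁ y₁ x₂ y₂ : K} (h₁ : W.Nonsingular x₁ y₁)
    (h₂ : W.Nonsingular x₂ y₂) (hx : x₁ ≠ x₂) :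
    xc (Point.some x₁ y₁ h₁ + Point.some x₂ y₂ h₂) =
      ((y₁ - y₂) / (x₁ - x₂)) ^ 2 + W.a₁ * ((y₁ - y₂) / (x₁ - x₂)) - W.a₂ - x₁ - x₂ := by
  rw [Point.add_of_X_ne hx, Fermat.Agent.S05.xc_some, Affine.slope_of_X_ne hx, Affine.addX]

lemma dpa_xc_sub_of_ne {x₁ y₁ x₂ y₂ : K} (h₁ : W.Nonsingular x₁ y₁)
    (h₂ : W.Nonsingular x₂ y₂) (hx : x₁ ≠ x₂) :
    xc (Point.some x₁ y₁ h₁ - Point.some x₂ y₂ h₂) =
      ((y₁ - (-y₂ - W.a₁ * x₂ - W.a₃)) / (x₁ - x₂)) ^ 2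
        + W.a₁ * ((y₁ - (-y₂ - W.a₁ * x₂ - W.a₃)) / (x₁ - x₂)) - W.a₂ - x₁ - x₂ := by
  rw [sub_eq_add_neg, Point.neg_some, dpa_xc_add_of_ne _ _ hx, Affine.negY]

/-- **T-identity** (sum law and product law in one) -/
theorem xc_add_xc_sub_dpT {x₁ y₁ x₂ y₂ : K} (h₁ : W.Nonsingular x₁ y₁)
    (h₂ : W.Nonsingular x₂ y₂) (hx : x₁ ≠ x₂) (a : K) :
    (a - xc (Point.some x₁ y₁ h₁ + Point.some x₂ y₂ h₂)) *
      (a - xc (Point.some x₁ y₁ h₁ - Point.some x₂ y₂ h₂)) * (x₁ - x₂) ^ 2 = dpT W a x₁ x₂ := by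
  have hne : x₁ - x₂ ≠ 0 := sub_ne_zero.2 hx
  have e₁ := (Affine.equation_iff _ _).1 h₁.1
  have e₂ := (Affine.equation_iff _ _).1 h₂.1
  have key := dpa_T_poly W a x₁ y₁ x₂ y₂ e₁ e₂
  rw [dpa_xc_add_of_ne h₁ h₂ hx, dpa_xc_sub_of_ne h₁ h₂ hx]
  have hd2 : (x₁ - x₂) ^ 2 ≠ 0 := pow_ne_zero 2 hne
  apply mul_right_cancel₀ hd2
  rw [← key]
  field_simp
  ring


/-- polynomial form of the duplication law -/
lemma dpa_D_poly {R : Type*} [CommRing R] (W : WeierstrassCurve R) (a x y : R)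
    (e : y ^ 2 + W.a₁ * x * y + W.a₃ * y = x ^ 3 + W.a₂ * x ^ 2 + W.a₄ * x + W.a₆) :
    a * (2 * y + W.a₁ * x + W.a₃) ^ 2 - ((3 * x ^ 2 + 2 * W.a₂ * x + W.a₄ - W.a₁ * y) ^ 2
        + W.a₁ * (3 * x ^ 2 + 2 * W.a₂ * x + W.a₄ - W.a₁ * y) * (2 * y + W.a₁ * x + W.a₃)
        - (W.a₂ + x + x) * (2 * y + W.a₁ * x + W.a₃) ^ 2) = -dpT W a x x := by
  simp only [dpT, WeierstrassCurve.b₂, WeierstrassCurve.b₄, WeierstrassCurve.b₆,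
    WeierstrassCurve.b₈]
  linear_combination (W.a₁ ^ 2 + 4 * W.a₂ + 4 * a + 8 * x) * e

lemma dpa_psi2_ne_zero {x y : K} (hy : y ≠ W.negY x y) : 2 * y + W.a₁ * x + W.a₃ ≠ 0 := by
  intro h0
  apply hy
  rw [Affine.negY]
  linear_combination h0

lemma dpa_xc_add_self {x y : K} (h : W.Nonsingular x y) (hy : y ≠ W.negY x y) :
    xc (Point.some x y h + Point.some x y h) =
      ((3 * x ^ 2 + 2 * W.a₂ * x + W.a₄ - W.a₁ * y) / (2 * y + W.a₁ * x + W.a₃)) ^ 2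
        + W.a₁ * ((3 * x ^ 2 + 2 * W.a₂ * x + W.a₄ - W.a₁ * y) / (2 * y + W.a₁ * x + W.a₃))
        - W.a₂ - x - x := by
  rw [Point.add_self_of_Y_ne hy, Fermat.Agent.S05.xc_some, Affine.slope_of_Y_ne rfl hy,
    Affine.addX, Affine.negY]
  congr 3
  ring

/-- **duplication law** in the same shape -/
theorem xc_dbl_dpT {x y : K} (h : W.Nonsingular x y) (hy : y ≠ W.negY x y) (a : K) :
    (a - xc (Point.some x y h + Point.some x y h)) * (2 * y + W.a₁ * x + W.a₃) ^ 2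
      = -dpT W a x x := by
  have hne := dpa_psi2_ne_zero hy
  have e := (Affine.equation_iff _ _).1 h.1
  have aux : ∀ L d : K, d ≠ 0 →
      (a - ((L / d) ^ 2 + W.a₁ * (L / d) - W.a₂ - x - x)) * d ^ 2
        = a * d ^ 2 - (L ^ 2 + W.a₁ * L * d - (W.a₂ + x + x) * d ^ 2) := by
    intro L d hd
    field_simp
    ring
  rw [← dpa_D_poly W a x y e, dpa_xc_add_self h hy, aux _ _ hne]


lemma dpa_exists_some {P : W.Point} (hP : P ≠ 0) :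
    ∃ (x y : K) (h : W.Nonsingular x y), P = Point.some x y h := by
  rcases P with _ | ⟨x, y, h⟩
  · exact absurd rfl hP
  · exact ⟨x, y, h, rfl⟩

/-- two nonzero points with the same `x`-coordinate are equal or opposite -/
lemma dpa_eq_or_eq_neg_of_xc_eq {P Q : W.Point} (hP : P ≠ 0) (hQ : Q ≠ 0) (hx : xc P = xc Q) :
    P = Q ∨ P = -Q := by
  obtain ⟨x₁, y₁, h₁, rfl⟩ := dpa_exists_some hP
  obtain ⟨x₂, y₂, h₂, rfl⟩ := dpa_exists_some hQ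
  simp only [Fermat.Agent.S05.xc_some] at hx
  subst hx
  rcases Affine.Y_eq_of_X_eq h₁.1 h₂.1 rfl with hy | hy
  · left; subst hy; rfl
  · right; subst hy; rw [Point.neg_some]

/-- the multiples of a point `P` with `kP ≠ 0` for `1 ≤ k ≤ N` form a `DpSeq` -/
theorem dpSeq_of_point {x y : K} (h : W.Nonsingular x y)
    (N : ℕ) (hN : ∀ k : ℕ, 1 ≤ k → k ≤ N → k • Point.some x y h ≠ 0) :
    DpSeq W (fun k => xc (k • Point.some x y h)) (2 * y + W.a₁ * x + W.a₃) N := by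
  set P := Point.some x y h with hPdef
  have hy2 : 2 ≤ N → y ≠ W.negY x y := by
    intro h2 hy
    exact hN 2 (by omega) h2 (by rw [two_nsmul]; exact Point.add_self_of_Y_eq hy)
  have hne : ∀ i j : ℕ, 1 ≤ j → j < i → i + j ≤ N → xc (i • P) ≠ xc (j • P) := by
    intro i j hj hji hij hx
    rcases dpa_eq_or_eq_neg_of_xc_eq (hN i (by omega) (by omega)) (hN j hj (by omega)) hx
      with he | he
    · apply hN (i - j) (by omega) (by omega)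
      rw [sub_nsmul _ hji.le, he, add_neg_cancel]
    · apply hN (i + j) (by omega) hij
      rw [add_nsmul, he, neg_add_cancel]
  refine ⟨?_, ?_, hne, ?_, ?_⟩
  · have e := (Affine.equation_iff _ _).1 h.1
    simp only [one_nsmul, hPdef, Fermat.Agent.S05.xc_some]
    simp only [Ψ₂Sq, WeierstrassCurve.b₂, WeierstrassCurve.b₄, WeierstrassCurve.b₆, eval_add,
      eval_mul, eval_pow, eval_C, eval_X]
    linear_combination 4 * e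
  · intro h2
    exact dpa_psi2_ne_zero (hy2 h2)
  · intro h2 a
    have := xc_dbl_dpT h (hy2 h2) a
    simpa only [one_nsmul, two_nsmul, hPdef, Fermat.Agent.S05.xc_some] using this
  · intro i hi hiN a
    obtain ⟨xi, yi, hi', hiP⟩ := dpa_exists_some (hN i (by omega) (by omega))
    have hxi : xi ≠ x := by
      have := hne i 1 le_rfl (by omega) hiN
      rw [hiP, one_nsmul] at this
      simpa only [hPdef, Fermat.Agent.S05.xc_some] using this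
    have key := xc_add_xc_sub_dpT hi' h hxi a
    have e1 : (i + 1) • P = Point.some xi yi hi' + P := by rw [add_nsmul, one_nsmul, hiP]
    have e2 : (i - 1) • P = Point.some xi yi hi' - P := by
      rw [sub_nsmul _ (by omega : 1 ≤ i), one_nsmul, hiP, sub_eq_add_neg]
    simp only [e1, e2, hiP, one_nsmul]
    simpa only [hPdef, Fermat.Agent.S05.xc_some] using key

end A

end Fermat.Agent.S13
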