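import Mathlib
import Fermat.Agent.S13.DPDefs

set_option autoImplicit false

namespace Fermat.Agent.S13

open WeierstrassCurve Polynomial

section B

lemma dpb_step {K : Type*} [Field K] (G E Cm Cn F1 F2 u v w z p q α β1 β2 γ : K)
    (e0 : G * E * Cm ^ 2 = F1 * F2 * Cn ^ 2) (i1 : E * u ^ 2 * w ^ 2 = α)
    (i2 : F1 * p ^ 2 * v ^ 2 = β1) (i3 : F2 * q ^ 2 * v ^ 2 = β2) (r4 : Cm * v ^ 2 = z * w)
    (r5 : Cn * u ^ 2 = p * q) (hαγ : β1 * β2 = γ * α) (hne : α * w ^ 2 * p ^ 2 * q ^ 2 ≠ 0) :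
    G * u ^ 2 * z ^ 2 = γ := by
  apply mul_right_cancel₀ hne
  linear_combination (-G*u^2*p^2*q^2*(z*w)^2) * i1 + (-G*u^2*p^2*q^2*E*u^2*w^2*(Cm*v^2+z*w)) * r4
    + (u^4*w^2*v^4*p^2*q^2) * e0 + (w^2*(F2*q^2*v^2)*(Cn*u^2)^2) * i2 + (w^2*β1*(Cn*u^2)^2) * i3
    + (w^2*β1*β2*(Cn*u^2+p*q)) * r5 + (p^2*q^2*w^2) * hαγ

lemma dpb_step2 {K : Type*} [Field K] (D A B C b u p q s t : K)
    (e0 : D * b ^ 2 = A * B * C ^ 2) (r1 : A * p ^ 2 = s * u) (r2 : B * q ^ 2 = u * t)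
    (r3 : C * u ^ 2 = p * q) (hne : p ^ 2 * q ^ 2 * u ^ 2 ≠ 0) :
    D * u ^ 2 * b ^ 2 = s * t := by
  apply mul_right_cancel₀ hne
  linear_combination (u^4*p^2*q^2) * e0 + (B*q^2*C^2*u^4) * r1 + (s*u*C^2*u^4) * r2
    + (s*u^2*t*(C*u^2+p*q)) * r3

lemma dpb_four_aux {K : Type*} [CommRing K] (b₂ b₄ b₆ b₈ x X2 X3 b P3 P4 : K)
    (hrel : 4 * b₈ = b₂ * b₆ - b₄ ^ 2)
    (hP3 : P3 = 3 * x ^ 4 + b₂ * x ^ 3 + 3 * b₄ * x ^ 2 + 3 * b₆ * x + b₈)
    (hP4 : P4 = 2 * x ^ 6 + b₂ * x ^ 5 + 5 * b₄ * x ^ 4 + 10 * b₆ * x ^ 3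
      + 10 * b₈ * x ^ 2 + (b₂ * b₈ - b₄ * b₆) * x + (b₄ * b₈ - b₆ ^ 2))
    (hb : b ^ 2 = 4 * x ^ 3 + b₂ * x ^ 2 + 2 * b₄ * x + b₆)
    (h3 : (x - X2) * b ^ 2 = P3)
    (hS : (X3 + x) * (X2 - x) ^ 2 = 2 * X2 * x * (X2 + x) + b₂ * (X2 * x) + b₄ * (X2 + x) + b₆) :
    (x - X3) * P3 ^ 2 = P4 * b ^ 2 := by
  subst hP3 hP4
  linear_combination
    (-(x - X3) * ((3 * x ^ 4 + b₂ * x ^ 3 + 3 * b₄ * x ^ 2 + 3 * b₆ * x + b₈) + (x - X2) * b ^ 2)
      - (-b₂ * x * b ^ 2 - b₄ * b ^ 2 - 6 * x ^ 2 * b ^ 2)) * h3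
    + (-b ^ 4) * hS
    + (b₂ * b₆ * x ^ 2 - b₂ * x ^ 2 * b ^ 2 - b₄ ^ 2 * x ^ 2 - 2 * b₄ * x * b ^ 2 - b₆ * b ^ 2
      - 4 * b₈ * x ^ 2 - 4 * x ^ 3 * b ^ 2) * hb
    + (-b₂ * x ^ 4 - 2 * b₄ * x ^ 3 - b₆ * x ^ 2 - 4 * x ^ 5) * hrel

variable {K : Type*} [Field K] {W : WeierstrassCurve K} {X : ℕ → K} {b : K} {N : ℕ}

theorem DpSeq.dpU_ne_zero (h : DpSeq W X b N) {k : ℕ} (hk1 : 1 ≤ k) (hkN : k ≤ N) :
    dpU X b k ≠ 0 := by
  induction k using Nat.strong_induction_on with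
  | _ k ih =>
    match k, hk1, hkN with
    | 1, _, _ => simp
    | 2, _, h2 => simpa using h.b_ne h2
    | (k + 3), _, h3 =>
      rw [dpU_add_three]
      have h1 : dpU X b (k + 2) ≠ 0 := ih (k + 2) (by omega) (by omega) (by omega)
      have h2 : dpU X b (k + 1) ≠ 0 := ih (k + 1) (by omega) (by omega) (by omega)
      have h3' : X 1 - X (k + 2) ≠ 0 :=
        sub_ne_zero.mpr (h.ne (k + 2) 1 le_rfl (by omega) (by omega)).symm
      exact div_ne_zero (mul_ne_zero h3' (pow_ne_zero 2 h1)) h2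

/-- `rel` for `m = 1` (also for `n = 1`, trivially) -/
lemma DpSeq.dpb_rel_one (h : DpSeq W X b N) {n : ℕ} (hn : 1 ≤ n) (hnN : n ≤ N) :
    (X 1 - X n) * dpU X b n ^ 2 = dpU X b (n + 1) * dpU X b (n - 1) := by
  obtain rfl | hn2 := eq_or_lt_of_le hn
  · simp
  obtain ⟨k, rfl⟩ : ∃ k, n = k + 2 := ⟨n - 2, by omega⟩
  have h2 : dpU X b (k + 1) ≠ 0 := h.dpU_ne_zero (by omega) (by omega)
  rw [show k + 2 + 1 = k + 3 by ring, dpU_add_three, show k + 2 - 1 = k + 1 by omega]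
  field_simp

/-- the σ-formula `x(mP) - x(nP) = U_{n+m} U_{n-m} / (U_n² U_m²)` -/
theorem DpSeq.rel (h : DpSeq W X b N) {n m : ℕ} (hm : 1 ≤ m) (hmn : m < n)
    (hnm : n + m ≤ N + 1) :
    (X m - X n) * dpU X b n ^ 2 * dpU X b m ^ 2 = dpU X b (n + m) * dpU X b (n - m) := by
  induction m using Nat.strong_induction_on generalizing n with
  | _ m ih =>
    match m, hm with
    | 1, _ =>
      have := h.dpb_rel_one (n := n) (by omega) (by omega)
      simp only [dpU_one, one_pow, mul_one]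
      exact this
    | 2, _ =>
      have hN2 : 2 ≤ N := by omega
      have hd := h.dbl hN2 (X n)
      have ha := h.add n (by omega) (by omega) (X 1)
      rw [dpT_comm₁₂] at hd
      have r1 := h.dpb_rel_one (n := n + 1) (by omega) (by omega)
      have r2 := h.dpb_rel_one (n := n - 1) (by omega) (by omega)
      have r3 := h.dpb_rel_one (n := n) (by omega) (by omega)
      rw [show n + 1 + 1 = n + 2 by ring, show n + 1 - 1 = n by omega] at r1
      rw [show n - 1 + 1 = n by omega, show n - 1 - 1 = n - 2 by omega] at r2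
      rw [dpU_two]
      refine dpb_step2 (X 2 - X n) (X 1 - X (n + 1)) (X 1 - X (n - 1)) (X 1 - X n) b
        (dpU X b n) (dpU X b (n + 1)) (dpU X b (n - 1)) (dpU X b (n + 2)) (dpU X b (n - 2))
        ?_ r1 r2 r3 ?_
      · linear_combination -hd - ha
      · have hp := h.dpU_ne_zero (k := n + 1) (by omega) (by omega)
        have hq := h.dpU_ne_zero (k := n - 1) (by omega) (by omega)
        have hu := h.dpU_ne_zero (k := n) (by omega) (by omega)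
        positivity
    | (m + 3), _ =>
      -- new `m` is `m + 3`, old is `m + 2`
      have a1 := h.add (m + 2) (by omega) (by omega) (X n)
      have a2 := h.add n (by omega) (by omega) (X (m + 2))
      rw [dpT_comm₁₂] at a1
      have i1 := ih (m + 1) (by omega) (by omega) (n := n) (by omega) (by omega)
      have i2 := ih (m + 2) (by omega) (by omega) (n := n + 1) (by omega) (by omega)
      have i3 := ih (m + 2) (by omega) (by omega) (n := n - 1) (by omega) (by omega)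
      have r4 := h.dpb_rel_one (n := m + 2) (by omega) (by omega)
      have r5 := h.dpb_rel_one (n := n) (by omega) (by omega)
      rw [show m + 2 + 1 = m + 3 by ring, show m + 2 - 1 = m + 1 by omega] at a1 r4
      refine dpb_step (X (m + 3) - X n) (X (m + 1) - X n) (X 1 - X (m + 2)) (X 1 - X n)
        (X (m + 2) - X (n + 1)) (X (m + 2) - X (n - 1)) (dpU X b n) (dpU X b (m + 2))
        (dpU X b (m + 1)) (dpU X b (m + 3)) (dpU X b (n + 1)) (dpU X b (n - 1))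
        _ _ _ _ ?_ i1 i2 i3 r4 r5 ?_ ?_
      · linear_combination a1 - a2
      · rw [show n + 1 + (m + 2) = n + (m + 3) by ring, show n + 1 - (m + 2) = n - (m + 1) by omega,
          show n - 1 + (m + 2) = n + (m + 1) by omega, show n - 1 - (m + 2) = n - (m + 3) by omega]
        ring
      · have h1 := h.dpU_ne_zero (k := n + (m + 1)) (by omega) (by omega)
        have h2 := h.dpU_ne_zero (k := n - (m + 1)) (by omega) (by omega)
        have h3 := h.dpU_ne_zero (k := m + 1) (by omega) (by omega)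
        have h4 := h.dpU_ne_zero (k := n + 1) (by omega) (by omega)
        have h5 := h.dpU_ne_zero (k := n - 1) (by omega) (by omega)
        positivity

theorem DpSeq.odd (h : DpSeq W X b N) {m : ℕ} (hm : 1 ≤ m) (hmN : 2 * m + 1 ≤ N + 1) :
    dpU X b (2 * m + 1) =
      dpU X b (m + 2) * dpU X b m ^ 3 - dpU X b (m - 1) * dpU X b (m + 1) ^ 3 := by
  have r := h.rel (n := m + 1) (m := m) hm (by omega) (by omega)
  have r1 := h.dpb_rel_one (n := m + 1) (by omega) (by omega)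
  have r2 := h.dpb_rel_one (n := m) (by omega) (by omega)
  rw [show m + 1 + m = 2 * m + 1 by ring, show m + 1 - m = 1 by omega, dpU_one, mul_one] at r
  rw [show m + 1 + 1 = m + 2 by ring, show m + 1 - 1 = m by omega] at r1
  linear_combination -r + (dpU X b m ^ 2) * r1 - (dpU X b (m + 1) ^ 2) * r2

theorem DpSeq.even (h : DpSeq W X b N) {m : ℕ} (hm : 2 ≤ m) (hmN : 2 * m ≤ N + 1) :
    dpU X b (2 * m) * b =
      dpU X b (m - 1) ^ 2 * dpU X b m * dpU X b (m + 2)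
        - dpU X b (m - 2) * dpU X b m * dpU X b (m + 1) ^ 2 := by
  have r := h.rel (n := m + 1) (m := m - 1) (by omega) (by omega) (by omega)
  have r1 := h.dpb_rel_one (n := m + 1) (by omega) (by omega)
  have r2 := h.dpb_rel_one (n := m - 1) (by omega) (by omega)
  rw [show m + 1 + (m - 1) = 2 * m by omega, show m + 1 - (m - 1) = 2 by omega, dpU_two] at r
  rw [show m + 1 + 1 = m + 2 by ring, show m + 1 - 1 = m by omega] at r1
  rw [show m - 1 + 1 = m by omega, show m - 1 - 1 = m - 2 by omega] at r2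
  linear_combination -r + (dpU X b (m - 1) ^ 2) * r1 - (dpU X b (m + 1) ^ 2) * r2

lemma dpb_eval_Ψ₂Sq {R : Type*} [CommRing R] (W : WeierstrassCurve R) (x : R) :
    W.Ψ₂Sq.eval x = 4 * x ^ 3 + W.b₂ * x ^ 2 + 2 * W.b₄ * x + W.b₆ := by
  simp [Ψ₂Sq]

lemma dpb_eval_Ψ₃ {R : Type*} [CommRing R] (W : WeierstrassCurve R) (x : R) :
    W.Ψ₃.eval x = 3 * x ^ 4 + W.b₂ * x ^ 3 + 3 * W.b₄ * x ^ 2 + 3 * W.b₆ * x + W.b₈ := by
  simp [Ψ₃]

lemma dpb_eval_preΨ₄ {R : Type*} [CommRing R] (W : WeierstrassCurve R) (x : R) :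
    W.preΨ₄.eval x = 2 * x ^ 6 + W.b₂ * x ^ 5 + 5 * W.b₄ * x ^ 4 + 10 * W.b₆ * x ^ 3
      + 10 * W.b₈ * x ^ 2 + (W.b₂ * W.b₈ - W.b₄ * W.b₆) * x + (W.b₄ * W.b₈ - W.b₆ ^ 2) := by
  simp [preΨ₄]

lemma dpb_dpT_self {R : Type*} [CommRing R] (W : WeierstrassCurve R) (x : R) :
    dpT W x x x = -W.Ψ₃.eval x := by
  rw [dpb_eval_Ψ₃, dpT]; ring

theorem DpSeq.three (h : DpSeq W X b N) (hN : 2 ≤ N) : dpU X b 3 = W.Ψ₃.eval (X 1) := by
  have hd := h.dbl hN (X 1)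
  rw [dpb_dpT_self] at hd
  rw [show 3 = 0 + 3 by rfl, dpU_add_three]
  simp only [zero_add, dpU_two, dpU_one, div_one]
  linear_combination hd

theorem DpSeq.four (h : DpSeq W X b N) (hN : 3 ≤ N) : dpU X b 4 = W.preΨ₄.eval (X 1) * b := by
  have hb0 : b ≠ 0 := h.b_ne (by omega)
  have hd := h.dbl (by omega) (X 1)
  rw [dpb_dpT_self] at hd
  have ha0 := h.add 2 le_rfl (by omega) 0
  have ha1 := h.add 2 le_rfl (by omega) 1
  simp only [show 2 + 1 = 3 by rfl, show 2 - 1 = 1 by rfl] at ha0 ha1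
  have hb := h.b_sq
  rw [dpb_eval_Ψ₂Sq] at hb
  have key := dpb_four_aux W.b₂ W.b₄ W.b₆ W.b₈ (X 1) (X 2) (X 3) b (W.Ψ₃.eval (X 1))
    (W.preΨ₄.eval (X 1)) W.b_relation (dpb_eval_Ψ₃ W _) (dpb_eval_preΨ₄ W _) hb
    (by linear_combination hd)
    (by unfold dpT at ha0 ha1; linear_combination ha0 - ha1)
  have h3 : dpU X b 3 = W.Ψ₃.eval (X 1) := by
    rw [show 3 = 0 + 3 by rfl, dpU_add_three]
    simp only [zero_add, dpU_two, dpU_one, div_one]
    linear_combination hd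
  rw [show 4 = 1 + 3 by rfl, dpU_add_three]
  simp only [show 1 + 2 = 3 by rfl, show 1 + 1 = 2 by rfl, dpU_two, h3]
  field_simp
  linear_combination key

end B

end Fermat.Agent.S13
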