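import Mathlib
import Fermat.Agent.S05.Legendre
import Fermat.Agent.S13.DPDefs
import Fermat.Agent.S13.DPA
import Fermat.Agent.S13.DPB

set_option autoImplicit false

/-!
# Route DP, piece C: identification `dpU = dpv` and the first zero of `n ↦ ψₙ(P)`

Consumes piece A (`dpSeq_of_point`) and piece B (`DpSeq.dpU_ne_zero`, `DpSeq.rel`, `DpSeq.odd`,
`DpSeq.even`, `DpSeq.three`, `DpSeq.four`) as black boxes.
-/

namespace Fermat.Agent.S13

open WeierstrassCurve WeierstrassCurve.Affine Polynomial
open Fermat.Agent.S05 (xc yc)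

section C

/-! ### evaluation of the recurrences of `W.ψ` -/

theorem dpv_odd {R : Type*} [CommRing R] (W : WeierstrassCurve R) (x y : R) (m : ℤ) :
    dpv W x y (2 * m + 1) =
      dpv W x y (m + 2) * dpv W x y m ^ 3 - dpv W x y (m - 1) * dpv W x y (m + 1) ^ 3 := by
  have := congrArg (Polynomial.evalEval x y) (W.ψ_odd m)
  simpa only [dpv, evalEval_sub, evalEval_mul, evalEval_pow] using this

theorem dpv_two {R : Type*} [CommRing R] (W : WeierstrassCurve R) (x y : R) :
    dpv W x y 2 = 2 * y + W.a₁ * x + W.a₃ := by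
  rw [dpv, ψ_two, ψ₂, Affine.evalEval_polynomialY]

theorem dpv_even {R : Type*} [CommRing R] (W : WeierstrassCurve R) (x y : R) (m : ℤ) :
    dpv W x y (2 * m) * dpv W x y 2 =
      dpv W x y (m - 1) ^ 2 * dpv W x y m * dpv W x y (m + 2)
        - dpv W x y (m - 2) * dpv W x y m * dpv W x y (m + 1) ^ 2 := by
  have := congrArg (Polynomial.evalEval x y) (W.ψ_even m)
  rw [← ψ_two] at this
  simpa only [dpv, evalEval_sub, evalEval_mul, evalEval_pow] using this

lemma dpc_dpv_zero {R : Type*} [CommRing R] (W : WeierstrassCurve R) (x y : R) :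
    dpv W x y 0 = 0 := by
  rw [dpv, ψ_zero, evalEval_zero]

lemma dpc_dpv_one {R : Type*} [CommRing R] (W : WeierstrassCurve R) (x y : R) :
    dpv W x y 1 = 1 := by
  rw [dpv, ψ_one, evalEval_one]

lemma dpc_dpv_three {R : Type*} [CommRing R] (W : WeierstrassCurve R) (x y : R) :
    dpv W x y 3 = W.Ψ₃.eval x := by
  rw [dpv, ψ_three, evalEval_C]

lemma dpc_dpv_four {R : Type*} [CommRing R] (W : WeierstrassCurve R) (x y : R) :
    dpv W x y 4 = W.preΨ₄.eval x * (2 * y + W.a₁ * x + W.a₃) := by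
  rw [dpv, ψ_four, evalEval_mul, evalEval_C, ψ₂, Affine.evalEval_polynomialY]

/-! ### the sequence `dpU` of a point -/

section field

variable {K : Type*} [Field K]

/-- the defining recursion of `dpU`, cleared of denominators -/
lemma dpc_dpU_step {W' : WeierstrassCurve K} {X : ℕ → K} {b : K} {N : ℕ} (h : DpSeq W' X b N)
    {k : ℕ} (hk1 : 1 ≤ k) (hkN : k ≤ N) :
    (X 1 - X k) * dpU X b k ^ 2 = dpU X b (k + 1) * dpU X b (k - 1) := by
  obtain ⟨j, rfl⟩ : ∃ j, k = j + 1 := ⟨k - 1, by omega⟩
  rcases j with _ | j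
  · simp
  · have h1 : dpU X b (j + 1) ≠ 0 := h.dpU_ne_zero (by omega) (by omega)
    rw [show j + 1 + 1 + 1 = j + 3 by ring, dpU_add_three, show j + 1 + 1 - 1 = j + 1 by omega,
      show j + 1 + 1 = j + 2 by ring]
    field_simp

variable {W : Affine K}

lemma dpc_xc_eq_iff {P Q : W.Point} (hP : P ≠ 0) (hQ : Q ≠ 0) :
    xc P = xc Q ↔ P = Q ∨ P = -Q := by
  rcases P with _ | ⟨x₁, y₁, h₁⟩
  · exact absurd rfl hP
  rcases Q with _ | ⟨x₂, y₂, h₂⟩
  · exact absurd rfl hQ
  exact Point.X_eq_iff

variable [DecidableEq K]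

theorem dpU_eq_dpv {x y : K} (h : W.Nonsingular x y)
    (N : ℕ) (hN : ∀ k : ℕ, 1 ≤ k → k ≤ N → k • Point.some x y h ≠ 0) {k : ℕ} (hk : k ≤ N + 1) :
    dpU (fun k => xc (k • Point.some x y h)) (2 * y + W.a₁ * x + W.a₃) k = dpv W x y k := by
  have S := dpSeq_of_point h N hN
  have hX1 : xc (1 • Point.some x y h) = x := by simp
  induction k using Nat.strong_induction_on with
  | _ k ih =>
    rcases Nat.lt_or_ge k 5 with hk5 | hk5
    · interval_cases k
      · simp [dpc_dpv_zero]
      · simp [dpc_dpv_one]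
      · simp [dpv_two]
      · rw [S.three (by omega), hX1]
        exact_mod_cast (dpc_dpv_three W x y).symm
      · rw [S.four (by omega), hX1]
        exact_mod_cast (dpc_dpv_four W x y).symm
    · rcases Nat.even_or_odd' k with ⟨m, rfl | rfl⟩
      · -- `k = 2 m`, `m ≥ 3`
        have hb : (2 * y + W.a₁ * x + W.a₃) ≠ 0 := S.b_ne (by omega)
        have e := S.even (m := m) (by omega) hk
        rw [ih (m - 1) (by omega) (by omega), ih m (by omega) (by omega),
          ih (m + 2) (by omega) (by omega), ih (m - 2) (by omega) (by omega),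
          ih (m + 1) (by omega) (by omega)] at e
        have e' := dpv_even W x y (m : ℤ)
        rw [dpv_two] at e'
        apply mul_right_cancel₀ hb
        rw [e]
        push_cast [Nat.cast_sub (show 1 ≤ m by omega), Nat.cast_sub (show 2 ≤ m by omega)]
        rw [e']
      · -- `k = 2 m + 1`, `m ≥ 2`
        have e := S.odd (m := m) (by omega) hk
        rw [ih (m - 1) (by omega) (by omega), ih m (by omega) (by omega),
          ih (m + 2) (by omega) (by omega), ih (m + 1) (by omega) (by omega)] at e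
        rw [e]
        push_cast [Nat.cast_sub (show 1 ≤ m by omega)]
        rw [dpv_odd W x y (m : ℤ)]

/-- **first zero**: if `kP ≠ 0` for `1 ≤ k ≤ N` then `ψ_k(P) ≠ 0` for `1 ≤ k ≤ N`,
`ψ_{N+1}(P) = 0 ↔ (N+1)P = 0`, the multiplication formula for `x(kP)`, `1 ≤ k ≤ N`, and the
elliptic-sequence relation in the range `n + m ≤ N + 1`. -/
theorem dpv_first_zero {x y : K} (h : W.Nonsingular x y)
    (N : ℕ) (hN : ∀ k : ℕ, 1 ≤ k → k ≤ N → k • Point.some x y h ≠ 0) :
    (∀ k : ℕ, 1 ≤ k → k ≤ N → dpv W x y k ≠ 0) ∧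
    (dpv W x y ((N + 1 : ℕ) : ℤ) = 0 ↔ (N + 1) • Point.some x y h = 0) ∧
    (∀ k : ℕ, 1 ≤ k → k ≤ N → x - xc (k • Point.some x y h) =
      dpv W x y (k + 1) * dpv W x y (k - 1) / dpv W x y k ^ 2) ∧
    (∀ n m : ℕ, 1 ≤ m → m < n → n + m ≤ N + 1 →
      dpv W x y (n + m) * dpv W x y (n - m) =
        dpv W x y (n + 1) * dpv W x y (n - 1) * dpv W x y m ^ 2
          - dpv W x y (m + 1) * dpv W x y (m - 1) * dpv W x y n ^ 2) := by
  have S := dpSeq_of_point h N hN
  have hU : ∀ k, k ≤ N + 1 →
      dpU (fun k => xc (k • Point.some x y h)) (2 * y + W.a₁ * x + W.a₃) k = dpv W x y k :=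
    fun k hk => dpU_eq_dpv h N hN hk
  generalize hP : Point.some x y h = P at S hU hN ⊢
  have hX1 : xc (1 • P) = x := by simp [← hP]
  generalize hb : 2 * y + W.a₁ * x + W.a₃ = b at S hU
  generalize hX : (fun k : ℕ => xc (k • P)) = X at S hU
  have hXk : ∀ k, xc (k • P) = X k := fun k => by rw [← hX]
  have hne : ∀ k : ℕ, 1 ≤ k → k ≤ N → dpv W x y k ≠ 0 := fun k h1 h2 => by
    rw [← hU k (by omega)]; exact S.dpU_ne_zero h1 h2
  have hstep : ∀ k : ℕ, 1 ≤ k → k ≤ N →
      (x - X k) * dpv W x y k ^ 2 = dpv W x y (k + 1) * dpv W x y (k - 1) := by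
    intro k h1 h2
    have := dpc_dpU_step S h1 h2
    rw [← hXk 1, hX1, hU k (by omega), hU (k + 1) (by omega), hU (k - 1) (by omega)] at this
    rw [this]
    push_cast [Nat.cast_sub h1]
    rfl
  refine ⟨hne, ?_, ?_, ?_⟩
  · -- first zero
    rw [← hU (N + 1) le_rfl]
    rcases N with _ | _ | N
    · -- `N = 0`
      have : P ≠ 0 := by rw [← hP]; exact Point.some_ne_zero _
      simpa using this
    · -- `N = 1`
      rw [show 0 + 1 + 1 = 2 from rfl, dpU_two, two_nsmul, ← hP, ← hb]
      constructor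
      · intro hb0
        exact Point.add_self_of_Y_eq (by rw [Affine.negY]; linear_combination hb0)
      · intro h2
        by_contra hb0
        have hy : y ≠ W.negY x y := fun hy => hb0 (by
          rw [Affine.negY] at hy; linear_combination hy)
        rw [Point.add_self_of_Y_ne hy] at h2
        exact Point.some_ne_zero _ h2
    · -- `N + 2`
      have h1 : dpU X b (N + 1) ≠ 0 := S.dpU_ne_zero (by omega) (by omega)
      have h2 : dpU X b (N + 2) ≠ 0 := S.dpU_ne_zero (by omega) (by omega)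
      rw [show N + 1 + 1 + 1 = N + 3 by ring, dpU_add_three, div_eq_zero_iff, mul_eq_zero,
        sub_eq_zero]
      simp only [h1, h2, pow_eq_zero_iff, ne_eq, OfNat.ofNat_ne_zero, not_false_eq_true, or_false]
      have hP1 : (1 : ℕ) • P ≠ 0 := hN 1 le_rfl (by omega)
      have hP2 : (N + 2) • P ≠ 0 := hN (N + 2) (by omega) le_rfl
      rw [← hXk 1, ← hXk (N + 2), dpc_xc_eq_iff hP1 hP2]
      have e3 : (N + 3) • P = (N + 2) • P + 1 • P := by rw [← add_nsmul]
      have e2 : (N + 2) • P = (N + 1) • P + 1 • P := by rw [← add_nsmul]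
      constructor
      · rintro (e | e)
        · exfalso
          apply hN (N + 1) (by omega) (by omega)
          rw [e2] at e
          exact right_eq_add.1 e
        · rw [e3, e, add_neg_cancel]
      · intro e
        right
        rw [e3] at e
        exact eq_neg_of_add_eq_zero_right e
  · intro k h1 h2
    rw [eq_div_iff (pow_ne_zero 2 (hne k h1 h2)), hXk]
    exact hstep k h1 h2
  · intro n m hm hmn hnm
    have r := S.rel hm hmn hnm
    rw [hU n (by omega), hU m (by omega), hU (n + m) (by omega), hU (n - m) (by omega)] at r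
    have s1 := hstep n (by omega) (by omega)
    have s2 := hstep m hm (by omega)
    push_cast [Nat.cast_sub hmn.le] at r
    linear_combination (-1) * r + dpv W x y m ^ 2 * s1 - dpv W x y n ^ 2 * s2

end field

end C

end Fermat.Agent.S13
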