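import Mathlib
import Fermat.Agent.S05.Legendre
import Fermat.Agent.S13.DPDefs
import Fermat.Agent.S13.DPC

set_option autoImplicit false

/-!
# Piece D of route DP: the universal point; `n ↦ ψₙ(P)` is an elliptic sequence
(any commutative ring, any point of any Weierstrass curve).
-/

namespace Fermat.Agent.S13

open WeierstrassCurve WeierstrassCurve.Affine Polynomial

/-! ### the sequence `normEDS 2 3 2` is the identity -/

theorem dpd_normEDS_nat (n : ℕ) : normEDS (2 : ℤ) 3 2 (n : ℤ) = n := by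
  induction n using Nat.strong_induction_on with
  | _ n ih =>
    have hI : ∀ k : ℤ, 0 ≤ k → k < n → normEDS (2 : ℤ) 3 2 k = k := by
      intro k hk0 hkn
      lift k to ℕ using hk0
      exact ih k (by exact_mod_cast hkn)
    rcases Nat.even_or_odd' n with ⟨m, rfl | rfl⟩
    · by_cases hm : m ≤ 2
      · interval_cases m
        · simp
        · simp
        · have : ((2 * 2 : ℕ) : ℤ) = 4 := by norm_num
          rw [this, normEDS_four]; norm_num
      · have hm' : 3 ≤ m := by omega
        have h := normEDS_even (2 : ℤ) 3 2 (m : ℤ)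
        rw [hI ((m : ℤ) - 1) (by omega) (by push_cast; omega),
          hI (m : ℤ) (by omega) (by push_cast; omega),
          hI ((m : ℤ) + 2) (by omega) (by push_cast; omega),
          hI ((m : ℤ) - 2) (by omega) (by push_cast; omega),
          hI ((m : ℤ) + 1) (by omega) (by push_cast; omega)] at h
        have h2 : normEDS (2 : ℤ) 3 2 (2 * (m : ℤ)) * 2 = (2 * (m : ℤ)) * 2 := by
          rw [h]; ring
        push_cast
        exact mul_right_cancel₀ (two_ne_zero) h2
    · by_cases hm : m ≤ 1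
      · interval_cases m
        · simp
        · have : ((2 * 1 + 1 : ℕ) : ℤ) = 3 := by norm_num
          rw [this, normEDS_three]
      · have hm' : 2 ≤ m := by omega
        have h := normEDS_odd (2 : ℤ) 3 2 (m : ℤ)
        rw [hI ((m : ℤ) - 1) (by omega) (by push_cast; omega),
          hI (m : ℤ) (by omega) (by push_cast; omega),
          hI ((m : ℤ) + 2) (by omega) (by push_cast; omega),
          hI ((m : ℤ) + 1) (by omega) (by push_cast; omega)] at h
        push_cast
        rw [h]; ring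

theorem normEDS_two_three_two (n : ℤ) : normEDS (2 : ℤ) 3 2 n = n := by
  obtain ⟨a, rfl | rfl⟩ := Int.eq_nat_or_neg n
  · exact dpd_normEDS_nat a
  · rw [normEDS_neg, dpd_normEDS_nat]

/-! ### base change and the `normEDS` form -/

theorem dpv_map {R S : Type*} [CommRing R] [CommRing S] (W : WeierstrassCurve R) (f : R →+* S)
    (x y : R) (n : ℤ) : dpv (W.map f) (f x) (f y) n = f (dpv W x y n) := by
  unfold dpv
  rw [map_ψ, map_mapRingHom_evalEval]

/-- on the curve, `ψₙ(x, y) = normEDS ψ₂(x, y) Ψ₃(x) preΨ₄(x) n` -/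
theorem dpv_eq_normEDS {R : Type*} [CommRing R] {W : WeierstrassCurve R} {x y : R}
    (h : W.toAffine.Equation x y) (n : ℤ) :
    dpv W x y n = normEDS (2 * y + W.a₁ * x + W.a₃) (W.Ψ₃.eval x) (W.preΨ₄.eval x) n := by
  unfold dpv WeierstrassCurve.ψ
  rw [← coe_evalEvalRingHom, map_normEDS, coe_evalEvalRingHom, evalEval_C, evalEval_C,
    WeierstrassCurve.ψ₂, evalEval_polynomialY]

/-! ### from the natural range `1 ≤ m < n` to all integers -/

theorem dpd_rel_nat {R : Type*} [CommRing R] (u : ℤ → R) (h0 : u 0 = 0) (h1 : u 1 = 1)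
    (hneg : ∀ n, u (-n) = -u n)
    (hrel : ∀ n m : ℕ, 1 ≤ m → m < n → u ((n : ℤ) + m) * u ((n : ℤ) - m) =
      u ((n : ℤ) + 1) * u ((n : ℤ) - 1) * u m ^ 2 - u ((m : ℤ) + 1) * u ((m : ℤ) - 1) * u n ^ 2)
    (n m : ℕ) : u ((n : ℤ) + m) * u ((n : ℤ) - m) =
      u ((n : ℤ) + 1) * u ((n : ℤ) - 1) * u m ^ 2 - u ((m : ℤ) + 1) * u ((m : ℤ) - 1) * u n ^ 2 := by
  have hm1 : u (-1) = -1 := by rw [hneg, h1]
  have key : ∀ n m : ℕ, m < n → u ((n : ℤ) + m) * u ((n : ℤ) - m) =
      u ((n : ℤ) + 1) * u ((n : ℤ) - 1) * u m ^ 2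
        - u ((m : ℤ) + 1) * u ((m : ℤ) - 1) * u n ^ 2 := by
    intro n m hmn
    rcases Nat.eq_zero_or_pos m with rfl | hm
    · simp only [Nat.cast_zero, add_zero, sub_zero, zero_add, zero_sub, h0, h1, hm1]
      ring
    · exact hrel n m hm hmn
  rcases lt_trichotomy m n with hlt | rfl | hgt
  · exact key n m hlt
  · rw [sub_self, h0]; ring
  · have h := key m n hgt
    have e : u ((n : ℤ) - m) = -u ((m : ℤ) - n) := by
      rw [← hneg]; congr 1; ring
    rw [e, add_comm (n : ℤ) m]
    linear_combination -h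

theorem dpd_rel_int {R : Type*} [CommRing R] (u : ℤ → R) (h0 : u 0 = 0) (h1 : u 1 = 1)
    (hneg : ∀ n, u (-n) = -u n)
    (hrel : ∀ n m : ℕ, 1 ≤ m → m < n → u ((n : ℤ) + m) * u ((n : ℤ) - m) =
      u ((n : ℤ) + 1) * u ((n : ℤ) - 1) * u m ^ 2 - u ((m : ℤ) + 1) * u ((m : ℤ) - 1) * u n ^ 2)
    (n m : ℤ) : u (n + m) * u (n - m) =
      u (n + 1) * u (n - 1) * u m ^ 2 - u (m + 1) * u (m - 1) * u n ^ 2 := by
  have hnat := dpd_rel_nat u h0 h1 hneg hrel
  have hnegm : ∀ n m : ℤ, (u (n + m) * u (n - m) =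
      u (n + 1) * u (n - 1) * u m ^ 2 - u (m + 1) * u (m - 1) * u n ^ 2) →
      (u (n + -m) * u (n - -m) =
      u (n + 1) * u (n - 1) * u (-m) ^ 2 - u (-m + 1) * u (-m - 1) * u n ^ 2) := by
    intro n m h
    have e1 : u (-m + 1) = -u (m - 1) := by rw [← hneg]; congr 1; ring
    have e2 : u (-m - 1) = -u (m + 1) := by rw [← hneg]; congr 1; ring
    have e3 : n + -m = n - m := by ring
    have e4 : n - -m = n + m := by ring
    rw [e1, e2, e3, e4, hneg]
    linear_combination h
  have hnegn : ∀ n m : ℤ, (u (n + m) * u (n - m) =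
      u (n + 1) * u (n - 1) * u m ^ 2 - u (m + 1) * u (m - 1) * u n ^ 2) →
      (u (-n + m) * u (-n - m) =
      u (-n + 1) * u (-n - 1) * u m ^ 2 - u (m + 1) * u (m - 1) * u (-n) ^ 2) := by
    intro n m h
    have e1 : u (-n + 1) = -u (n - 1) := by rw [← hneg]; congr 1; ring
    have e2 : u (-n - 1) = -u (n + 1) := by rw [← hneg]; congr 1; ring
    have e3 : u (-n + m) = -u (n - m) := by rw [← hneg]; congr 1; ring
    have e4 : u (-n - m) = -u (n + m) := by rw [← hneg]; congr 1; ring
    rw [e1, e2, e3, e4, hneg]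
    linear_combination h
  obtain ⟨a, rfl | rfl⟩ := Int.eq_nat_or_neg n <;> obtain ⟨b, rfl | rfl⟩ := Int.eq_nat_or_neg m
  · exact hnat a b
  · exact hnegm _ _ (hnat a b)
  · exact hnegn _ _ (hnat a b)
  · exact hnegn _ _ (hnegm _ _ (hnat a b))

/-! ### a point of infinite order over a field -/

theorem dpd_rel_field {K : Type*} [Field K] {W : WeierstrassCurve K} {x y : K}
    (h : W.toAffine.Nonsingular x y) (hne : ∀ n : ℕ, 1 ≤ n → dpv W x y (n : ℤ) ≠ 0)
    (n m : ℕ) (hm : 1 ≤ m) (hmn : m < n) :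
    dpv W x y ((n : ℤ) + m) * dpv W x y ((n : ℤ) - m) =
      dpv W x y ((n : ℤ) + 1) * dpv W x y ((n : ℤ) - 1) * dpv W x y m ^ 2
        - dpv W x y ((m : ℤ) + 1) * dpv W x y ((m : ℤ) - 1) * dpv W x y n ^ 2 := by
  classical
  have key : ∀ N : ℕ, ∀ k : ℕ, 1 ≤ k → k ≤ N → k • Point.some x y h ≠ 0 := by
    intro N
    induction N with
    | zero => intro k hk1 hk0; omega
    | succ N ih =>
      intro k hk1 hkN
      rcases Nat.lt_or_ge k (N + 1) with hlt | hge
      · exact ih k hk1 (by omega)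
      · have hk : k = N + 1 := by omega
        subst hk
        intro h0
        exact hne (N + 1) (by omega) ((dpv_first_zero h N ih).2.1.mpr h0)
  exact (dpv_first_zero h (n + m) (key (n + m))).2.2.2 n m hm hmn (by omega)

/-! ### the universal point -/

/-- the universal ring `ℤ[A₁, A₂, A₃, A₄, X, Y]` -/
abbrev DpdRing : Type := MvPolynomial (Fin 6) ℤ

/-- the universal Weierstrass curve through the point `(X, Y)` -/
noncomputable def dpdW : WeierstrassCurve DpdRing where
  a₁ := MvPolynomial.X 0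
  a₂ := MvPolynomial.X 1
  a₃ := MvPolynomial.X 2
  a₄ := MvPolynomial.X 3
  a₆ := MvPolynomial.X 5 ^ 2 + MvPolynomial.X 0 * MvPolynomial.X 4 * MvPolynomial.X 5
    + MvPolynomial.X 2 * MvPolynomial.X 5
    - (MvPolynomial.X 4 ^ 3 + MvPolynomial.X 1 * MvPolynomial.X 4 ^ 2
      + MvPolynomial.X 3 * MvPolynomial.X 4)

/-- the specialisation homomorphism of the universal ring to a curve with a point -/
noncomputable def dpdHom {R : Type*} [CommRing R] (W : WeierstrassCurve R) (x y : R) :
    DpdRing →+* R :=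
  MvPolynomial.eval₂Hom (Int.castRingHom R) ![W.a₁, W.a₂, W.a₃, W.a₄, x, y]

theorem dpd_equation : dpdW.toAffine.Equation (MvPolynomial.X 4) (MvPolynomial.X 5) := by
  rw [Affine.equation_iff]
  simp only [dpdW]
  ring

theorem dpdHom_X4 {R : Type*} [CommRing R] (W : WeierstrassCurve R) (x y : R) :
    dpdHom W x y (MvPolynomial.X 4) = x := by
  simp [dpdHom]

theorem dpdHom_X5 {R : Type*} [CommRing R] (W : WeierstrassCurve R) (x y : R) :
    dpdHom W x y (MvPolynomial.X 5) = y := by
  simp [dpdHom]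

theorem dpdW_map {R : Type*} [CommRing R] {W : WeierstrassCurve R} {x y : R}
    (h : W.toAffine.Equation x y) : dpdW.map (dpdHom W x y) = W := by
  rw [Affine.equation_iff] at h
  ext
  · simp [dpdW, dpdHom]
  · simp [dpdW, dpdHom]
  · simp [dpdW, dpdHom]
  · simp [dpdW, dpdHom]
  · simp [dpdW, dpdHom]
    linear_combination h

/-- every value of a division polynomial is the specialisation of the universal one -/
theorem dpd_spec {R : Type*} [CommRing R] {W : WeierstrassCurve R} {x y : R}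
    (h : W.toAffine.Equation x y) (n : ℤ) :
    dpv W x y n = dpdHom W x y (dpv dpdW (MvPolynomial.X 4) (MvPolynomial.X 5) n) := by
  rw [← dpv_map, dpdW_map h, dpdHom_X4, dpdHom_X5]

/-- the cuspidal cubic `y² = x³` over `ℤ` -/
def dpdCusp : WeierstrassCurve ℤ := ⟨0, 0, 0, 0, 0⟩

theorem dpd_cusp_equation : dpdCusp.toAffine.Equation 1 1 := by
  rw [Affine.equation_iff]
  simp [dpdCusp]

theorem dpd_cusp_dpv (n : ℤ) : dpv dpdCusp 1 1 n = n := by
  rw [dpv_eq_normEDS dpd_cusp_equation]
  have h2 : (2 * 1 + dpdCusp.a₁ * 1 + dpdCusp.a₃ : ℤ) = 2 := by simp [dpdCusp]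
  have h3 : dpdCusp.Ψ₃.eval 1 = 3 := by
    simp [WeierstrassCurve.Ψ₃, dpdCusp, WeierstrassCurve.b₂, WeierstrassCurve.b₄,
      WeierstrassCurve.b₆, WeierstrassCurve.b₈]
  have h4 : dpdCusp.preΨ₄.eval 1 = 2 := by
    simp [WeierstrassCurve.preΨ₄, dpdCusp, WeierstrassCurve.b₂, WeierstrassCurve.b₄,
      WeierstrassCurve.b₆, WeierstrassCurve.b₈]
  rw [h2, h3, h4, normEDS_two_three_two]

/-- the values of the universal division polynomials do not vanish -/
theorem dpd_univ_ne_zero {n : ℤ} (hn : n ≠ 0) :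
    dpv dpdW (MvPolynomial.X 4) (MvPolynomial.X 5) n ≠ 0 := by
  intro h0
  have h := dpd_spec dpd_cusp_equation n
  rw [h0, map_zero, dpd_cusp_dpv] at h
  exact hn h

theorem dpd_univ_nonsingular : dpdW.toAffine.Nonsingular (MvPolynomial.X 4) (MvPolynomial.X 5) := by
  rw [Affine.nonsingular_iff']
  refine ⟨dpd_equation, Or.inr ?_⟩
  have h := dpd_univ_ne_zero (n := 2) two_ne_zero
  rw [dpv_eq_normEDS dpd_equation, normEDS_two] at h
  exact h

/-- Ward's relation for the universal point -/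
theorem dpd_univ_rel (n m : ℤ) :
    dpv dpdW (MvPolynomial.X 4) (MvPolynomial.X 5) (n + m)
        * dpv dpdW (MvPolynomial.X 4) (MvPolynomial.X 5) (n - m) =
      dpv dpdW (MvPolynomial.X 4) (MvPolynomial.X 5) (n + 1)
          * dpv dpdW (MvPolynomial.X 4) (MvPolynomial.X 5) (n - 1)
          * dpv dpdW (MvPolynomial.X 4) (MvPolynomial.X 5) m ^ 2
        - dpv dpdW (MvPolynomial.X 4) (MvPolynomial.X 5) (m + 1)
          * dpv dpdW (MvPolynomial.X 4) (MvPolynomial.X 5) (m - 1)
          * dpv dpdW (MvPolynomial.X 4) (MvPolynomial.X 5) n ^ 2 := by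
  set F := FractionRing DpdRing
  have hinj : Function.Injective (algebraMap DpdRing F) := IsFractionRing.injective DpdRing F
  have hns : (dpdW.map (algebraMap DpdRing F)).toAffine.Nonsingular
      (algebraMap DpdRing F (MvPolynomial.X 4)) (algebraMap DpdRing F (MvPolynomial.X 5)) :=
    (Affine.map_nonsingular (W := dpdW) hinj _ _).mpr dpd_univ_nonsingular
  have hne : ∀ k : ℕ, 1 ≤ k → dpv (dpdW.map (algebraMap DpdRing F))
      (algebraMap DpdRing F (MvPolynomial.X 4)) (algebraMap DpdRing F (MvPolynomial.X 5))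
      (k : ℤ) ≠ 0 := by
    intro k hk
    rw [dpv_map]
    intro h0
    exact dpd_univ_ne_zero (n := (k : ℤ)) (by omega) (hinj (by rw [h0, map_zero]))
  have hF := dpd_rel_int (fun k => dpv (dpdW.map (algebraMap DpdRing F))
      (algebraMap DpdRing F (MvPolynomial.X 4)) (algebraMap DpdRing F (MvPolynomial.X 5)) k)
    (by simp [dpv]) (by simp [dpv]) (by intro k; simp [dpv])
    (fun a b hb hba => dpd_rel_field hns hne a b hb hba) n m
  simp only [dpv_map] at hF
  apply hinj
  simp only [map_mul, map_sub, map_pow]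
  exact hF

/-- **Ward's relation** for the values of the division polynomials at a point of a curve -/
theorem dpv_rel {R : Type*} [CommRing R] {W : WeierstrassCurve R} {x y : R}
    (h : W.toAffine.Equation x y) (n m : ℤ) :
    dpv W x y (n + m) * dpv W x y (n - m) =
      dpv W x y (n + 1) * dpv W x y (n - 1) * dpv W x y m ^ 2
        - dpv W x y (m + 1) * dpv W x y (m - 1) * dpv W x y n ^ 2 := by
  simp only [dpd_spec h]
  rw [← map_mul, dpd_univ_rel n m]
  simp only [map_mul, map_sub, map_pow]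

end Fermat.Agent.S13
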