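import Mathlib
import Fermat.Agent.S05.Legendre
import Fermat.Agent.S13.DPDefs
import Fermat.Agent.S13.DPC
import Fermat.Agent.S13.DPD

set_option autoImplicit false

/-!
# Route DP of S13, piece E: zeros of `n ↦ ψₙ(P)`; torsion points of prime order

Black boxes (from `DPSpec`): `dpv_first_zero` (piece C) and `dpv_rel` (piece D).
-/

namespace Fermat.Agent.S13

open WeierstrassCurve WeierstrassCurve.Affine Polynomial
open Fermat.Agent.S05 (xc yc)

/-! ### Basic values -/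

section basic

variable {R : Type*} [CommRing R] (W : WeierstrassCurve R) (x y : R)

theorem dpe_dpv_zero : dpv W x y 0 = 0 := by
  simp [dpv]

theorem dpe_dpv_one : dpv W x y 1 = 1 := by
  simp [dpv]

theorem dpe_dpv_two : dpv W x y 2 = 2 * y + W.a₁ * x + W.a₃ := by
  rw [dpv, ψ_two, ψ₂, Affine.evalEval_polynomialY]

theorem dpe_dpv_three : dpv W x y 3 = W.Ψ₃.eval x := by
  rw [dpv, ψ_three, evalEval_C]

theorem dpe_dpv_four : dpv W x y 4 = W.preΨ₄.eval x * (2 * y + W.a₁ * x + W.a₃) := by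
  rw [dpv, ψ_four, evalEval_mul, evalEval_C, ψ₂, Affine.evalEval_polynomialY]

theorem dpe_dpv_neg (n : ℤ) : dpv W x y (-n) = -dpv W x y n := by
  rw [dpv, ψ_neg, evalEval_neg, dpv]

end basic

/-! ### Values on the curve -/

section curve

variable {R : Type*} [CommRing R] {W : WeierstrassCurve R} {x y : R}

/-- on the curve, `ψₙ` and `Ψₙ` have the same value -/
theorem dpe_dpv_eq_evalEval_Ψ (h : W.toAffine.Equation x y) (n : ℤ) :
    dpv W x y n = (W.Ψ n).evalEval x y := by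
  have h1 := Affine.CoordinateRing.mk_ψ W n
  rw [Affine.CoordinateRing.mk, AdjoinRoot.mk_eq_mk] at h1
  obtain ⟨t, ht⟩ := h1
  have h2 : W.ψ n = W.Ψ n + W.toAffine.polynomial * t := by rw [← ht]; ring
  rw [dpv, h2, evalEval_add, evalEval_mul]
  have h3 : W.toAffine.polynomial.evalEval x y = 0 := h
  rw [h3, zero_mul, add_zero]

/-- for odd `n` the value of `ψₙ` at a point of the curve does not depend on `y` -/
theorem dpv_eq_eval_preΨ_of_odd (h : W.toAffine.Equation x y) {n : ℤ} (hn : Odd n) :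
    dpv W x y n = (W.preΨ n).eval x := by
  rw [dpe_dpv_eq_evalEval_Ψ h, WeierstrassCurve.Ψ, if_neg (Int.not_even_iff_odd.2 hn), mul_one,
    evalEval_C]

theorem dpe_dpv_of_even (h : W.toAffine.Equation x y) {n : ℤ} (hn : Even n) :
    dpv W x y n = (W.preΨ n).eval x * (2 * y + W.a₁ * x + W.a₃) := by
  rw [dpe_dpv_eq_evalEval_Ψ h, WeierstrassCurve.Ψ, if_pos hn, evalEval_mul, evalEval_C, ψ₂,
    Affine.evalEval_polynomialY]

theorem dpe_Ψ₂Sq_eval (h : W.toAffine.Equation x y) :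
    W.Ψ₂Sq.eval x = (2 * y + W.a₁ * x + W.a₃) ^ 2 := by
  rw [Affine.equation_iff] at h
  simp only [Ψ₂Sq, b₂, b₄, b₆, eval_add, eval_mul, eval_C, eval_pow, eval_X]
  linear_combination (-4 : R) * h

/-- `Ψ₃ = -W_X² + a₁ W_X ψ₂ + (a₂ + 3x) ψ₂²` on the curve -/
theorem dpe_Ψ₃_eval (h : W.toAffine.Equation x y) :
    W.Ψ₃.eval x =
      -(W.a₁ * y - (3 * x ^ 2 + 2 * W.a₂ * x + W.a₄)) ^ 2
        + W.a₁ * (W.a₁ * y - (3 * x ^ 2 + 2 * W.a₂ * x + W.a₄)) * (2 * y + W.a₁ * x + W.a₃)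
        + (W.a₂ + 3 * x) * (2 * y + W.a₁ * x + W.a₃) ^ 2 := by
  rw [Affine.equation_iff] at h
  simp only [Ψ₃, b₂, b₄, b₆, b₈, eval_add, eval_mul, eval_C, eval_pow, eval_X, eval_ofNat]
  linear_combination (-(4 * W.a₂ + 12 * x + W.a₁ ^ 2) : R) * h

/-- `preΨ₄ = (6x² + b₂x + b₄) Ψ₃ - Ψ₂Sq²` -/
theorem dpe_preΨ₄_eval (W : WeierstrassCurve R) (x : R) :
    W.preΨ₄.eval x =
      (6 * x ^ 2 + W.b₂ * x + W.b₄) * W.Ψ₃.eval x - W.Ψ₂Sq.eval x ^ 2 := by
  have hb := W.b_relation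
  simp only [preΨ₄, Ψ₃, Ψ₂Sq, eval_add, eval_mul, eval_C, eval_pow, eval_X, eval_ofNat]
  linear_combination (x ^ 2 : R) * hb

end curve

/-! ### Zeros of `n ↦ ψₙ(P)` -/

section E

variable {K : Type*} [Field K] [DecidableEq K] {W : Affine K}

/-- the values `ψ_k(P)`, `1 ≤ k < r`, `ψ_r(P)` and `ψ_{r+1}(P)` at a point of exact order `r` -/
theorem dpe_basic {x y : K} (h : W.Nonsingular x y) {r : ℕ} (hr : 2 ≤ r)
    (hord : ∀ k : ℕ, 1 ≤ k → k < r → k • Point.some x y h ≠ 0)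
    (hr0 : r • Point.some x y h = 0) :
    (∀ k : ℕ, 1 ≤ k → k < r → dpv W x y k ≠ 0) ∧ dpv W x y r = 0 ∧
      dpv W x y ((r : ℤ) + 1) ≠ 0 := by
  obtain ⟨N, rfl⟩ : ∃ N, r = N + 1 := ⟨r - 1, by omega⟩
  obtain ⟨h1, h2, -, -⟩ := dpv_first_zero h N (fun k hk1 hkN => hord k hk1 (by omega))
  have hlt : ∀ k : ℕ, 1 ≤ k → k < N + 1 → dpv W x y k ≠ 0 := fun k hk1 hk =>
    h1 k hk1 (by omega)
  have hz : dpv W x y ((N + 1 : ℕ) : ℤ) = 0 := h2.2 hr0
  refine ⟨hlt, hz, ?_⟩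
  have heq : W.toAffine.Equation x y := h.1
  -- three cases
  rcases Nat.lt_or_ge N 3 with hN | hN
  · interval_cases N
    · omega
    · -- `r = 2`
      have hψ : 2 * y + W.a₁ * x + W.a₃ = 0 := by
        rw [← dpe_dpv_two W x y]; exact_mod_cast hz
      have hX : W.a₁ * y - (3 * x ^ 2 + 2 * W.a₂ * x + W.a₄) ≠ 0 := by
        rcases ((W.nonsingular_iff' x y).1 h).2 with hX | hY
        · exact hX
        · exact absurd hψ hY
      have h3 : dpv W x y 3 = -(W.a₁ * y - (3 * x ^ 2 + 2 * W.a₂ * x + W.a₄)) ^ 2 := by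
        rw [dpe_dpv_three, dpe_Ψ₃_eval heq, hψ]; ring
      have : ((1 + 1 : ℕ) : ℤ) + 1 = 3 := by norm_num
      rw [this, h3]
      exact neg_ne_zero.2 (pow_ne_zero 2 hX)
    · -- `r = 3`
      have hΨ : W.Ψ₃.eval x = 0 := by
        rw [← dpe_dpv_three W x y]; exact_mod_cast hz
      have hψ : 2 * y + W.a₁ * x + W.a₃ ≠ 0 := by
        rw [← dpe_dpv_two W x y]; exact_mod_cast hlt 2 (by omega) (by omega)
      have h4 : dpv W x y 4 = -(2 * y + W.a₁ * x + W.a₃) ^ 5 := by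
        rw [dpe_dpv_four, dpe_preΨ₄_eval, hΨ, dpe_Ψ₂Sq_eval heq]; ring
      have : ((2 + 1 : ℕ) : ℤ) + 1 = 4 := by norm_num
      rw [this, h4]
      exact neg_ne_zero.2 (pow_ne_zero 5 hψ)
  · -- `r ≥ 4`
    have hrel := dpv_rel heq (((N + 1 : ℕ) : ℤ) - 1) 2
    have e1 : ((N + 1 : ℕ) : ℤ) - 1 + 2 = ((N + 1 : ℕ) : ℤ) + 1 := by ring
    have e2 : ((N + 1 : ℕ) : ℤ) - 1 + 1 = ((N + 1 : ℕ) : ℤ) := by ring
    have e3 : ((N + 1 : ℕ) : ℤ) - 1 - 1 = ((N - 1 : ℕ) : ℤ) := by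
      rw [Nat.cast_sub (by omega)]; push_cast; ring
    have e4 : ((N + 1 : ℕ) : ℤ) - 1 = ((N : ℕ) : ℤ) := by push_cast; ring
    have e5 : ((N + 1 : ℕ) : ℤ) - 1 - 2 = ((N - 2 : ℕ) : ℤ) := by
      rw [Nat.cast_sub (by omega)]; push_cast; ring
    have e6 : (2 : ℤ) + 1 = 3 := by norm_num
    have e7 : (2 : ℤ) - 1 = 1 := by norm_num
    rw [e1, e2, e5, e3, e4, e6, e7, hz, dpe_dpv_one] at hrel
    have hN0 : dpv W x y (N : ℕ) ≠ 0 := hlt N (by omega) (by omega)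
    have h30 : dpv W x y 3 ≠ 0 := by exact_mod_cast hlt 3 (by omega) (by omega)
    intro h0
    rw [h0] at hrel
    have : dpv W x y 3 * dpv W x y (N : ℕ) ^ 2 = 0 := by linear_combination hrel
    exact mul_ne_zero h30 (pow_ne_zero 2 hN0) this

/-- the natural number case of `dpv_ne_zero_of_not_dvd` -/
theorem dpe_ne_zero_nat {x y : K} (h : W.Nonsingular x y) {r : ℕ} (hr : 2 ≤ r)
    (hord : ∀ k : ℕ, 1 ≤ k → k < r → k • Point.some x y h ≠ 0)
    (hr0 : r • Point.some x y h = 0) (m : ℕ) (hm : ¬ r ∣ m) : dpv W x y m ≠ 0 := by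
  obtain ⟨hlt, hz, hsucc⟩ := dpe_basic h hr hord hr0
  induction m using Nat.strong_induction_on with
  | _ m ih =>
    rcases Nat.lt_or_ge m r with hmr | hmr
    · have hm0 : m ≠ 0 := fun h0 => hm (h0 ▸ dvd_zero r)
      exact hlt m (by omega) hmr
    · have hne : m ≠ r := fun h0 => hm (h0 ▸ dvd_refl r)
      have hk : ¬ r ∣ m - r := fun hd => hm ((Nat.dvd_sub_iff_left hmr (dvd_refl r)).1 hd)
      have hk0 := ih (m - r) (by omega) hk
      have hrel := dpv_rel h.1 ((m - r : ℕ) : ℤ) (r : ℤ)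
      have e1 : ((m - r : ℕ) : ℤ) + r = m := by rw [Nat.cast_sub hmr]; ring
      have e2 : ((r : ℕ) : ℤ) - 1 = ((r - 1 : ℕ) : ℤ) := by
        rw [Nat.cast_sub (by omega)]; push_cast; ring
      rw [e1, hz, e2] at hrel
      have hr1 : dpv W x y ((r - 1 : ℕ) : ℤ) ≠ 0 := hlt (r - 1) (by omega) (by omega)
      intro h0
      rw [h0] at hrel
      have : dpv W x y ((r : ℤ) + 1) * dpv W x y ((r - 1 : ℕ) : ℤ) *
          dpv W x y ((m - r : ℕ) : ℤ) ^ 2 = 0 := by linear_combination hrel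
      exact mul_ne_zero (mul_ne_zero hsucc hr1) (pow_ne_zero 2 hk0) this

theorem dpv_ne_zero_of_not_dvd {x y : K}
    (h : W.Nonsingular x y) {r : ℕ} (hr : 2 ≤ r)
    (hord : ∀ k : ℕ, 1 ≤ k → k < r → k • Point.some x y h ≠ 0)
    (hr0 : r • Point.some x y h = 0) {m : ℤ} (hm : ¬ (r : ℤ) ∣ m) : dpv W x y m ≠ 0 := by
  have key : ∀ n : ℕ, ¬ (r : ℤ) ∣ (n : ℤ) → dpv W x y (n : ℤ) ≠ 0 := fun n hn =>
    dpe_ne_zero_nat h hr hord hr0 n (fun hd => hn (Int.natCast_dvd_natCast.2 hd))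
  rcases le_total 0 m with h0 | h0
  · obtain ⟨n, rfl⟩ := Int.eq_ofNat_of_zero_le h0
    exact key n hm
  · obtain ⟨n, hn⟩ := Int.eq_ofNat_of_zero_le (neg_nonneg.2 h0)
    have hm' : m = -(n : ℤ) := by omega
    rw [hm', dpe_dpv_neg]
    refine neg_ne_zero.2 (key n fun hd => hm ?_)
    rw [hm']
    exact (dvd_neg).2 hd

theorem dpv_ne_zero_of_forall_nsmul_ne_zero {x y : K}
    (h : W.Nonsingular x y) (hord : ∀ k : ℕ, 1 ≤ k → k • Point.some x y h ≠ 0) {m : ℤ}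
    (hm : m ≠ 0) : dpv W x y m ≠ 0 := by
  have key : ∀ n : ℕ, 1 ≤ n → dpv W x y (n : ℤ) ≠ 0 := fun n hn =>
    (dpv_first_zero h n (fun k hk1 _ => hord k hk1)).1 n hn le_rfl
  rcases le_total 0 m with h0 | h0
  · obtain ⟨n, rfl⟩ := Int.eq_ofNat_of_zero_le h0
    exact key n (by omega)
  · obtain ⟨n, hn⟩ := Int.eq_ofNat_of_zero_le (neg_nonneg.2 h0)
    have hm' : m = -(n : ℤ) := by omega
    rw [hm', dpe_dpv_neg]
    exact neg_ne_zero.2 (key n (by omega))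

/-- for a prime `p`: `pP = 0 ↔ ψ_p(P) = 0` -/
theorem nsmul_eq_zero_iff_dpv_eq_zero {x y : K}
    (h : W.Nonsingular x y) {p : ℕ} (hp : p.Prime) :
    p • Point.some x y h = 0 ↔ dpv W x y p = 0 := by
  have hP : Point.some x y h ≠ 0 := Point.some_ne_zero h
  constructor
  · intro hp0
    have hord : ∀ k : ℕ, 1 ≤ k → k < p → k • Point.some x y h ≠ 0 := by
      intro k hk1 hkp hk0
      have h1 : addOrderOf (Point.some x y h) ∣ p := addOrderOf_dvd_of_nsmul_eq_zero hp0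
      have h2 : addOrderOf (Point.some x y h) ∣ k := addOrderOf_dvd_of_nsmul_eq_zero hk0
      rcases (Nat.dvd_prime hp).1 h1 with h3 | h3
      · exact hP (AddMonoid.addOrderOf_eq_one_iff.1 h3)
      · rw [h3] at h2
        exact absurd (Nat.le_of_dvd (by omega) h2) (by omega)
    exact (dpe_basic h hp.two_le hord hp0).2.1
  · intro hv
    by_contra hp0
    by_cases hall : ∀ k : ℕ, 1 ≤ k → k ≤ p → k • Point.some x y h ≠ 0
    · exact (dpv_first_zero h p hall).1 p hp.one_le le_rfl hv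
    · push Not at hall
      have hex : ∃ k : ℕ, 1 ≤ k ∧ k • Point.some x y h = 0 := by
        obtain ⟨k, hk1, -, hk0⟩ := hall
        exact ⟨k, hk1, hk0⟩
      classical
      obtain ⟨r, ⟨hr1, hr0⟩, hmin'⟩ : ∃ r : ℕ, (1 ≤ r ∧ r • Point.some x y h = 0) ∧
          ∀ k < r, ¬ (1 ≤ k ∧ k • Point.some x y h = 0) :=
        ⟨Nat.find hex, Nat.find_spec hex, fun k hk => Nat.find_min hex hk⟩
      have hmin : ∀ k : ℕ, 1 ≤ k → k < r → k • Point.some x y h ≠ 0 := fun k hk1 hkr hk0 =>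
        hmin' k hkr ⟨hk1, hk0⟩
      have hrp : r ≤ p := by
        obtain ⟨k, hk1, hkp, hk0⟩ := hall
        by_contra hlt
        exact hmin' k (by omega) ⟨hk1, hk0⟩
      have hr2 : 2 ≤ r := by
        rcases Nat.lt_or_ge r 2 with hlt | hge
        · have : r = 1 := by omega
          rw [this, one_smul] at hr0
          exact absurd hr0 hP
        · exact hge
      have hne : r ≠ p := fun hrp' => hp0 (hrp' ▸ hr0)
      have hnd : ¬ (r : ℤ) ∣ (p : ℤ) := by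
        rw [Int.natCast_dvd_natCast]
        intro hd
        rcases (Nat.dvd_prime hp).1 hd with h1 | h1
        · omega
        · exact hne h1
      exact dpv_ne_zero_of_not_dvd h hr2 hmin hr0 hnd hv

end E

end Fermat.Agent.S13
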