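import Mathlib
import Fermat.Agent.S05.Legendre
import Fermat.Agent.S13.DPDefs
import Fermat.Agent.S13.DPE

set_option autoImplicit false
set_option linter.unusedVariables false
set_option linter.unusedSectionVars false

/-!
# Route DP of S13, piece F: the `p`-torsion over an algebraically closed field

`p` an odd prime: the roots of `preΨ_p` are the `x`-coordinates of the nonzero `p`-torsion points;
if moreover `p ≠ 0` in `K` then `E[p] ≠ 0`, `E[p]` is finite and `#E[p] ≤ p²`.
Black boxes (piece E): `nsmul_eq_zero_iff_dpv_eq_zero`, `dpv_eq_eval_preΨ_of_odd`.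
-/

namespace Fermat.Agent.S13

open WeierstrassCurve WeierstrassCurve.Affine Polynomial
open Fermat.Agent.S05 (xc yc)

section F

variable {K : Type*} [Field K] [DecidableEq K] [IsAlgClosed K] {W : Affine K}

/-- over an algebraically closed field every `x` is the `x`-coordinate of a point. -/
theorem dpf_exists_equation (W : Affine K) (x : K) : ∃ y : K, W.Equation x y := by
  -- `y² + (a₁x + a₃) y - (x³ + a₂x² + a₄x + a₆) = 0`
  let q : K[X] := X ^ 2 + C (W.a₁ * x + W.a₃) * X - C (x ^ 3 + W.a₂ * x ^ 2 + W.a₄ * x + W.a₆)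
  have hdeg : q.degree = 2 := by
    simp only [q]
    compute_degree!
  obtain ⟨y, hy⟩ := IsAlgClosed.exists_root q (by rw [hdeg]; norm_num)
  refine ⟨y, ?_⟩
  rw [Affine.equation_iff]
  simp only [q, IsRoot.def, eval_sub, eval_add, eval_mul, eval_pow, eval_X, eval_C] at hy
  linear_combination hy

theorem dpf_odd_of_prime {p : ℕ} (hp : p.Prime) (hp2 : p ≠ 2) : Odd (p : ℤ) := by
  have := hp.eq_two_or_odd'.resolve_left hp2
  exact_mod_cast this

/-- the roots of `preΨ_p` are exactly the `x`-coordinates of the nonzero `p`-torsion points -/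
theorem eval_preΨ_eq_zero_iff (hΔ : W.Δ ≠ 0) {p : ℕ} (hp : p.Prime)
    (hp2 : p ≠ 2) (x : K) :
    (W.preΨ p).eval x = 0 ↔ ∃ P : W.Point, P ≠ 0 ∧ p • P = 0 ∧ xc P = x := by
  have hodd := dpf_odd_of_prime hp hp2
  constructor
  · intro h0
    obtain ⟨y, hy⟩ := dpf_exists_equation W x
    have hns : W.Nonsingular x y := (Affine.equation_iff_nonsingular_of_Δ_ne_zero hΔ).mp hy
    refine ⟨Point.some x y hns, Point.some_ne_zero hns, ?_, rfl⟩
    rw [nsmul_eq_zero_iff_dpv_eq_zero hns hp, dpv_eq_eval_preΨ_of_odd hy hodd]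
    exact h0
  · rintro ⟨P, hP0, hpP, rfl⟩
    cases P with
    | zero => exact absurd rfl hP0
    | some x y h =>
      rw [nsmul_eq_zero_iff_dpv_eq_zero h hp, dpv_eq_eval_preΨ_of_odd h.1 hodd] at hpP
      exact hpP

theorem exists_ne_zero_nsmul_eq_zero (hΔ : W.Δ ≠ 0) {p : ℕ} (hp : p.Prime) (hp2 : p ≠ 2)
    (hpK : (p : K) ≠ 0) : ∃ P : W.Point, P ≠ 0 ∧ p • P = 0 := by
  have hpK' : (((p : ℕ) : ℤ) : K) ≠ 0 := by simpa using hpK
  have h3 : 2 < ((p : ℕ) : ℤ).natAbs := by
    rw [Int.natAbs_natCast]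
    have := hp.two_le
    omega
  have hpos := W.natDegree_preΨ_pos h3 hpK'
  have hdeg : (W.preΨ (p : ℤ)).degree ≠ 0 := (natDegree_pos_iff_degree_pos.mp hpos).ne'
  obtain ⟨x, hx⟩ := IsAlgClosed.exists_root (W.preΨ (p : ℤ)) hdeg
  obtain ⟨P, hP0, hpP, -⟩ := (eval_preΨ_eq_zero_iff hΔ hp hp2 x).mp hx
  exact ⟨P, hP0, hpP⟩

/-- the quadratic in `y` cutting out the points with given `x`. -/
noncomputable def dpfQuad (W : Affine K) (x : K) : K[X] :=
  X ^ 2 + C (W.a₁ * x + W.a₃) * X - C (x ^ 3 + W.a₂ * x ^ 2 + W.a₄ * x + W.a₆)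

theorem dpf_natDegree_quad (W : Affine K) (x : K) : (dpfQuad W x).natDegree = 2 := by
  unfold dpfQuad
  compute_degree!

theorem dpf_quad_ne_zero (W : Affine K) (x : K) : dpfQuad W x ≠ 0 := by
  intro h
  have := dpf_natDegree_quad W x
  rw [h, natDegree_zero] at this
  omega

theorem dpf_isRoot_quad {x y : K} (h : W.Equation x y) : (dpfQuad W x).IsRoot y := by
  rw [Affine.equation_iff] at h
  simp only [dpfQuad, IsRoot.def, eval_sub, eval_add, eval_mul, eval_pow, eval_X, eval_C]
  linear_combination h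

/-- the finite set containing the coordinates of all `p`-torsion points. -/
noncomputable def dpfBox (W : Affine K) (p : ℕ) : Finset (Option (K × K)) :=
  insert none ((W.preΨ (p : ℤ)).roots.toFinset.biUnion fun x =>
    (dpfQuad W x).roots.toFinset.image fun y => some (x, y))

theorem dpf_card_box_le (W : Affine K) {p : ℕ} (hp : p.Prime) (hp2 : p ≠ 2) :
    (dpfBox W p).card ≤ p ^ 2 := by
  have hodd : ¬ Even ((p : ℕ) : ℤ) := by
    rw [Int.not_even_iff_odd]
    exact dpf_odd_of_prime hp hp2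
  have h1 : (W.preΨ (p : ℤ)).roots.toFinset.card ≤ (p ^ 2 - 1) / 2 := by
    refine (Multiset.toFinset_card_le _).trans ((card_roots' _).trans ?_)
    have := W.natDegree_preΨ_le (p : ℤ)
    rwa [if_neg hodd, Int.natAbs_natCast] at this
  have h2 : ∀ x : K, ((dpfQuad W x).roots.toFinset.image fun y => some (x, y)).card ≤ 2 := by
    intro x
    refine Finset.card_image_le.trans ((Multiset.toFinset_card_le _).trans ?_)
    exact (card_roots' _).trans (dpf_natDegree_quad W x).le
  have h3 : ((W.preΨ (p : ℤ)).roots.toFinset.biUnion fun x =>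
      (dpfQuad W x).roots.toFinset.image fun y => some (x, y)).card ≤
      (W.preΨ (p : ℤ)).roots.toFinset.card * 2 :=
    Finset.card_biUnion_le_card_mul _ _ _ fun x _ => h2 x
  have h4 : (dpfBox W p).card ≤ (W.preΨ (p : ℤ)).roots.toFinset.card * 2 + 1 := by
    unfold dpfBox
    exact (Finset.card_insert_le _ _).trans (Nat.add_le_add_right h3 1)
  have hp1 : 1 ≤ p ^ 2 := Nat.one_le_pow _ _ hp.pos
  generalize p ^ 2 = m at *
  omega

/-- coordinates of a torsion point. -/
noncomputable def dpfCoord (W : Affine K) : W.Point → Option (K × K)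
  | .zero => none
  | .some x y _ => some (x, y)

theorem dpfCoord_injective (W : Affine K) : Function.Injective (dpfCoord W) := by
  intro P Q h
  cases P with
  | zero =>
    cases Q with
    | zero => rfl
    | some x y h' => simp [dpfCoord] at h
  | some x y hxy =>
    cases Q with
    | zero => simp [dpfCoord] at h
    | some x' y' h' =>
      simp only [dpfCoord, Option.some.injEq, Prod.mk.injEq] at h
      obtain ⟨rfl, rfl⟩ := h
      rfl

theorem dpfCoord_mem_box (hΔ : W.Δ ≠ 0) {p : ℕ} (hp : p.Prime) (hp2 : p ≠ 2)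
    (hpK : (p : K) ≠ 0) (P : W.Point) (hP : p • P = 0) : dpfCoord W P ∈ dpfBox W p := by
  have hpK' : (((p : ℕ) : ℤ) : K) ≠ 0 := by simpa using hpK
  cases P with
  | zero => exact Finset.mem_insert_self _ _
  | some x y h =>
    refine Finset.mem_insert_of_mem ?_
    rw [Finset.mem_biUnion]
    refine ⟨x, ?_, ?_⟩
    · rw [Multiset.mem_toFinset, mem_roots (W.preΨ_ne_zero hpK'), IsRoot.def,
        eval_preΨ_eq_zero_iff hΔ hp hp2]
      exact ⟨Point.some x y h, Point.some_ne_zero h, hP, rfl⟩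
    · rw [Finset.mem_image]
      refine ⟨y, ?_, rfl⟩
      rw [Multiset.mem_toFinset, mem_roots (dpf_quad_ne_zero W x)]
      exact dpf_isRoot_quad h.1

/-- the injection of the `p`-torsion into the box. -/
noncomputable def dpfEmb (hΔ : W.Δ ≠ 0) {p : ℕ} (hp : p.Prime) (hp2 : p ≠ 2)
    (hpK : (p : K) ≠ 0) : {P : W.Point // p • P = 0} → {c // c ∈ dpfBox W p} :=
  fun P => ⟨dpfCoord W P.1, dpfCoord_mem_box hΔ hp hp2 hpK P.1 P.2⟩

theorem dpfEmb_injective (hΔ : W.Δ ≠ 0) {p : ℕ} (hp : p.Prime) (hp2 : p ≠ 2)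
    (hpK : (p : K) ≠ 0) : Function.Injective (dpfEmb hΔ hp hp2 hpK) := by
  intro P Q h
  apply Subtype.ext
  apply dpfCoord_injective W
  exact congrArg Subtype.val h

theorem finite_torsion_prime (hΔ : W.Δ ≠ 0) {p : ℕ} (hp : p.Prime) (hp2 : p ≠ 2)
    (hpK : (p : K) ≠ 0) : Finite {P : W.Point // p • P = 0} :=
  Finite.of_injective _ (dpfEmb_injective hΔ hp hp2 hpK)

theorem card_torsion_prime_le (hΔ : W.Δ ≠ 0) {p : ℕ} (hp : p.Prime) (hp2 : p ≠ 2)
    (hpK : (p : K) ≠ 0) : Nat.card {P : W.Point // p • P = 0} ≤ p ^ 2 := by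
  refine (Nat.card_le_card_of_injective _ (dpfEmb_injective hΔ hp hp2 hpK)).trans ?_
  rw [Nat.card_eq_fintype_card, Fintype.card_coe]
  exact dpf_card_box_le W hp hp2

end F

end Fermat.Agent.S13
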