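import Mathlib
import Fermat.Prelude.Def_FLTPrelim_FreyPackage
import Fermat.Prelude.Def_FLTPrelim_GaloisRep
import Fermat.Agent.S13.DPF

/-!
# S13 leaf (FT): size of the `p`-torsion of the Frey curve over `Qbar`

From the division polynomial layer, piece F (`exists_ne_zero_nsmul_eq_zero`,
`finite_torsion_prime`, `card_torsion_prime_le`) for `W = P.freyCurve⁄Qbar`, whose discriminant
`Δ = (a b c)^(2p) / 2^8 ≠ 0`.
-/

set_option autoImplicit false

namespace Fermat.Agent.S13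

open WeierstrassCurve WeierstrassCurve.Affine WeierstrassCurve.Affine.Point

local notation "Qb" => AlgebraicClosure ℚ

theorem freyTors_Δ_eq (P : FreyPackage) :
    P.freyCurve.Δ = ((P.a : ℚ) ^ P.p * (P.b : ℚ) ^ P.p * (P.c : ℚ) ^ P.p) ^ 2 / 256 := by
  have h : ((P.c : ℚ)) ^ P.p = (P.a : ℚ) ^ P.p + (P.b : ℚ) ^ P.p := by
    exact_mod_cast P.hFLT.symm
  rw [h]
  simp only [WeierstrassCurve.Δ, WeierstrassCurve.b₂, WeierstrassCurve.b₄, WeierstrassCurve.b₆,
    WeierstrassCurve.b₈, FreyPackage.freyCurve]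
  ring

theorem freyCurve_Δ_ne_zero (P : FreyPackage) : P.freyCurve.Δ ≠ 0 := by
  rw [freyTors_Δ_eq]
  have ha : (P.a : ℚ) ≠ 0 := by exact_mod_cast P.ha0
  have hb : (P.b : ℚ) ≠ 0 := by exact_mod_cast P.hb0
  have hc : (P.c : ℚ) ≠ 0 := by exact_mod_cast P.hc0
  positivity

theorem freyCurve_baseChange_Δ_ne_zero (P : FreyPackage) : (P.freyCurve⁄Qb).Δ ≠ 0 := by
  show (P.freyCurve.map (algebraMap ℚ Qb)).Δ ≠ 0
  rw [WeierstrassCurve.map_Δ]
  exact (map_ne_zero_iff _ (algebraMap ℚ Qb).injective).mpr (freyCurve_Δ_ne_zero P)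

/-- the bridge between the subtype `{Q // p • Q = 0}` and `Submodule.torsionBy ℤ _ p` -/
def freyTorsEquiv {M : Type*} [AddCommGroup M] (p : ℕ) :
    {Q : M // p • Q = 0} ≃ Submodule.torsionBy ℤ M p where
  toFun Q := ⟨Q.1, by
    rw [Submodule.mem_torsionBy_iff, natCast_zsmul]; exact Q.2⟩
  invFun Q := ⟨Q.1, by
    have h := Q.2
    rw [Submodule.mem_torsionBy_iff, natCast_zsmul] at h; exact h⟩
  left_inv _ := rfl
  right_inv _ := rfl

theorem freyTors_p_ne_two (P : FreyPackage) : P.p ≠ 2 := by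
  have := P.hp5; omega

theorem freyTors_p_ne_zero (P : FreyPackage) : ((P.p : ℕ) : Qb) ≠ 0 := by
  exact_mod_cast P.hp0

theorem frey_torsion_nontrivial (P : FreyPackage) :
    Nontrivial (Submodule.torsionBy ℤ (P.freyCurve⁄Qb).Point P.p) := by
  obtain ⟨Q, hQ0, hQ⟩ := exists_ne_zero_nsmul_eq_zero (W := (P.freyCurve⁄Qb))
    (freyCurve_baseChange_Δ_ne_zero P) P.pp (freyTors_p_ne_two P) (freyTors_p_ne_zero P)
  refine ⟨⟨freyTorsEquiv P.p ⟨Q, hQ⟩, 0, ?_⟩⟩
  intro h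
  exact hQ0 (congrArg Subtype.val h)

theorem frey_torsion_finite (P : FreyPackage) :
    Finite (Submodule.torsionBy ℤ (P.freyCurve⁄Qb).Point P.p) := by
  have := finite_torsion_prime (W := (P.freyCurve⁄Qb))
    (freyCurve_baseChange_Δ_ne_zero P) P.pp (freyTors_p_ne_two P) (freyTors_p_ne_zero P)
  exact Finite.of_equiv _ (freyTorsEquiv (M := (P.freyCurve⁄Qb).Point) P.p)

theorem frey_torsion_card_le (P : FreyPackage) :
    Nat.card (Submodule.torsionBy ℤ (P.freyCurve⁄Qb).Point P.p) ≤ P.p ^ 2 := by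
  rw [← Nat.card_congr (freyTorsEquiv (M := (P.freyCurve⁄Qb).Point) P.p)]
  exact card_torsion_prime_le (W := (P.freyCurve⁄Qb))
    (freyCurve_baseChange_Δ_ne_zero P) P.pp (freyTors_p_ne_two P) (freyTors_p_ne_zero P)

end Fermat.Agent.S13
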