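import Mathlib
import Fermat.Prelude.Def_FLTPrelim_GaloisRep

/-!
# S13 leaf (G3): a finite extension over which the (finite) `n`-torsion is defined

`F :=` the field generated by the coordinates of the finitely many torsion points;
`σ ∈ F.fixingSubgroup` fixes the coordinates hence the points.
-/

set_option autoImplicit false

namespace Fermat.Agent.S13

open WeierstrassCurve WeierstrassCurve.Affine WeierstrassCurve.Affine.Point

/-- the `x`-coordinate of a point (junk value `0` at infinity) -/
def torsFieldX {K : Type*} [Field K] {W : Affine K} : W.Point → K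
  | .zero => 0
  | .some x _ _ => x

/-- the `y`-coordinate of a point (junk value `0` at infinity) -/
def torsFieldY {K : Type*} [Field K] {W : Affine K} : W.Point → K
  | .zero => 0
  | .some _ y _ => y

theorem exists_finite_fixing_torsion (W' : Affine ℚ) (n : ℕ)
    [Finite (Submodule.torsionBy ℤ (W'⁄(AlgebraicClosure ℚ)).Point n)] :
    ∃ F : IntermediateField ℚ (AlgebraicClosure ℚ), FiniteDimensional ℚ F ∧
      ∀ σ ∈ F.fixingSubgroup, ∀ x : Submodule.torsionBy ℤ (W'⁄(AlgebraicClosure ℚ)).Point n,
        σ • x = x := by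
  classical
  let S : Set (AlgebraicClosure ℚ) :=
    Set.range (fun t : Submodule.torsionBy ℤ (W'⁄(AlgebraicClosure ℚ)).Point n =>
        torsFieldX (t : (W'⁄(AlgebraicClosure ℚ)).Point)) ∪
      Set.range (fun t : Submodule.torsionBy ℤ (W'⁄(AlgebraicClosure ℚ)).Point n =>
        torsFieldY (t : (W'⁄(AlgebraicClosure ℚ)).Point))
  have hS : S.Finite := (Set.finite_range _).union (Set.finite_range _)
  have : Finite S := hS
  have hAlg : Algebra.IsAlgebraic ℚ (AlgebraicClosure ℚ) := AlgebraicClosure.isAlgebraic ℚ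
  refine ⟨IntermediateField.adjoin ℚ S, ?_, ?_⟩
  · exact IntermediateField.finiteDimensional_adjoin
      (fun x _ => (Algebra.IsAlgebraic.isAlgebraic (R := ℚ) x).isIntegral)
  · intro σ hσ x
    have hfix : ∀ s ∈ S, σ s = s := fun s hs =>
      hσ ⟨s, IntermediateField.subset_adjoin ℚ S hs⟩
    apply Subtype.ext
    show σ • (x : (W'⁄(AlgebraicClosure ℚ)).Point) = x
    rw [algEquiv_smul_def]
    have hxS : torsFieldX (x : (W'⁄(AlgebraicClosure ℚ)).Point) ∈ S :=
      Or.inl ⟨x, rfl⟩
    have hyS : torsFieldY (x : (W'⁄(AlgebraicClosure ℚ)).Point) ∈ S :=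
      Or.inr ⟨x, rfl⟩
    rcases hx : (x : (W'⁄(AlgebraicClosure ℚ)).Point) with _ | ⟨a, b, h⟩
    · rfl
    · rw [hx] at hxS hyS
      have ha : σ a = a := hfix a hxS
      have hb : σ b = b := hfix b hyS
      simp only [Point.map_some, AlgEquiv.coe_toAlgHom]
      simp [ha, hb]

end Fermat.Agent.S13
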