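import Mathlib
import Fermat.Prelude.Def_FLTPrelim_Ramification
import Fermat.Agent.S05.KerRed
import Fermat.Agent.S05.Inertia
import Fermat.Agent.S13.DPF

/-!
# S13 leaf (Lp-b): the product trick

`W'` an integral Weierstrass model over `ℚ`, `p` an odd prime, `A` a valuation subring of `Qbar`
over `p`, `N` a Galois-stable `𝔽_p`-subspace of `E[p]`, `N ≠ ⊥, ⊤`.  Then NOT all of `E[p]` lies in
the kernel of reduction at `A` (`not_forall_inKerRed_of_stable`).
-/

set_option autoImplicit false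

namespace Fermat.Agent.S13

open WeierstrassCurve WeierstrassCurve.Affine WeierstrassCurve.Affine.Point Fermat.Agent.S05
open Polynomial

local notation "Qb" => AlgebraicClosure ℚ

/-- a rational number of valuation `> 1` at a place over `p` has valuation `≥ 1 / v p` -/
theorem pt_one_le_val_mul_of_rat {K : Type*} [Field K] [CharZero K] (A : ValuationSubring K)
    {p : ℕ} (hp : p.Prime) (hA : A.LiesOverPrime p) (c : ℚ) (hc : 1 < A.valuation (c : K)) :
    1 ≤ A.valuation (p : K) * A.valuation (c : K) := by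
  have hden0 : ((c.den : ℤ) : K) ≠ 0 := by
    simp
  have hcq : (c : K) = ((c.num : ℤ) : K) / ((c.den : ℤ) : K) := by
    have := Rat.cast_def (K := K) c
    simpa using this
  have hvden0 : A.valuation ((c.den : ℤ) : K) ≠ 0 := (A.valuation.ne_zero_iff).mpr hden0
  have hnum : A.valuation ((c.num : ℤ) : K) ≤ 1 := valuation_intCast_le_one A _
  have hden : A.valuation ((c.den : ℤ) : K) ≤ 1 := valuation_intCast_le_one A _
  rw [hcq, map_div₀] at hc ⊢
  -- `v den < v num ≤ 1`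
  have h1 : A.valuation ((c.den : ℤ) : K) < A.valuation ((c.num : ℤ) : K) := by
    have := (one_lt_div₀ (zero_lt_iff.mpr hvden0)).mp hc
    exact this
  have hden1 : A.valuation ((c.den : ℤ) : K) ≠ 1 := (lt_of_lt_of_le h1 hnum).ne
  have hpd : (p : ℤ) ∣ (c.den : ℤ) := by
    by_contra hnd
    exact hden1 ((valuation_intCast_eq_one_iff A hp hA _).mpr hnd)
  have hpn : ¬ (p : ℤ) ∣ c.num := by
    intro hpn
    have hcop : IsCoprime c.num (c.den : ℤ) := by
      have := c.reduced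
      exact Int.isCoprime_iff_gcd_eq_one.mpr (by simpa [Int.gcd, Nat.Coprime] using this)
    have hu : IsUnit (p : ℤ) := hcop.isUnit_of_dvd' hpn hpd
    have := Int.isUnit_iff.mp hu
    have hp2 := hp.two_le
    omega
  have hnum1 : A.valuation ((c.num : ℤ) : K) = 1 :=
    (valuation_intCast_eq_one_iff A hp hA _).mpr hpn
  obtain ⟨d, hd⟩ := hpd
  have hdv : A.valuation ((c.den : ℤ) : K) ≤ A.valuation (p : K) := by
    rw [hd]
    push_cast
    rw [map_mul]
    calc A.valuation (p : K) * A.valuation (d : K) ≤ A.valuation (p : K) * 1 := by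
          gcongr
          exact valuation_intCast_le_one A d
      _ = A.valuation (p : K) := mul_one _
  rw [hnum1, one_div, ← div_eq_mul_inv]
  exact (one_le_div₀ (zero_lt_iff.mpr hvden0)).mpr hdv

/-- for a split polynomial with integral constant term whose roots all have valuation `≥ 1`:
`v (leading coefficient) * ∏_{r ∈ S} v r ≤ 1` for every finite set `S` of roots -/
theorem pt_val_prod_le {K : Type*} [Field K] [IsAlgClosed K] (A : ValuationSubring K)
    (f : K[X]) (h0 : A.valuation (f.coeff 0) ≤ 1)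
    (hroots : ∀ r ∈ f.roots, 1 ≤ A.valuation r)
    (S : Finset K) (hS : ∀ r ∈ S, r ∈ f.roots) :
    A.valuation f.leadingCoeff * ∏ r ∈ S, A.valuation r ≤ 1 := by
  classical
  have hsp := IsAlgClosed.splits f
  have hc := hsp.coeff_zero_eq_leadingCoeff_mul_prod_roots
  have hv : A.valuation (f.coeff 0) = A.valuation f.leadingCoeff * (f.roots.map A.valuation).prod := by
    have h1 : A.valuation ((-1 : K) ^ f.natDegree) = 1 := by
      rw [map_pow, Valuation.map_neg, map_one, one_pow]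
    rw [hc, map_mul, map_mul, h1, one_mul, map_multiset_prod]
  rw [hv] at h0
  refine le_trans ?_ h0
  gcongr
  -- `∏_{S} v r ≤ ∏_{roots} v r`
  have hle : S.val ≤ f.roots := by
    rw [Multiset.le_iff_subset S.nodup]
    intro r hr
    exact hS r hr
  obtain ⟨t, ht⟩ := Multiset.le_iff_exists_add.mp hle
  have h1 : (1 : A.ValueGroup) ≤ (t.map A.valuation).prod := by
    apply Multiset.one_le_prod_of_one_le
    intro x hx
    obtain ⟨r, hr, rfl⟩ := Multiset.mem_map.mp hx
    exact hroots r (by rw [ht]; exact Multiset.mem_add.mpr (Or.inr hr))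
  rw [ht, Multiset.map_add, Multiset.prod_add]
  calc ∏ r ∈ S, A.valuation r = (S.val.map A.valuation).prod := rfl
    _ = (S.val.map A.valuation).prod * 1 := (mul_one _).symm
    _ ≤ (S.val.map A.valuation).prod * (t.map A.valuation).prod := by gcongr

/-- the base change to `Qb` of the image of an integral model is the image of the integral model -/
lemma pt_baseChange_eq (W₀ : WeierstrassCurve ℤ) (W' : Affine ℚ)
    (hW : W' = W₀.map (Int.castRingHom ℚ)) : (W'⁄Qb) = W₀.map (Int.castRingHom Qb) := by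
  subst hW
  change (W₀.map (Int.castRingHom ℚ)).map (algebraMap ℚ Qb) = _
  rw [WeierstrassCurve.map_map]
  congr 1

lemma pt_preΨ_coeff (W₀ : WeierstrassCurve ℤ) (W' : Affine ℚ)
    (hW : W' = W₀.map (Int.castRingHom ℚ)) (n : ℤ) (i : ℕ) :
    ((W'⁄Qb).preΨ n).coeff i = (((W₀.preΨ n).coeff i : ℤ) : Qb) := by
  rw [pt_baseChange_eq W₀ W' hW, WeierstrassCurve.map_preΨ, coeff_map]
  rfl

lemma pt_xc_smul {W' : Affine ℚ} (σ : Qb ≃ₐ[ℚ] Qb) (P : (W'⁄Qb).Point) :
    xc (σ • P) = σ (xc P) := by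
  rcases P with _ | ⟨x, y, h⟩
  · change xc (0 : (W'⁄Qb).Point) = σ (xc (0 : (W'⁄Qb).Point))
    simp
  · rfl


local instance pt_isAlgebraicQbar : Algebra.IsAlgebraic ℚ (AlgebraicClosure ℚ) :=
  AlgebraicClosure.isAlgebraic ℚ
local instance pt_isAlgClosureQbar : IsAlgClosure ℚ (AlgebraicClosure ℚ) :=
  ⟨inferInstance, inferInstance⟩
local instance pt_normalQbar : Normal ℚ (AlgebraicClosure ℚ) :=
  IsAlgClosure.normal ℚ (AlgebraicClosure ℚ)
local instance pt_isGaloisQbar : IsGalois ℚ (AlgebraicClosure ℚ) := inferInstance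

theorem not_forall_inKerRed_of_stable (W₀ : WeierstrassCurve ℤ) (W' : Affine ℚ)
    (hW : W' = W₀.map (Int.castRingHom ℚ)) (hΔ : W'.Δ ≠ 0)
    {p : ℕ} (hp : p.Prime) (hp2 : p ≠ 2)
    (A : ValuationSubring Qb) (hA : A.LiesOverPrime p)
    (N : Submodule (ZMod p) (Submodule.torsionBy ℤ (W'⁄Qb).Point p))
    (hN : IsGaloisStable ℚ N) (hN0 : N ≠ ⊥) (hN1 : N ≠ ⊤) :
    ¬ ∀ x : Submodule.torsionBy ℤ (W'⁄Qb).Point p,
        InKerRed A (W'⁄Qb) (x : (W'⁄Qb).Point) := by
  classical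
  intro hall
  have hΔ' : (W'⁄Qb).Δ ≠ 0 := by
    change (W'.map (algebraMap ℚ Qb)).Δ ≠ 0
    rw [WeierstrassCurve.map_Δ]
    exact (_root_.map_ne_zero _).mpr hΔ
  have hpK : (p : Qb) ≠ 0 := Nat.cast_ne_zero.mpr hp.ne_zero
  have hpK' : ((p : ℤ) : Qb) ≠ 0 := by exact_mod_cast hpK
  have hodd : Odd (p : ℤ) := by
    have := hp.eq_two_or_odd'.resolve_left hp2
    exact_mod_cast this
  -- torsion points and the submodule
  have hmem : ∀ P : (W'⁄Qb).Point, p • P = 0 → P ∈ Submodule.torsionBy ℤ (W'⁄Qb).Point p := by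
    intro P hP
    rw [Submodule.mem_torsionBy_iff]
    exact_mod_cast hP
  have hval : ∀ P : (W'⁄Qb).Point, P ≠ 0 → p • P = 0 → 1 < A.valuation (xc P) := by
    intro P hP0 hP
    have := hall ⟨P, hmem P hP⟩
    rcases P with _ | ⟨x, y, h⟩
    · exact absurd rfl hP0
    · exact one_lt_val_of_not_mem this
  -- the polynomial `preΨ_p`
  set f := (W'⁄Qb).preΨ (p : ℤ) with hf
  have hf0 : f ≠ 0 := (W'⁄Qb).preΨ_ne_zero hpK'
  have hlc : f.leadingCoeff = (p : Qb) := by
    rw [hf, leadingCoeff_preΨ _ hpK', if_neg (Int.not_even_iff_odd.mpr hodd)]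
    simp
  have hc0 : A.valuation (f.coeff 0) ≤ 1 := by
    rw [hf, pt_preΨ_coeff W₀ W' hW]
    exact valuation_intCast_le_one A _
  have hroot : ∀ r, r ∈ f.roots ↔ ∃ P : (W'⁄Qb).Point, P ≠ 0 ∧ p • P = 0 ∧ xc P = r := by
    intro r
    rw [mem_roots hf0, IsRoot.def, hf]
    exact eval_preΨ_eq_zero_iff hΔ' hp hp2 r
  have hroots_val : ∀ r ∈ f.roots, 1 < A.valuation r := by
    intro r hr
    obtain ⟨P, hP0, hP, rfl⟩ := (hroot r).mp hr
    exact hval P hP0 hP
  -- coordinates of elements of the torsion module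
  have hcoe0 : ∀ x : Submodule.torsionBy ℤ (W'⁄Qb).Point p, x ≠ 0 → (x : (W'⁄Qb).Point) ≠ 0 := by
    intro x hx h
    exact hx (Subtype.ext h)
  have hcoep : ∀ x : Submodule.torsionBy ℤ (W'⁄Qb).Point p, p • (x : (W'⁄Qb).Point) = 0 := by
    intro x
    have := x.2
    rw [Submodule.mem_torsionBy_iff] at this
    exact_mod_cast this
  have hxroot : ∀ x : Submodule.torsionBy ℤ (W'⁄Qb).Point p, x ≠ 0 →
      xc (x : (W'⁄Qb).Point) ∈ f.roots := fun x hx =>
    (hroot _).mpr ⟨x, hcoe0 x hx, hcoep x, rfl⟩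
  -- the `x`-coordinates of `N ∖ 0`
  let SN : Set Qb := {r | ∃ x : Submodule.torsionBy ℤ (W'⁄Qb).Point p,
    x ∈ N ∧ x ≠ 0 ∧ xc (x : (W'⁄Qb).Point) = r}
  have hSNsub : ∀ r ∈ SN, r ∈ f.roots := by
    rintro r ⟨x, -, hx0, rfl⟩
    exact hxroot x hx0
  have hSNfin : SN.Finite :=
    (f.roots.toFinset.finite_toSet).subset (fun r hr => by simpa using hSNsub r hr)
  set XN : Finset Qb := hSNfin.toFinset with hXN
  have hXNmem : ∀ r, r ∈ XN ↔ ∃ x : Submodule.torsionBy ℤ (W'⁄Qb).Point p,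
      x ∈ N ∧ x ≠ 0 ∧ xc (x : (W'⁄Qb).Point) = r := fun r => by
    rw [hXN, Set.Finite.mem_toFinset]; rfl
  have hXNval : ∀ r ∈ XN, 1 < A.valuation r := fun r hr =>
    hroots_val r (hSNsub r ((Set.Finite.mem_toFinset _).mp hr))
  -- Galois stability of `XN`
  have hXNstab : ∀ (σ : Qb ≃ₐ[ℚ] Qb), ∀ r ∈ XN, σ r ∈ XN := by
    intro σ r hr
    obtain ⟨x, hxN, hx0, rfl⟩ := (hXNmem r).mp hr
    refine (hXNmem _).mpr ⟨σ • x, hN σ x hxN, ?_, ?_⟩
    · intro h
      exact hx0 ((smul_eq_zero_iff_eq σ).mp h)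
    · exact pt_xc_smul σ (x : (W'⁄Qb).Point)
  -- the product of `XN` is rational
  set c : Qb := ∏ r ∈ XN, r with hc
  have hcfix : ∀ σ : Qb ≃ₐ[ℚ] Qb, σ c = c := by
    intro σ
    rw [hc, map_prod]
    refine Finset.prod_bij (fun r _ => σ r) (fun r hr => hXNstab σ r hr)
      (fun r₁ _ r₂ _ h => σ.injective h) (fun r hr => ⟨σ.symm r, hXNstab σ.symm r hr, ?_⟩)
      (fun r _ => rfl)
    simp
  obtain ⟨q, hq⟩ := (InfiniteGalois.mem_range_algebraMap_iff_fixed (k := ℚ) (K := Qb) c).mpr hcfix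
  have hq' : c = (q : Qb) := by rw [← hq]; exact eq_ratCast _ q
  -- `XN` is nonempty
  obtain ⟨x₁, hx₁N, hx₁0⟩ := Submodule.exists_mem_ne_zero_of_ne_bot hN0
  have hr₁ : xc (x₁ : (W'⁄Qb).Point) ∈ XN := (hXNmem _).mpr ⟨x₁, hx₁N, hx₁0, rfl⟩
  have hvc : A.valuation c = ∏ r ∈ XN, A.valuation r := by rw [hc, map_prod]
  have hvc1 : 1 < A.valuation c := by
    rw [hvc, ← Finset.mul_prod_erase XN _ hr₁]
    refine lt_of_lt_of_le (hXNval _ hr₁) ?_
    apply le_mul_of_one_le_right'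
    apply Finset.one_le_prod'
    intro r hr
    exact (hXNval r (Finset.mem_of_mem_erase hr)).le
  have hpc : 1 ≤ A.valuation (p : Qb) * A.valuation c := by
    rw [hq'] at hvc1 ⊢
    exact pt_one_le_val_mul_of_rat A hp hA q hvc1
  -- a root outside `XN`
  obtain ⟨x₀, hx₀⟩ : ∃ x₀ : Submodule.torsionBy ℤ (W'⁄Qb).Point p, x₀ ∉ N := by
    by_contra hcon
    rw [not_exists] at hcon
    apply hN1
    rw [Submodule.eq_top_iff']
    intro x
    by_contra hx
    exact hcon x hx
  have hx₀0 : x₀ ≠ 0 := fun h => hx₀ (h ▸ N.zero_mem)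
  have hr₀ : xc (x₀ : (W'⁄Qb).Point) ∈ f.roots := hxroot x₀ hx₀0
  have hr₀N : xc (x₀ : (W'⁄Qb).Point) ∉ XN := by
    intro hmemN
    obtain ⟨y, hyN, hy0, hxy⟩ := (hXNmem _).mp hmemN
    rcases dpa_eq_or_eq_neg_of_xc_eq (hcoe0 y hy0) (hcoe0 x₀ hx₀0) hxy with he | he
    · apply hx₀
      have : y = x₀ := Subtype.ext he
      exact this ▸ hyN
    · apply hx₀
      have : x₀ = -y := by
        apply Subtype.ext
        rw [Submodule.coe_neg, he, neg_neg]
      rw [this]
      exact N.neg_mem hyN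
  -- the contradiction
  have key := pt_val_prod_le A f hc0 (fun r hr => (hroots_val r hr).le)
    (insert (xc (x₀ : (W'⁄Qb).Point)) XN) (by
      intro r hr
      rcases Finset.mem_insert.mp hr with rfl | hr
      · exact hr₀
      · exact hSNsub r ((Set.Finite.mem_toFinset _).mp hr))
  rw [Finset.prod_insert hr₀N, hlc, ← hvc] at key
  have h1 : A.valuation (xc (x₀ : (W'⁄Qb).Point)) ≤
      A.valuation (p : Qb) * (A.valuation (xc (x₀ : (W'⁄Qb).Point)) * A.valuation c) := by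
    calc A.valuation (xc (x₀ : (W'⁄Qb).Point))
        ≤ A.valuation (xc (x₀ : (W'⁄Qb).Point)) * (A.valuation (p : Qb) * A.valuation c) :=
          le_mul_of_one_le_right' hpc
      _ = _ := mul_left_comm _ _ _
  exact absurd (lt_of_lt_of_le (hroots_val _ hr₀) (h1.trans key)) (lt_irrefl _)

end Fermat.Agent.S13
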