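import Mathlib
import Fermat.Agent.S05.KerRed
import Fermat.Agent.S05.SameRed
import Fermat.Agent.S05.InertiaDefs
import Fermat.Agent.S05.Main

set_option autoImplicit false

/-!
# S13 / local analysis at a node (any residue characteristic, in particular `2`)

`W : Y² + a₁XY = X³ + a₂X² + a₄X` over a valued field `(K, v)`, `a₁, a₂` integral, `v a₄ < 1`,
`b₂ = a₁² + 4a₂` a unit: the reduction has a node at `(0,0)` with two DISTINCT tangent directions
`t₁ ≠ t₂ (mod 𝔪)`, the roots of `T² + a₁T - a₂`.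

* `node_sub_mem` : two points near the node with the same `v x` and on the same branch differ by
  a point of nonsingular reduction.
* `node_map_sub_mem_E0` : for an inertia-like `σ` and ANY point `P`, `σ P - P` has nonsingular
  reduction (`NodeE0`).
* `node_inKerRed_map_sub` : for `S` of nonsingular reduction, `σ S - S` lies in the kernel of
  reduction.
* `node_unipotent` : if `n • P = 0` with `n` a unit, then `σ` fixes `σ P - P`, i.e.
  `(σ - 1)² = 0` on the `n`-torsion.
-/

namespace Fermat.Agent.S13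

open WeierstrassCurve WeierstrassCurve.Affine Fermat.Agent.S05

section core

variable {K : Type*} [Field K] {Γ₀ : Type*} [LinearOrderedCommGroupWithZero Γ₀]
  (v : Valuation K Γ₀)

/-- `W` is `Y² + a₁XY = X³ + a₂X² + a₄X` with a node at `(0,0)` modulo `v`, whose tangent
directions `t₁, t₂` (roots of `T² + a₁T - a₂`) are integral and distinct modulo `v`. -/
structure IsNodeModel (W : Affine K) (t₁ t₂ : K) : Prop where
  a₃ : W.a₃ = 0
  a₆ : W.a₆ = 0
  sum : t₁ + t₂ = -W.a₁
  prod : t₁ * t₂ = -W.a₂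
  t₁_le : v t₁ ≤ 1
  t₂_le : v t₂ ≤ 1
  sub : v (t₁ - t₂) = 1
  a₄_lt : v W.a₄ < 1
  a₄_ne : W.a₄ ≠ 0

variable {v} {W : Affine K} {t₁ t₂ : K}

lemma IsNodeModel.symm (h : IsNodeModel v W t₁ t₂) : IsNodeModel v W t₂ t₁ :=
  ⟨h.a₃, h.a₆, by rw [add_comm]; exact h.sum, by rw [mul_comm]; exact h.prod, h.t₂_le, h.t₁_le,
    by rw [Valuation.map_sub_swap]; exact h.sub, h.a₄_lt, h.a₄_ne⟩

lemma IsNodeModel.a₁_le (h : IsNodeModel v W t₁ t₂) : v W.a₁ ≤ 1 := by
  have : W.a₁ = -(t₁ + t₂) := by rw [h.sum, neg_neg]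
  rw [this, Valuation.map_neg]
  exact v.map_add_le h.t₁_le h.t₂_le

lemma IsNodeModel.a₂_le (h : IsNodeModel v W t₁ t₂) : v W.a₂ ≤ 1 := by
  have : W.a₂ = -(t₁ * t₂) := by rw [h.prod, neg_neg]
  rw [this, Valuation.map_neg, map_mul]
  exact mul_le_one' h.t₁_le h.t₂_le

/-- the equation in terms of the two tangent directions -/
lemma IsNodeModel.eqn (h : IsNodeModel v W t₁ t₂) {x y : K} (hxy : W.Equation x y) :
    (y - t₁ * x) * (y - t₂ * x) = x ^ 3 + W.a₄ * x := by
  have e := (Affine.equation_iff x y).mp hxy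
  rw [h.a₃, h.a₆] at e
  have e1 : W.a₁ = -(t₁ + t₂) := by rw [h.sum, neg_neg]
  have e2 : W.a₂ = -(t₁ * t₂) := by rw [h.prod, neg_neg]
  rw [e1, e2] at e
  linear_combination e

/-- on branch `1` the other factor has exactly the valuation of `x` -/
lemma IsNodeModel.val_other (h : IsNodeModel v W t₁ t₂) {x y : K}
    (hb : v (y - t₁ * x) < v x) : v (y - t₂ * x) = v x := by
  have e : y - t₂ * x = (y - t₁ * x) + (t₁ - t₂) * x := by ring
  have h2 : v ((t₁ - t₂) * x) = v x := by rw [map_mul, h.sub, one_mul]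
  rw [e, v.map_add_eq_of_lt_right (by rw [h2]; exact hb), h2]

/-- every point strictly between the node and the nonsingular locus lies on one of the two
branches -/
lemma IsNodeModel.branch (h : IsNodeModel v W t₁ t₂) {x y : K} (hxy : W.Equation x y)
    (hx1 : v x < 1) (hxa : v W.a₄ < v x) :
    v (y - t₁ * x) < v x ∨ v (y - t₂ * x) < v x := by
  have hx0 : v x ≠ 0 := fun h0 => by rw [h0] at hxa; exact not_lt_zero hxa
  have hpos : 0 < v x := zero_lt_iff.mpr hx0
  by_contra hcon
  rw [not_or, not_lt, not_lt] at hcon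
  have e := h.eqn hxy
  have h1 : v x * v x ≤ v ((y - t₁ * x) * (y - t₂ * x)) := by
    rw [map_mul]; exact mul_le_mul' hcon.1 hcon.2
  have h2 : v (x ^ 3 + W.a₄ * x) < v x * v x := by
    have : x ^ 3 + W.a₄ * x = (x ^ 2 + W.a₄) * x := by ring
    rw [this, map_mul]
    refine mul_lt_mul_of_pos_right ?_ hpos
    refine v.map_add_lt ?_ hxa
    rw [map_pow, pow_two]
    calc v x * v x < 1 * v x := mul_lt_mul_of_pos_right hx1 hpos
      _ = v x := one_mul _
  rw [e] at h1
  exact absurd h1 (not_le.mpr h2)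

/-- nonsingular reduction at a node at the origin: zero or `1 ≤ v x` -/
def InNodeE0 (v : Valuation K Γ₀) {W : Affine K} (P : W.Point) : Prop := P = 0 ∨ 1 ≤ v (xc P)

variable [DecidableEq K]

/-- **Chord computation at a node.** Two points with the same `v x < 1` on the same branch of
the node differ by a point of nonsingular reduction. -/
theorem node_sub_mem (h : IsNodeModel v W t₁ t₂) {x y x' y' : K} (hP : W.Nonsingular x y)
    (hP' : W.Nonsingular x' y') (hxx : v x' = v x) (hx1 : v x < 1)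
    (hb : v (y - t₁ * x) < v x) (hb' : v (y' - t₁ * x') < v x') :
    InNodeE0 v (Point.some x' y' hP' - Point.some x y hP) := by
  have hx0 : v x ≠ 0 := fun h0 => by rw [h0] at hb; exact not_lt_zero hb
  have hpos : 0 < v x := zero_lt_iff.mpr hx0
  have e1 : W.a₁ = -(t₁ + t₂) := by rw [h.sum, neg_neg]
  have e2 : W.a₂ = -(t₁ * t₂) := by rw [h.prod, neg_neg]
  have hneg : W.negY x y = -y - W.a₁ * x := by rw [Affine.negY, h.a₃, sub_zero]
  have ho := h.val_other hb
  have ho' := h.val_other hb'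
  by_cases hne : x' = x
  · rcases Affine.Y_eq_of_X_eq hP'.1 hP.1 hne with hy | hy
    · left
      have : Point.some x' y' hP' = Point.some x y hP := by
        simp only [hne, hy]
      rw [this, sub_self]
    · exfalso
      have e : y' - t₁ * x' = -(y - t₂ * x) := by
        rw [hy, hneg, hne, e1]; ring
      rw [e, Valuation.map_neg, ho, hxx] at hb'
      exact lt_irrefl _ hb'
  · right
    rw [sub_eq_add_neg, Point.neg_some, Point.add_of_X_ne hne, xc_some,
      Affine.slope_of_X_ne hne, Affine.addX, hneg]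
    have hd : x' - x ≠ 0 := sub_ne_zero.mpr hne
    have hdpos : 0 < v (x' - x) := zero_lt_iff.mpr ((v.ne_zero_iff).mpr hd)
    have hdle : v (x' - x) ≤ v x := v.map_sub_le hxx.le le_rfl
    set L := (y' - (-y - W.a₁ * x)) / (x' - x) with hL
    have k1 : L - t₁ = ((y' - t₁ * x') + (y - t₂ * x)) / (x' - x) := by
      rw [hL, e1]; field_simp; ring
    have k2 : L - t₂ = ((y' - t₂ * x') + (y - t₁ * x)) / (x' - x) := by
      rw [hL, e1]; field_simp; ring
    have n1 : v ((y' - t₁ * x') + (y - t₂ * x)) = v x := by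
      rw [v.map_add_eq_of_lt_right (by rw [ho, ← hxx]; exact hb'), ho]
    have n2 : v ((y' - t₂ * x') + (y - t₁ * x)) = v x := by
      rw [v.map_add_eq_of_lt_left (by rw [ho', hxx]; exact hb), ho', hxx]
    have hρ : 1 ≤ v x / v (x' - x) := (one_le_div₀ hdpos).mpr hdle
    have k3 : L ^ 2 + W.a₁ * L - W.a₂ - x' - x = (L - t₁) * (L - t₂) - (x' + x) := by
      rw [e1, e2]; ring
    have m1 : v ((L - t₁) * (L - t₂)) = (v x / v (x' - x)) * (v x / v (x' - x)) := by
      rw [map_mul, k1, k2, map_div₀, map_div₀, n1, n2]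
    have m2 : 1 ≤ v ((L - t₁) * (L - t₂)) := by
      rw [m1]; exact one_le_mul_of_one_le_of_one_le hρ hρ
    have m3 : v (x' + x) < 1 :=
      lt_of_le_of_lt (v.map_add_le hxx.le le_rfl) hx1
    rw [k3, v.map_sub_eq_of_lt_left (lt_of_lt_of_le m3 m2)]
    exact m2

omit [DecidableEq K] in
/-- a point with unit `x`-coordinate has nonsingular reduction (the only singular point of the
reduction is the node `(0,0)`), in any residue characteristic -/
theorem node_not_both_partials (h : IsNodeModel v W t₁ t₂) {x y : K} (hxy : W.Equation x y)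
    (hx : v x = 1) :
    ¬ (v (W.a₁ * y - (3 * x ^ 2 + 2 * W.a₂ * x + W.a₄)) < 1 ∧
      v (2 * y + W.a₁ * x + W.a₃) < 1) := by
  rintro ⟨hX, hY⟩
  rw [h.a₃, add_zero] at hY
  have e := (Affine.equation_iff x y).mp hxy
  rw [h.a₃, h.a₆] at e
  have e1 : W.a₁ = -(t₁ + t₂) := by rw [h.sum, neg_neg]
  have e2 : W.a₂ = -(t₁ * t₂) := by rw [h.prod, neg_neg]
  have h2 : v (2 : K) ≤ 1 := by
    have : (2 : K) = 1 + 1 := by norm_num
    rw [this]; exact v.map_add_le v.map_one.le v.map_one.le
  have hb2 : v ((t₁ - t₂) ^ 2) = 1 := by rw [map_pow, h.sub, one_pow]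
  have small : ∀ {c z : K}, v c ≤ 1 → v z < 1 → v (c * z) < 1 := by
    intro c z hc hz
    rw [map_mul]
    exact lt_of_le_of_lt (mul_le_of_le_one_left' hc) hz
  -- (I1)
  have i1 : x ^ 2 * ((t₁ - t₂) ^ 2 + 4 * x) =
      (2 * y + W.a₁ * x) ^ 2 - 2 * (2 * (W.a₄ * x)) := by
    have e' : y ^ 2 + W.a₁ * x * y + 0 * y = x ^ 3 + W.a₂ * x ^ 2 + W.a₄ * x + 0 := e
    have e3 : (t₁ - t₂) ^ 2 = W.a₁ ^ 2 + 4 * W.a₂ := by rw [e1, e2]; ring
    rw [e3]
    linear_combination (-4) * e'
  have v1 : v ((t₁ - t₂) ^ 2 + 4 * x) < 1 := by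
    have : v (x ^ 2 * ((t₁ - t₂) ^ 2 + 4 * x)) = v ((t₁ - t₂) ^ 2 + 4 * x) := by
      rw [map_mul, map_pow, hx, one_pow, one_mul]
    rw [← this, i1]
    refine v.map_sub_lt ?_ ?_
    · rw [map_pow]; exact pow_lt_one' hY two_ne_zero
    · refine small h2 (small h2 ?_)
      rw [map_mul, hx, mul_one]; exact h.a₄_lt
  -- (I2)
  have i2 : x * ((t₁ - t₂) ^ 2 + 6 * x) =
      W.a₁ * (2 * y + W.a₁ * x) - 2 * (W.a₁ * y - (3 * x ^ 2 + 2 * W.a₂ * x + W.a₄))
        - 2 * W.a₄ := by
    have e3 : (t₁ - t₂) ^ 2 = W.a₁ ^ 2 + 4 * W.a₂ := by rw [e1, e2]; ring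
    rw [e3]
    ring
  have v2 : v ((t₁ - t₂) ^ 2 + 6 * x) < 1 := by
    have : v (x * ((t₁ - t₂) ^ 2 + 6 * x)) = v ((t₁ - t₂) ^ 2 + 6 * x) := by
      rw [map_mul, hx, one_mul]
    rw [← this, i2]
    exact v.map_sub_lt (v.map_sub_lt (small h.a₁_le hY) (small h2 hX)) (small h2 h.a₄_lt)
  -- (I3)
  have v3 : v (2 * x) < 1 := by
    have : 2 * x = ((t₁ - t₂) ^ 2 + 6 * x) - ((t₁ - t₂) ^ 2 + 4 * x) := by ring
    rw [this]; exact v.map_sub_lt v2 v1
  have v4 : v ((t₁ - t₂) ^ 2) < 1 := by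
    have : (t₁ - t₂) ^ 2 = ((t₁ - t₂) ^ 2 + 4 * x) - 2 * (2 * x) := by ring
    rw [this]
    exact v.map_sub_lt v1 (small h2 v3)
  rw [hb2] at v4
  exact lt_irrefl _ v4

end core

section galois

variable {F K : Type*} [Field F] [Field K] [Algebra F K] [DecidableEq K] {Γ₀ : Type*}
  [LinearOrderedCommGroupWithZero Γ₀] (v : Valuation K Γ₀)

omit [DecidableEq K] in
/-- an inertia-like automorphism fixes the two tangent directions -/
theorem node_fix_tangent (W' : Affine F) {t₁ t₂ : K} (h : IsNodeModel v (W'⁄K) t₁ t₂)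
    {σ : K ≃ₐ[F] K} (hσ : IsInertiaLike v σ) : σ t₁ = t₁ := by
  have e₁ : σ ((W'⁄K).a₁) = (W'⁄K).a₁ := σ.commutes _
  have e₂ : σ ((W'⁄K).a₂) = (W'⁄K).a₂ := σ.commutes _
  have r : t₁ ^ 2 + (W'⁄K).a₁ * t₁ - (W'⁄K).a₂ = 0 := by
    have e1 : (W'⁄K).a₁ = -(t₁ + t₂) := by rw [h.sum, neg_neg]
    have e2 : (W'⁄K).a₂ = -(t₁ * t₂) := by rw [h.prod, neg_neg]
    rw [e1, e2]; ring
  have r' : σ t₁ ^ 2 + (W'⁄K).a₁ * σ t₁ - (W'⁄K).a₂ = 0 := by
    have := congrArg σ r
    simpa only [map_sub, map_add, map_mul, map_pow, e₁, e₂, map_zero] using this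
  have : (σ t₁ - t₁) * (σ t₁ - t₂) = 0 := by
    have e1 : (W'⁄K).a₁ = -(t₁ + t₂) := by rw [h.sum, neg_neg]
    have e2 : (W'⁄K).a₂ = -(t₁ * t₂) := by rw [h.prod, neg_neg]
    rw [e1, e2] at r'
    linear_combination r'
  rcases mul_eq_zero.mp this with h0 | h0
  · exact sub_eq_zero.mp h0
  · exfalso
    have h1 := hσ.sub_lt t₁ h.t₁_le
    rw [sub_eq_zero.mp h0, Valuation.map_sub_swap, h.sub] at h1
    exact lt_irrefl _ h1

omit [DecidableEq K] in
/-- coefficients of a node model are integral -/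
theorem node_isIntegralAt {W : Affine K} {t₁ t₂ : K} (h : IsNodeModel v W t₁ t₂) :
    IsIntegralAt v.valuationSubring W :=
  ⟨(samered_mem_iff v _).mpr h.a₁_le, (samered_mem_iff v _).mpr h.a₂_le,
    by rw [h.a₃]; exact zero_mem _, (samered_mem_iff v _).mpr h.a₄_lt.le,
    by rw [h.a₆]; exact zero_mem _⟩

/-- **Nonsingular reduction ⇒ `σ S - S` in the kernel of reduction** (node model, any residue
characteristic). -/
theorem node_inKerRed_map_sub (W' : Affine F) {t₁ t₂ : K} (h : IsNodeModel v (W'⁄K) t₁ t₂)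
    {σ : K ≃ₐ[F] K} (hσ : IsInertiaLike v σ) (S : (W'⁄K).Point) (hS : InNodeE0 v S) :
    InKerRed v.valuationSubring (W'⁄K) (Point.map σ.toAlgHom S - S) := by
  have hI := node_isIntegralAt v h
  rcases S with _ | ⟨x, y, hxy⟩
  · show InKerRed _ _ (Point.map σ.toAlgHom (0 : (W'⁄K).Point) - 0)
    rw [map_zero, sub_zero]
    exact inKerRed_zero
  · obtain ⟨h', e⟩ := main_map_some W' σ hxy
    rw [e]
    have hx1 : 1 ≤ v x := by
      rcases hS with hS | hS
      · exact absurd hS (Point.some_ne_zero _)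
      · exact hS
    rcases lt_or_eq_of_le hx1 with hlt | heq
    · -- both points in the kernel
      rw [sub_eq_add_neg]
      refine inKerRed_add hI ?_ (inKerRed_neg ?_)
      · rw [inKerRed_some, samered_mem_iff, hσ.val_eq]; exact not_le.mpr hlt
      · rw [inKerRed_some, samered_mem_iff]; exact not_le.mpr hlt
    · -- same nonsingular reduction
      obtain ⟨m₁, m₂, m₃, m₄, m₆⟩ := hI
      have hx : v x ≤ 1 := heq.symm.le
      have mx : x ∈ v.valuationSubring := (samered_mem_iff v _).mpr hx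
      have my : y ∈ v.valuationSubring :=
        samered_y_mem_of_x_mem v.valuationSubring _ m₁ m₂ m₃ m₄ m₆ hxy.1 mx
      have hy : v y ≤ 1 := (samered_mem_iff v _).mp my
      have mx' : σ x ∈ v.valuationSubring := by
        rw [samered_mem_iff, hσ.val_eq]; exact hx
      have my' : σ y ∈ v.valuationSubring := by
        rw [samered_mem_iff, hσ.val_eq]; exact hy
      have hns : ¬ ((W'⁄K).polynomialX.evalEval (σ x) (σ y) ∈ v.valuationSubring.nonunits ∧
          (W'⁄K).polynomialY.evalEval (σ x) (σ y) ∈ v.valuationSubring.nonunits) := by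
        rw [evalEval_polynomialX, evalEval_polynomialY, samered_mem_nonunits_iff,
          samered_mem_nonunits_iff]
        exact node_not_both_partials h h'.1 (by rw [hσ.val_eq]; exact heq.symm)
      rcases sameRed_sub v.valuationSubring (W'⁄K) m₁ m₂ m₃ m₄ h' hxy mx' my' mx my
        ((samered_mem_nonunits_iff v _).mpr (hσ.sub_lt x hx))
        ((samered_mem_nonunits_iff v _).mpr (hσ.sub_lt y hy)) hns with h0 | ⟨x₃, y₃, h₃, e₃, hx₃⟩
      · rw [h0]; exact inKerRed_zero
      · rw [e₃, inKerRed_some]; exact hx₃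

omit [DecidableEq K] in
/-- the kernel of reduction consists of points of nonsingular reduction -/
theorem node_inNodeE0_of_inKerRed {W : Affine K} {Q : W.Point}
    (hQ : InKerRed v.valuationSubring W Q) : InNodeE0 v Q := by
  rcases Q with _ | ⟨x, y, hxy⟩
  · exact Or.inl rfl
  · right
    rw [inKerRed_some, samered_mem_iff, not_le] at hQ
    exact hQ.le

/-- **Inertia moves every point by a point of nonsingular reduction** (node model, any residue
characteristic): for inertia-like `σ` and ANY point `P`, `σ P - P ∈ E₀`. -/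
theorem node_map_sub_mem_E0 (W' : Affine F) {t₁ t₂ : K} (h : IsNodeModel v (W'⁄K) t₁ t₂)
    {σ : K ≃ₐ[F] K} (hσ : IsInertiaLike v σ) (P : (W'⁄K).Point) :
    InNodeE0 v (Point.map σ.toAlgHom P - P) := by
  have e₁ : σ ((W'⁄K).a₁) = (W'⁄K).a₁ := σ.commutes _
  rcases P with _ | ⟨x, y, hxy⟩
  · left
    show Point.map σ.toAlgHom (0 : (W'⁄K).Point) - 0 = 0
    rw [map_zero, sub_zero]
  by_cases hx1 : 1 ≤ v x
  · exact node_inNodeE0_of_inKerRed v (node_inKerRed_map_sub v W' h hσ _ (Or.inr hx1))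
  rw [not_le] at hx1
  obtain ⟨h', e⟩ := main_map_some W' σ hxy
  by_cases hx0 : x = 0
  · -- `P = (0,0)`
    have hy0 : y = 0 := by
      have e := (Affine.equation_iff x y).mp hxy.1
      rw [hx0, h.a₃, h.a₆] at e
      have : y ^ 2 = 0 := by linear_combination e
      exact pow_eq_zero_iff two_ne_zero |>.mp this
    left
    rw [e]
    have : Point.some (σ x) (σ y) h' = Point.some x y hxy := by
      simp only [hx0, hy0, map_zero]
    rw [this, sub_self]
  have hvx0 : v x ≠ 0 := (v.ne_zero_iff).mpr hx0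
  have hvxpos : 0 < v x := zero_lt_iff.mpr hvx0
  by_cases hxa : v x ≤ v (W'⁄K).a₄
  · -- `P + (0,0)` has nonsingular reduction
    have h0 : (W'⁄K).Nonsingular 0 0 := by
      rw [Affine.nonsingular_iff, Affine.equation_iff]
      refine ⟨by rw [h.a₃, h.a₆]; ring, Or.inl ?_⟩
      simpa [eq_comm] using h.a₄_ne
    have hT : Point.map (W' := W') σ.toAlgHom (Point.some 0 0 h0) = Point.some 0 0 h0 := by
      obtain ⟨h0', e0⟩ := main_map_some W' σ h0
      rw [e0]
      simp only [map_zero]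
    have hS : xc (Point.some x y hxy + Point.some 0 0 h0) = (W'⁄K).a₄ / x := by
      rw [Point.add_of_X_ne hx0, xc_some, Affine.slope_of_X_ne hx0, Affine.addX]
      have e := (Affine.equation_iff x y).mp hxy.1
      rw [h.a₃, h.a₆] at e
      field_simp
      linear_combination x * e
    have hE0 : InNodeE0 v (Point.some x y hxy + Point.some 0 0 h0) := by
      right
      rw [hS, map_div₀]
      exact (one_le_div₀ hvxpos).mpr hxa
    have key := node_inNodeE0_of_inKerRed v (node_inKerRed_map_sub v W' h hσ _ hE0)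
    have : Point.map σ.toAlgHom (Point.some x y hxy) - Point.some x y hxy =
        Point.map σ.toAlgHom (Point.some x y hxy + Point.some 0 0 h0) -
          (Point.some x y hxy + Point.some 0 0 h0) := by
      rw [map_add, hT]; abel
    rw [this]
    exact key
  · -- middle: same branch
    rw [not_le] at hxa
    rw [e]
    have hxx : v (σ x) = v x := hσ.val_eq x
    -- branch is preserved
    have step : ∀ (s₁ s₂ : K), IsNodeModel v (W'⁄K) s₁ s₂ → v (y - s₁ * x) < v x →
        InNodeE0 v (Point.some (σ x) (σ y) h' - Point.some x y hxy) := by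
      intro s₁ s₂ hs hb
      have hfix : σ s₁ = s₁ := node_fix_tangent v W' hs hσ
      refine node_sub_mem hs hxy h' hxx hx1 hb ?_
      have : σ y - s₁ * σ x = σ (y - s₁ * x) := by
        rw [map_sub, map_mul, hfix]
      rw [this, hσ.val_eq, hσ.val_eq]
      exact hb
    rcases h.branch hxy.1 hx1 hxa with hb | hb
    · exact step t₁ t₂ h hb
    · exact step t₂ t₁ h.symm hb

/-- **Unipotency**: if `n • P = 0` with `n` a `v`-unit, an inertia-like `σ` fixes `σ P - P`, i.e.
`(σ - 1)² = 0` on the `n`-torsion (node model, any residue characteristic). -/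
theorem node_unipotent (W' : Affine F) {t₁ t₂ : K} (h : IsNodeModel v (W'⁄K) t₁ t₂)
    {σ : K ≃ₐ[F] K} (hσ : IsInertiaLike v σ) {n : ℕ} (hn : v (n : K) = 1)
    (P : (W'⁄K).Point) (hP : n • P = 0) :
    Point.map σ.toAlgHom (Point.map σ.toAlgHom P - P) = Point.map σ.toAlgHom P - P := by
  have hE0 := node_map_sub_mem_E0 v W' h hσ P
  have hK := node_inKerRed_map_sub v W' h hσ _ hE0
  have h3 : n • (Point.map σ.toAlgHom (Point.map σ.toAlgHom P - P) -
      (Point.map σ.toAlgHom P - P)) = 0 := by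
    rw [smul_sub, ← map_nsmul, smul_sub, ← map_nsmul, hP, map_zero, sub_zero, map_zero, sub_zero]
  have hn0 : (n : K) ≠ 0 := by
    intro h0; rw [h0, map_zero] at hn; exact zero_ne_one hn
  have hninv : ((n : K))⁻¹ ∈ v.valuationSubring := by
    rw [samered_mem_iff, map_inv₀, hn, inv_one]
  exact sub_eq_zero.mp (kerRed_torsion_free (node_isIntegralAt v h) hn0 hninv hK h3)

end galois

end Fermat.Agent.S13
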