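import Mathlib
import Fermat.Prelude.Def_FLTPrelim_FreyPackage
import Fermat.Prelude.Def_FLTPrelim_GaloisRep
import Fermat.Prelude.Def_FLTPrelim_Ramification
import Fermat.Agent.S05.Inertia
import Fermat.Agent.S13.NodeUnipotent

set_option autoImplicit false

/-!
# S13 / the Frey curve at `2`

The Frey model `y² + xy = x³ + a₂x² + a₄x` (`a₂ = (b^p - 1 - a^p)/4`, `a₄ = -(ab)^p/16`) is a node
model (`IsNodeModel`) at every valuation subring of `Qbar` over `2`; hence every inertia element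
at `2` acts unipotently on the `p`-torsion.
-/

namespace Fermat.Agent.S13

open WeierstrassCurve WeierstrassCurve.Affine WeierstrassCurve.Affine.Point Fermat.Agent.S05

local notation "Qb" => AlgebraicClosure ℚ

/-! ### integer facts -/

lemma freyTwo_two_dvd_b (P : FreyPackage) : (2 : ℤ) ∣ P.b :=
  (ZMod.intCast_zmod_eq_zero_iff_dvd P.b 2).1 P.hb2

lemma freyTwo_32_dvd (P : FreyPackage) : (32 : ℤ) ∣ P.b ^ P.p := by
  obtain ⟨k, hk⟩ := freyTwo_two_dvd_b P
  obtain ⟨m, hm⟩ : ∃ m, P.p = 5 + m := ⟨P.p - 5, by have := P.hp5; omega⟩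
  rw [hk, hm, pow_add]
  exact ⟨k ^ 5 * (2 * k) ^ m, by ring⟩

lemma freyTwo_apow_mod (P : FreyPackage) : ((P.a ^ P.p : ℤ) : ZMod 4) = 3 := by
  push_cast
  rw [P.ha4]
  obtain ⟨k, hk⟩ := P.hp_odd
  rw [hk, pow_succ, pow_mul]
  have : (3 : ZMod 4) ^ 2 = 1 := by decide
  rw [this, one_pow, one_mul]

lemma freyTwo_four_dvd (P : FreyPackage) : (4 : ℤ) ∣ P.b ^ P.p - 1 - P.a ^ P.p := by
  have h1 : ((P.b ^ P.p : ℤ) : ZMod 4) = 0 := by
    rw [ZMod.intCast_zmod_eq_zero_iff_dvd]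
    exact dvd_trans (by norm_num) (freyTwo_32_dvd P)
  have h2 := freyTwo_apow_mod P
  have key : ((P.b ^ P.p - 1 - P.a ^ P.p : ℤ) : ZMod 4) = 0 := by
    rw [Int.cast_sub, Int.cast_sub, h1, h2]
    decide
  have := (ZMod.intCast_zmod_eq_zero_iff_dvd _ 4).1 key
  exact_mod_cast this

/-- the integer `a₂` of the Frey curve -/
def freyTwoA2 (P : FreyPackage) : ℤ := (P.b ^ P.p - 1 - P.a ^ P.p) / 4

/-- the integer `a₄` of the Frey curve -/
def freyTwoA4 (P : FreyPackage) : ℤ := -(P.a ^ P.p) * (P.b ^ P.p / 16)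

lemma freyTwoA2_spec (P : FreyPackage) : 4 * freyTwoA2 P = P.b ^ P.p - 1 - P.a ^ P.p :=
  Int.mul_ediv_cancel' (freyTwo_four_dvd P)

lemma freyTwoA4_spec (P : FreyPackage) : 16 * freyTwoA4 P = -(P.a ^ P.p) * P.b ^ P.p := by
  have h16 : (16 : ℤ) ∣ P.b ^ P.p := dvd_trans (by norm_num) (freyTwo_32_dvd P)
  have := Int.mul_ediv_cancel' h16
  unfold freyTwoA4
  linear_combination (-(P.a ^ P.p)) * this

lemma freyTwoA4_even (P : FreyPackage) : (2 : ℤ) ∣ freyTwoA4 P := by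
  obtain ⟨k, hk⟩ := freyTwo_32_dvd P
  unfold freyTwoA4
  rw [hk, show (32 : ℤ) * k = 16 * (2 * k) by ring, Int.mul_ediv_cancel_left _ (by norm_num)]
  exact Dvd.intro (-(P.a ^ P.p) * k) (by ring)

lemma freyTwoA4_ne_zero (P : FreyPackage) : freyTwoA4 P ≠ 0 := by
  intro h
  have := freyTwoA4_spec P
  rw [h, mul_zero] at this
  have h1 : P.a ^ P.p ≠ 0 := pow_ne_zero _ P.ha0
  have h2 : P.b ^ P.p ≠ 0 := pow_ne_zero _ P.hb0
  exact mul_ne_zero (neg_ne_zero.mpr h1) h2 this.symm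

lemma freyTwo_b₂_odd (P : FreyPackage) : ¬ (2 : ℤ) ∣ 1 + 4 * freyTwoA2 P := by
  rintro ⟨k, hk⟩
  omega

lemma freyCurve_a₂_eq (P : FreyPackage) : P.freyCurve.a₂ = (freyTwoA2 P : ℚ) := by
  have := freyTwoA2_spec P
  have h : (4 : ℚ) * (freyTwoA2 P : ℚ) = (P.b : ℚ) ^ P.p - 1 - (P.a : ℚ) ^ P.p := by
    exact_mod_cast this
  simp only [FreyPackage.freyCurve]
  linear_combination (-(1 : ℚ) / 4) * h

lemma freyCurve_a₄_eq (P : FreyPackage) : P.freyCurve.a₄ = (freyTwoA4 P : ℚ) := by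
  have := freyTwoA4_spec P
  have h : (16 : ℚ) * (freyTwoA4 P : ℚ) = -((P.a : ℚ) ^ P.p) * (P.b : ℚ) ^ P.p := by
    exact_mod_cast this
  simp only [FreyPackage.freyCurve]
  linear_combination (-(1 : ℚ) / 16) * h

/-! ### the node model at `2` -/

/-- a root of a monic integral quadratic is integral -/
lemma freyTwo_root_le_one {K : Type*} [Field K] {Γ₀ : Type*} [LinearOrderedCommGroupWithZero Γ₀]
    (v : Valuation K Γ₀) {t a c : K} (ha : v a ≤ 1) (hc : v c ≤ 1) (h : t ^ 2 + a * t - c = 0) :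
    v t ≤ 1 := by
  by_contra hlt
  rw [not_le] at hlt
  have e : t ^ 2 = c - a * t := by linear_combination h
  have h1 : v (t ^ 2) ≤ v t := by
    rw [e]
    refine le_trans (v.map_sub _ _) (max_le (le_trans hc hlt.le) ?_)
    rw [map_mul]
    exact mul_le_of_le_one_left' ha
  have h2 : v t * 1 < v t * v t := by
    have h0 : 0 < v t := lt_trans zero_lt_one hlt
    exact mul_lt_mul_of_pos_left hlt h0
  rw [mul_one, ← pow_two, ← map_pow] at h2
  exact lt_irrefl _ (lt_of_lt_of_le h2 h1)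

theorem frey_isNodeModel_two (P : FreyPackage) (A : ValuationSubring Qb)
    (hA : A.LiesOverPrime 2) :
    ∃ t₁ t₂ : Qb, IsNodeModel A.valuation (P.freyCurve⁄Qb) t₁ t₂ := by
  obtain ⟨d, hd⟩ := IsAlgClosed.exists_eq_mul_self ((1 + 4 * freyTwoA2 P : ℤ) : Qb)
  have ha₁ : (P.freyCurve⁄Qb).a₁ = 1 := by simp [FreyPackage.freyCurve]
  have ha₂ : (P.freyCurve⁄Qb).a₂ = ((freyTwoA2 P : ℤ) : Qb) := by
    show algebraMap ℚ Qb P.freyCurve.a₂ = _
    rw [freyCurve_a₂_eq]; simp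
  have ha₃ : (P.freyCurve⁄Qb).a₃ = 0 := by simp [FreyPackage.freyCurve]
  have ha₄ : (P.freyCurve⁄Qb).a₄ = ((freyTwoA4 P : ℤ) : Qb) := by
    show algebraMap ℚ Qb P.freyCurve.a₄ = _
    rw [freyCurve_a₄_eq]; simp
  have ha₆ : (P.freyCurve⁄Qb).a₆ = 0 := by simp [FreyPackage.freyCurve]
  have h2 : (2 : Qb) ≠ 0 := two_ne_zero
  have hdv : A.valuation d = 1 := by
    have h1 : A.valuation ((1 + 4 * freyTwoA2 P : ℤ) : Qb) = 1 :=
      (valuation_intCast_eq_one_iff A Nat.prime_two hA _).2 (by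
        have := freyTwo_b₂_odd P
        exact_mod_cast this)
    rw [hd, map_mul] at h1
    have : A.valuation d ^ 2 = 1 ^ 2 := by rw [pow_two, h1, one_pow]
    exact (pow_left_inj₀ zero_le zero_le two_ne_zero).mp this
  have hd' : d * d = 1 + 4 * ((freyTwoA2 P : ℤ) : Qb) := by
    rw [← hd]; push_cast; ring
  refine ⟨(-1 + d) / 2, (-1 - d) / 2, ?_⟩
  have hsum : (-1 + d) / 2 + (-1 - d) / 2 = -(P.freyCurve⁄Qb).a₁ := by
    rw [ha₁]; field_simp; ring
  have hprod : (-1 + d) / 2 * ((-1 - d) / 2) = -(P.freyCurve⁄Qb).a₂ := by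
    rw [ha₂]; field_simp; linear_combination -hd'
  have hle : ∀ t : Qb, t ^ 2 + 1 * t - ((freyTwoA2 P : ℤ) : Qb) = 0 → A.valuation t ≤ 1 :=
    fun t ht => freyTwo_root_le_one A.valuation (by simp) (valuation_intCast_le_one A _) ht
  refine ⟨ha₃, ha₆, hsum, hprod, ?_, ?_, ?_, ?_, ?_⟩
  · apply hle
    field_simp
    linear_combination hd'
  · apply hle
    field_simp
    linear_combination hd'
  · have : (-1 + d) / 2 - (-1 - d) / 2 = d := by field_simp; ring
    rw [this, hdv]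
  · rw [ha₄]
    refine lt_of_le_of_ne (valuation_intCast_le_one A _) ?_
    rw [Ne, valuation_intCast_eq_one_iff A Nat.prime_two hA, not_not]
    exact_mod_cast freyTwoA4_even P
  · rw [ha₄]
    exact_mod_cast freyTwoA4_ne_zero P

/-- **Inertia at `2` acts unipotently on the `p`-torsion of the Frey curve.** -/
theorem frey_two_unipotent_point (P : FreyPackage) (A : ValuationSubring Qb)
    (hA : A.LiesOverPrime 2) (σ : Qb ≃ₐ[ℚ] Qb) (hσ : σ ∈ A.inertiaSubgroupIn ℚ)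
    (Q : (P.freyCurve⁄Qb).Point) (hQ : P.p • Q = 0) :
    σ • (σ • Q - Q) = σ • Q - Q := by
  have : Algebra.IsAlgebraic ℚ Qb := AlgebraicClosure.isAlgebraic ℚ
  obtain ⟨t₁, t₂, h⟩ := frey_isNodeModel_two P A hA
  have hσ' := isInertiaLike_of_mem_inertiaSubgroupIn A σ hσ
  have hp : A.valuation ((P.p : ℕ) : Qb) = 1 := by
    have := (valuation_intCast_eq_one_iff A Nat.prime_two hA (P.p : ℤ)).2 (by
      intro hdvd
      have h2 : 2 ∣ P.p := by exact_mod_cast hdvd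
      have := (Nat.prime_dvd_prime_iff_eq Nat.prime_two P.pp).1 h2
      have := P.hp5
      omega)
    simpa using this
  exact node_unipotent A.valuation P.freyCurve h hσ' hp Q hQ

theorem frey_unipotent_two (P : FreyPackage) (A : ValuationSubring Qb)
    (hA : A.LiesOverPrime 2) (σ : Qb ≃ₐ[ℚ] Qb) (hσ : σ ∈ A.inertiaSubgroupIn ℚ)
    (x : Submodule.torsionBy ℤ (P.freyCurve⁄Qb).Point P.p) :
    σ • (σ • x - x) = σ • x - x := by
  apply Subtype.ext
  have hx : P.p • (x : (P.freyCurve⁄Qb).Point) = 0 := by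
    have := x.2
    rw [Submodule.mem_torsionBy_iff] at this
    rwa [natCast_zsmul] at this
  exact frey_two_unipotent_point P A hA σ hσ x hx

end Fermat.Agent.S13
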