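import Mathlib
import Fermat.Agent.S05.Main

set_option autoImplicit false

/-!
# S13 / local analysis at `p`: `σ P - P` lies in the kernel of reduction

For an inertia-like automorphism `σ` (no assumption that the torsion order is a unit!):

* `inKer_map_sub_of_good` : good reduction (`Δ` a unit): for EVERY point `P`, `σ P - P ∈ E₁`;
* `inKer_map_sub_of_mult` : multiplicative reduction with `a₄ = unit * d ^ n`: for every
  `n`-torsion point `P`, `σ P - P ∈ E₁`.

These are the bodies of `Fermat.Agent.S05.map_eq_self_of_good/mult` before torsion-freeness of the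
kernel of reduction is applied.
-/

namespace Fermat.Agent.S13

open WeierstrassCurve WeierstrassCurve.Affine Fermat.Agent.S05

variable {F K : Type*} [Field F] [Field K] [Algebra F K] [DecidableEq K] {Γ₀ : Type*}
  [LinearOrderedCommGroupWithZero Γ₀] (v : Valuation K Γ₀)

/-- **Good case**: for an inertia-like `σ` and ANY point `P` of `Y² = X³ + a₂X² + a₄X`
(integral coefficients, `v 2 = 1`, unit discriminant), `σ P - P` lies in the kernel of reduction. -/
theorem inKer_map_sub_of_good (W' : Affine F) (hW' : IsLeg W') (h2 : v 2 = 1)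
    (ha : v (algebraMap F K W'.a₂) ≤ 1) (hb : v (algebraMap F K W'.a₄) ≤ 1)
    (hΔ : v (algebraMap F K W'.Δ) = 1) {σ : K ≃ₐ[F] K} (hσ : IsInertiaLike v σ)
    (P : (W'⁄K).Point) : InKer v (Point.map σ.toAlgHom P - P) := by
  have hW : IsLeg (W'⁄K) := hW'.map (algebraMap F K)
  have hΔ' : v (W'⁄K).Δ = 1 := by
    rw [show (W'⁄K).Δ = algebraMap F K W'.Δ from WeierstrassCurve.map_Δ _ _]; exact hΔ
  exact main_inKer_map_sub v W' hW' h2 ha hb hσ P (mainE0_of_good v hW h2 ha hb hΔ' P)

/-- **Multiplicative case, without any hypothesis on `v n`** (so it applies at the residue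
characteristic): for an inertia-like `σ` and an `n`-torsion point `P` of
`Y² = X³ + a₂X² + a₄X` (`a₂` a unit, `a₄ = unit * d ^ n` a non-unit), `σ P - P` lies in the kernel of
reduction. -/
theorem inKer_map_sub_of_mult (W' : Affine F) (hW' : IsLeg W') (h2 : v 2 = 1)
    (ha : v (algebraMap F K W'.a₂) = 1) (hb : v (algebraMap F K W'.a₄) < 1)
    {n : ℕ} (hn0 : n ≠ 0) (u d : F) (hu : v (algebraMap F K u) = 1)
    (hd : W'.a₄ = u * d ^ n) (hd0 : d ≠ 0) {σ : K ≃ₐ[F] K} (hσ : IsInertiaLike v σ)
    (P : (W'⁄K).Point) (hP : n • P = 0) :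
    InKer v (Point.map σ.toAlgHom P - P) := by
  have hW : IsLeg (W'⁄K) := hW'.map (algebraMap F K)
  have ha' : v (W'⁄K).a₂ = 1 := ha
  have hb' : v (W'⁄K).a₄ < 1 := hb
  have hu0 : u ≠ 0 := by
    rintro rfl
    rw [map_zero, map_zero] at hu
    exact zero_ne_one hu
  have ha4 : (W'⁄K).a₄ ≠ 0 := by
    show algebraMap F K W'.a₄ ≠ 0
    rw [hd]
    exact (map_ne_zero _).mpr (mul_ne_zero hu0 (pow_ne_zero n hd0))
  have hM : IsMultRed v (W'⁄K) := ⟨hW, h2, ha', hb', ha4⟩
  rcases P with _ | ⟨x, y, h⟩
  · show InKer v (Point.map σ.toAlgHom (0 : (W'⁄K).Point) - 0)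
    rw [map_zero, sub_zero]
    exact inKer_zero v
  by_cases hx1 : 1 ≤ v x
  · -- nonsingular reduction
    exact main_inKer_map_sub v W' hW' h2 ha.le hb.le hσ _
      (mainE0_of_mult v hW h2 ha' hb' _ (Or.inr hx1))
  rw [not_le] at hx1
  obtain ⟨h', e⟩ := main_map_some W' σ h
  have eq := hW.sq_yc h
  by_cases hx0 : x = 0
  · -- `P = (0, 0)`
    have hy0 : y = 0 := by
      rw [hx0] at eq
      have : y ^ 2 = 0 := by rw [eq]; ring
      exact pow_eq_zero_iff two_ne_zero |>.mp this
    left
    rw [e]
    have : Point.some (σ x) (σ y) h' = Point.some x y h := by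
      simp only [hx0, hy0, map_zero]
    rw [this, sub_self]
  have hvx0 : v x ≠ 0 := (v.ne_zero_iff).mpr hx0
  have hvxpos : 0 < v x := zero_lt_iff.mpr hvx0
  by_cases hxa : v x ≤ v (W'⁄K).a₄
  · -- `P + (0,0)` has nonsingular reduction
    have h0 := hW.nonsingular_zero_zero ha4
    have hT : Point.map (W' := W') σ.toAlgHom (Point.some 0 0 h0) = Point.some 0 0 h0 := by
      obtain ⟨h0', e0⟩ := main_map_some W' σ h0
      rw [e0]
      simp only [map_zero]
    have hdec : Point.some x y h = (Point.some x y h + Point.some 0 0 h0) + (-Point.some 0 0 h0) :=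
      (add_neg_cancel_right _ _).symm
    have hS : xc (Point.some x y h + Point.some 0 0 h0) = (W'⁄K).a₄ / x :=
      hW.xc_add_zero_zero h h0 hx0
    refine main_inKer_of_decomp v W' hW' h2 ha.le hb.le hσ hdec (by rw [map_neg, hT])
      (mainE0_of_mult v hW h2 ha' hb' _ (Or.inr ?_))
    rw [hS, map_div₀]
    exact (one_le_div₀ hvxpos).mpr hxa
  · -- middle components
    rw [not_le] at hxa
    have hk : kap v (Point.some x y h) = v x := by
      rw [kap, if_neg (Point.some_ne_zero _), xc_some, min_eq_left hx1.le, max_eq_right hxa.le]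
    obtain ⟨l, hl⟩ := kap_pow_of_nsmul_eq_zero v hM hP
    rw [hk] at hl
    set e' : K := algebraMap F K (d ^ (2 * l)) with he'
    have hve : v x = v e' := by
      have h1 : v (W'⁄K).a₄ = v (algebraMap F K d) ^ n := by
        show v (algebraMap F K W'.a₄) = _
        rw [hd, map_mul, map_mul, hu, one_mul, map_pow, map_pow]
      have h2' : v e' = v (algebraMap F K d) ^ (2 * l) := by
        rw [he', map_zpow₀, map_zpow₀]
      have h3 : v x ^ n = v e' ^ n := by
        calc v x ^ n = (v (algebraMap F K d) ^ n) ^ (2 * l) := by rw [hl, h1]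
          _ = (v (algebraMap F K d) ^ (2 * l)) ^ n := by
              rw [← zpow_natCast, ← zpow_natCast, ← zpow_mul, ← zpow_mul, mul_comm]
          _ = v e' ^ n := by rw [h2']
      exact (pow_left_inj₀ zero_le zero_le hn0).mp h3
    have hσe : σ e' = e' := σ.commutes _
    have he0 : e' ≠ 0 := by
      intro h0
      rw [h0, map_zero] at hve
      exact hvx0 hve
    -- `v y = v x`
    have hvy : v y = v x := by
      have h1 : v (x ^ 3) < v ((W'⁄K).a₂ * x ^ 2) := by
        rw [map_mul, ha', one_mul, map_pow, map_pow, pow_succ]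
        calc v x ^ 2 * v x < v x ^ 2 * 1 :=
              mul_lt_mul_of_pos_left hx1 (pow_pos hvxpos 2)
          _ = v x ^ 2 := mul_one _
      have h2'' : v ((W'⁄K).a₄ * x) < v ((W'⁄K).a₂ * x ^ 2) := by
        rw [map_mul, map_mul, ha', one_mul, map_pow, pow_two]
        exact mul_lt_mul_of_pos_right hxa hvxpos
      have h3 : v (y ^ 2) = v x ^ 2 := by
        rw [eq, v.map_add_eq_of_lt_left (by rw [v.map_add_eq_of_lt_right h1]; exact h2''),
          v.map_add_eq_of_lt_right h1, map_mul, ha', one_mul, map_pow]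
      rw [map_pow] at h3
      exact (pow_left_inj₀ zero_le zero_le two_ne_zero).mp h3
    have hdx : v (σ x - x) < v x := by
      rw [hve]; exact main_sub_lt_of_fixed v hσ hσe he0 hve
    have hdy : v (σ y - y) < v x := by
      rw [hve]; exact main_sub_lt_of_fixed v hσ hσe he0 (hvy.trans hve)
    have h2y : v (2 * y) = v x := by rw [map_mul, h2, one_mul, hvy]
    have hsy : v (σ y + y) = v x := by
      have : σ y + y = (σ y - y) + 2 * y := by ring
      rw [this, v.map_add_eq_of_lt_right (by rw [h2y]; exact hdy), h2y]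
    rw [e]
    by_cases hxx : σ x = x
    · have hyy : σ y = y := by
        have e1 := hW.sq_yc h'
        rw [hxx] at e1
        have : (σ y - y) * (σ y + y) = 0 := by linear_combination e1 - eq
        rcases mul_eq_zero.mp this with h0 | h0
        · exact sub_eq_zero.mp h0
        · exfalso
          rw [h0, map_zero] at hsy
          exact hvx0 hsy.symm
      left
      have : Point.some (σ x) (σ y) h' = Point.some x y h := by
        simp only [hxx, hyy]
      rw [this, sub_self]
    · right
      rw [hW.xc_sub_of_ne h' h hxx]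
      have hdx0 : 0 < v (σ x - x) := zero_lt_iff.mpr ((v.ne_zero_iff).mpr (sub_ne_zero.mpr hxx))
      have hL : 1 < v ((σ y + y) / (σ x - x)) := by
        rw [map_div₀, hsy]
        exact (one_lt_div₀ hdx0).mpr hdx
      have hL2 : 1 < v (((σ y + y) / (σ x - x)) ^ 2) := by
        rw [map_pow]; exact one_lt_pow₀ hL two_ne_zero
      have hrest : v ((W'⁄K).a₂ + (σ x + x)) ≤ 1 :=
        v.map_add_le ha'.le (v.map_add_le (by rw [hσ.val_eq]; exact hx1.le) hx1.le)
      rw [sub_sub, sub_sub, v.map_sub_eq_of_lt_left (lt_of_le_of_lt hrest hL2)]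
      exact hL2

end Fermat.Agent.S13
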