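import Mathlib
import Fermat.Agent.S05.LegendreUnram
import Fermat.Agent.S13.InertiaKer
import Fermat.Agent.S13.NodeUnipotent
import Fermat.Agent.S13.FreyTwo

set_option autoImplicit false

/-!
# S13 / the Frey curve at an odd prime (in particular at `p`)

For every odd prime `q`, every valuation subring `A` of `Qbar` over `q`, every `σ` in the inertia
subgroup of `A` and EVERY point `Q` of the Frey curve over `Qbar`:
`(σ - 1)² Q` lies in the kernel of reduction of the (integral) Frey model at `A`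
(`frey_odd_sq_inKerRed`).  No hypothesis relating `q` and the order of `Q`: this is the input of
the analysis at `q = p`.
-/

namespace Fermat.Agent.S13

open WeierstrassCurve WeierstrassCurve.Affine WeierstrassCurve.Affine.Point Fermat.Agent.S05

local notation "Qb" => AlgebraicClosure ℚ

/-! ### generic lemmas -/

section generic

variable {F K : Type*} [Field F] [Field K] [Algebra F K] [DecidableEq K] {Γ₀ : Type*}
  [LinearOrderedCommGroupWithZero Γ₀] (v : Valuation K Γ₀)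

/-- the kernel of reduction is stable under inertia-like automorphisms -/
theorem freyP_inKerRed_map (W' : Affine F) {σ : K ≃ₐ[F] K} (hσ : IsInertiaLike v σ)
    (S : (W'⁄K).Point) (hS : InKerRed v.valuationSubring (W'⁄K) S) :
    InKerRed v.valuationSubring (W'⁄K) (Point.map σ.toAlgHom S) := by
  rcases S with _ | ⟨x, y, hxy⟩
  · exact inKerRed_zero
  · obtain ⟨h', e⟩ := main_map_some W' σ hxy
    rw [e, inKerRed_some, samered_mem_iff, hσ.val_eq, ← samered_mem_iff]
    exact hS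

/-- node model: `(σ - 1)² P ∈ E₁` for every point `P` -/
theorem freyP_node_sq (W' : Affine F) {t₁ t₂ : K} (h : IsNodeModel v (W'⁄K) t₁ t₂)
    {σ : K ≃ₐ[F] K} (hσ : IsInertiaLike v σ) (P : (W'⁄K).Point) :
    InKerRed v.valuationSubring (W'⁄K)
      (Point.map σ.toAlgHom (Point.map σ.toAlgHom P - P) - (Point.map σ.toAlgHom P - P)) :=
  node_inKerRed_map_sub v W' h hσ _ (node_map_sub_mem_E0 v W' h hσ P)

/-- good Legendre model: `(σ - 1)² P ∈ E₁` for every point `P` -/
theorem freyP_good_sq (W' : Affine F) (hW' : IsLeg W') (h2 : v 2 = 1)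
    (ha : v (algebraMap F K W'.a₂) ≤ 1) (hb : v (algebraMap F K W'.a₄) ≤ 1)
    (hΔ : v (algebraMap F K W'.Δ) = 1) {σ : K ≃ₐ[F] K} (hσ : IsInertiaLike v σ)
    (P : (W'⁄K).Point) :
    InKerRed v.valuationSubring (W'⁄K)
      (Point.map σ.toAlgHom (Point.map σ.toAlgHom P - P) - (Point.map σ.toAlgHom P - P)) := by
  have h1 := (inKer_iff_inKerRed v _).mp (inKer_map_sub_of_good v W' hW' h2 ha hb hΔ hσ P)
  have hW : IsLeg (W'⁄K) := hW'.map (algebraMap F K)
  have hI : IsIntegralAt v.valuationSubring (W'⁄K) := isIntegralAt_of_isLeg v hW ha hb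
  rw [sub_eq_add_neg]
  exact inKerRed_add hI (freyP_inKerRed_map v W' hσ _ h1) (inKerRed_neg h1)

end generic

/-! ### transfer along a change of variables -/

section transfer

variable {K : Type*} [Field K] [DecidableEq K] (A : ValuationSubring K)

theorem freyP_inKerRed_vcPoint_iff {W W' : WeierstrassCurve K} (C : VariableChange K)
    (h : W' = C • W) (hu : A.valuation (C.u : K) = 1) (hr : C.r ∈ A) (Q : W'.toAffine.Point) :
    InKerRed A W.toAffine (vcPoint C h Q) ↔ InKerRed A W'.toAffine Q := by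
  rcases Q with _ | ⟨x, y, hxy⟩
  · exact Iff.rfl
  · rw [vcPoint_some, inKerRed_some, inKerRed_some, not_iff_not]
    have hu0 : (C.u : K) ≠ 0 := C.u.ne_zero
    have huA : (C.u : K) ∈ A := (A.valuation_le_one_iff _).mp hu.le
    have huinv : ((C.u : K))⁻¹ ∈ A := by
      rw [← A.valuation_le_one_iff, map_inv₀, hu, inv_one]
    constructor
    · intro hx
      have e : x = ((C.u : K))⁻¹ ^ 2 * (vcX C x - C.r) := by
        simp only [vcX]; field_simp; ring
      rw [e]
      exact A.mul_mem _ _ (pow_mem huinv 2) (sub_mem hx hr)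
    · intro hx
      simp only [vcX]
      exact A.add_mem _ _ (A.mul_mem _ _ (pow_mem huA 2) hx) hr

end transfer

/-! ### Legendre models with integer parameters over `Qbar` -/

section legendre

variable {q : ℕ}

/-- good reduction -/
theorem freyP_legendre_good (A B : ℤ) (hq : q.Prime) (hq2 : q ≠ 2)
    (hgood : ¬ (q : ℤ) ∣ A * B * (A + B)) (Av : ValuationSubring Qb) (hAv : Av.LiesOverPrime q)
    (σ : Qb ≃ₐ[ℚ] Qb) (hσ : IsInertiaLike Av.valuation σ)
    (Q : ((legendreCurve A B)⁄Qb).Point) :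
    InKerRed Av ((legendreCurve A B)⁄Qb) (σ • (σ • Q - Q) - (σ • Q - Q)) := by
  have h2 := legunram_val_two hq hq2 Av hAv
  have key := freyP_good_sq Av.valuation (legendreCurve A B) (isLeg_legendreCurve _ _) h2
    ?_ ?_ ?_ hσ Q
  · rw [Av.valuationSubring_valuation] at key
    exact key
  · have : algebraMap ℚ Qb (legendreCurve A B).a₂ = ((B - A : ℤ) : Qb) := by
      simp [legendreCurve]
    rw [this]
    exact valuation_intCast_le_one Av _
  · have : algebraMap ℚ Qb (legendreCurve A B).a₄ = ((-(A * B) : ℤ) : Qb) := by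
      simp [legendreCurve]
    rw [this]
    exact valuation_intCast_le_one Av _
  · have : algebraMap ℚ Qb (legendreCurve A B).Δ = ((16 * (A * B) ^ 2 * (A + B) ^ 2 : ℤ) : Qb) := by
      rw [legendreCurve_Δ]
      simp
    rw [this, valuation_intCast_eq_one_iff Av hq hAv]
    intro hdvd
    have hqp : Prime (q : ℤ) := Nat.prime_iff_prime_int.1 hq
    rcases hqp.dvd_or_dvd hdvd with h | h
    · rcases hqp.dvd_or_dvd h with h | h
      · have h16 : q ∣ 16 := by exact_mod_cast h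
        have : q ∣ 2 := hq.dvd_of_dvd_pow (show q ∣ 2 ^ 4 by simpa using h16)
        exact hq2 ((Nat.prime_dvd_prime_iff_eq hq Nat.prime_two).1 this)
      · exact hgood (dvd_mul_of_dvd_left (hqp.dvd_of_dvd_pow h) _)
    · exact hgood (dvd_mul_of_dvd_right (hqp.dvd_of_dvd_pow h) _)

/-- the Legendre model with a node at the origin is a node model -/
theorem freyP_legendre_isNodeModel (A B : ℤ) (hq : q.Prime) (hq2 : q ≠ 2)
    (ha₂ : ¬ (q : ℤ) ∣ B - A) (ha₄ : (q : ℤ) ∣ A * B) (h0 : A * B ≠ 0)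
    (Av : ValuationSubring Qb) (hAv : Av.LiesOverPrime q) :
    ∃ t₁ t₂ : Qb, IsNodeModel Av.valuation ((legendreCurve A B)⁄Qb) t₁ t₂ := by
  have h2 := legunram_val_two hq hq2 Av hAv
  obtain ⟨d, hd⟩ := IsAlgClosed.exists_eq_mul_self ((B - A : ℤ) : Qb)
  have e₁ : ((legendreCurve A B)⁄Qb).a₁ = 0 := by simp [legendreCurve]
  have e₂ : ((legendreCurve A B)⁄Qb).a₂ = ((B - A : ℤ) : Qb) := by simp [legendreCurve]
  have e₃ : ((legendreCurve A B)⁄Qb).a₃ = 0 := by simp [legendreCurve]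
  have e₄ : ((legendreCurve A B)⁄Qb).a₄ = ((-(A * B) : ℤ) : Qb) := by simp [legendreCurve]
  have e₆ : ((legendreCurve A B)⁄Qb).a₆ = 0 := by simp [legendreCurve]
  have hdv : Av.valuation d = 1 := by
    have h1 : Av.valuation ((B - A : ℤ) : Qb) = 1 :=
      (valuation_intCast_eq_one_iff Av hq hAv _).2 ha₂
    rw [hd, map_mul] at h1
    have : Av.valuation d ^ 2 = 1 ^ 2 := by rw [pow_two, h1, one_pow]
    exact (pow_left_inj₀ zero_le zero_le two_ne_zero).mp this
  refine ⟨d, -d, e₃, e₆, ?_, ?_, hdv.le, ?_, ?_, ?_, ?_⟩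
  · rw [e₁]; ring
  · rw [e₂, hd]; ring
  · rw [Valuation.map_neg]; exact hdv.le
  · have : d - -d = 2 * d := by ring
    rw [this, map_mul, h2, hdv, one_mul]
  · rw [e₄]
    refine lt_of_le_of_ne (valuation_intCast_le_one Av _) ?_
    rw [Ne, valuation_intCast_eq_one_iff Av hq hAv, not_not]
    exact (dvd_neg).2 ha₄
  · rw [e₄]
    exact_mod_cast neg_ne_zero.mpr h0

/-- multiplicative reduction with the node at the origin -/
theorem freyP_legendre_node (A B : ℤ) (hq : q.Prime) (hq2 : q ≠ 2)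
    (ha₂ : ¬ (q : ℤ) ∣ B - A) (ha₄ : (q : ℤ) ∣ A * B) (h0 : A * B ≠ 0)
    (Av : ValuationSubring Qb) (hAv : Av.LiesOverPrime q)
    (σ : Qb ≃ₐ[ℚ] Qb) (hσ : IsInertiaLike Av.valuation σ)
    (Q : ((legendreCurve A B)⁄Qb).Point) :
    InKerRed Av ((legendreCurve A B)⁄Qb) (σ • (σ • Q - Q) - (σ • Q - Q)) := by
  obtain ⟨t₁, t₂, h⟩ := freyP_legendre_isNodeModel A B hq hq2 ha₂ ha₄ h0 Av hAv
  have key := freyP_node_sq Av.valuation (legendreCurve A B) h hσ Q
  rw [Av.valuationSubring_valuation] at key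
  exact key

/-- good reduction, single difference: `σ Q - Q ∈ E₁` for every point `Q` -/
theorem freyP_legendre_good_sub (A B : ℤ) (hq : q.Prime) (hq2 : q ≠ 2)
    (hgood : ¬ (q : ℤ) ∣ A * B * (A + B)) (Av : ValuationSubring Qb) (hAv : Av.LiesOverPrime q)
    (σ : Qb ≃ₐ[ℚ] Qb) (hσ : IsInertiaLike Av.valuation σ)
    (Q : ((legendreCurve A B)⁄Qb).Point) :
    InKerRed Av ((legendreCurve A B)⁄Qb) (σ • Q - Q) := by
  have h2 := legunram_val_two hq hq2 Av hAv
  have key := (inKer_iff_inKerRed Av.valuation _).mp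
    (inKer_map_sub_of_good Av.valuation (legendreCurve A B) (isLeg_legendreCurve _ _) h2
      ?_ ?_ ?_ hσ Q)
  · rw [Av.valuationSubring_valuation] at key
    exact key
  · have : algebraMap ℚ Qb (legendreCurve A B).a₂ = ((B - A : ℤ) : Qb) := by
      simp [legendreCurve]
    rw [this]
    exact valuation_intCast_le_one Av _
  · have : algebraMap ℚ Qb (legendreCurve A B).a₄ = ((-(A * B) : ℤ) : Qb) := by
      simp [legendreCurve]
    rw [this]
    exact valuation_intCast_le_one Av _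
  · have : algebraMap ℚ Qb (legendreCurve A B).Δ = ((16 * (A * B) ^ 2 * (A + B) ^ 2 : ℤ) : Qb) := by
      rw [legendreCurve_Δ]
      simp
    rw [this, valuation_intCast_eq_one_iff Av hq hAv]
    intro hdvd
    have hqp : Prime (q : ℤ) := Nat.prime_iff_prime_int.1 hq
    rcases hqp.dvd_or_dvd hdvd with h | h
    · rcases hqp.dvd_or_dvd h with h | h
      · have h16 : q ∣ 16 := by exact_mod_cast h
        have : q ∣ 2 := hq.dvd_of_dvd_pow (show q ∣ 2 ^ 4 by simpa using h16)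
        exact hq2 ((Nat.prime_dvd_prime_iff_eq hq Nat.prime_two).1 this)
      · exact hgood (dvd_mul_of_dvd_left (hqp.dvd_of_dvd_pow h) _)
    · exact hgood (dvd_mul_of_dvd_right (hqp.dvd_of_dvd_pow h) _)

/-- multiplicative reduction (node at the origin, `a₄ = u * d ^ n`), single difference:
`σ Q - Q ∈ E₁` for every `n`-torsion point `Q`; NO hypothesis relating `q` and `n`. -/
theorem freyP_legendre_mult_sub (A B : ℤ) {n : ℕ} (hn0 : n ≠ 0) (hq : q.Prime) (hq2 : q ≠ 2)
    (ha₂ : ¬ (q : ℤ) ∣ B - A) (ha₄ : (q : ℤ) ∣ A * B) (u d : ℤ)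
    (hu : ¬ (q : ℤ) ∣ u) (hd : -(A * B) = u * d ^ n) (hd0 : d ≠ 0)
    (Av : ValuationSubring Qb) (hAv : Av.LiesOverPrime q)
    (σ : Qb ≃ₐ[ℚ] Qb) (hσ : IsInertiaLike Av.valuation σ)
    (Q : ((legendreCurve A B)⁄Qb).Point) (hQ : n • Q = 0) :
    InKerRed Av ((legendreCurve A B)⁄Qb) (σ • Q - Q) := by
  have h2 := legunram_val_two hq hq2 Av hAv
  have key := (inKer_iff_inKerRed Av.valuation _).mp
    (inKer_map_sub_of_mult Av.valuation (legendreCurve A B) (isLeg_legendreCurve _ _) h2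
      ?_ ?_ hn0 (u : ℚ) (d : ℚ) ?_ ?_ (by exact_mod_cast hd0) hσ Q hQ)
  · rw [Av.valuationSubring_valuation] at key
    exact key
  · have : algebraMap ℚ Qb (legendreCurve A B).a₂ = ((B - A : ℤ) : Qb) := by
      simp [legendreCurve]
    rw [this, valuation_intCast_eq_one_iff Av hq hAv]
    exact ha₂
  · have : algebraMap ℚ Qb (legendreCurve A B).a₄ = ((-(A * B) : ℤ) : Qb) := by
      simp [legendreCurve]
    rw [this]
    refine lt_of_le_of_ne (valuation_intCast_le_one Av _) ?_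
    rw [Ne, valuation_intCast_eq_one_iff Av hq hAv, not_not]
    exact (dvd_neg).2 ha₄
  · have : algebraMap ℚ Qb (u : ℚ) = ((u : ℤ) : Qb) := by simp
    rw [this, valuation_intCast_eq_one_iff Av hq hAv]
    exact hu
  · show -((A : ℚ) * (B : ℚ)) = (u : ℚ) * (d : ℚ) ^ n
    exact_mod_cast hd

end legendre

/-! ### transfer to the Frey model -/

section frey

/-- transfer of "`(σ - 1)² Q ∈ E₁` for all `Q`" along a change of variables over `ℚ` -/
theorem freyP_transfer {E E' : WeierstrassCurve ℚ} (C₀ : VariableChange ℚ) (h₀ : E' = C₀ • E)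
    (A : ValuationSubring Qb) (hu : A.valuation (algebraMap ℚ Qb (C₀.u : ℚ)) = 1)
    (hr : algebraMap ℚ Qb C₀.r ∈ A) (σ : Qb ≃ₐ[ℚ] Qb)
    (H : ∀ Q' : (E'⁄Qb).Point, InKerRed A (E'⁄Qb) (σ • (σ • Q' - Q') - (σ • Q' - Q')))
    (Q : (E⁄Qb).Point) :
    InKerRed A (E⁄Qb) (σ • (σ • Q - Q) - (σ • Q - Q)) := by
  have h1 := H ((vcPointBC C₀ h₀ Qb).symm Q)
  rw [← freyP_inKerRed_vcPoint_iff A (C₀.baseChange Qb) (baseChange_eq_smul C₀ h₀ Qb)
    (by simpa [VariableChange.baseChange, VariableChange.map] using hu)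
    (by simpa [VariableChange.baseChange, VariableChange.map] using hr)] at h1
  have e : vcPoint (C₀.baseChange Qb) (baseChange_eq_smul C₀ h₀ Qb)
      (σ • (σ • (vcPointBC C₀ h₀ Qb).symm Q - (vcPointBC C₀ h₀ Qb).symm Q) -
        (σ • (vcPointBC C₀ h₀ Qb).symm Q - (vcPointBC C₀ h₀ Qb).symm Q)) =
      σ • (σ • Q - Q) - (σ • Q - Q) := by
    show vcPointBC C₀ h₀ Qb _ = _
    rw [map_sub, vcPointBC_smul, map_sub, vcPointBC_smul, AddEquiv.apply_symm_apply]
  rw [e] at h1
  exact h1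

/-- transfer of "`σ Q - Q ∈ E₁` for all `n`-torsion `Q`" along a change of variables over `ℚ` -/
theorem freyP_transfer_sub {E E' : WeierstrassCurve ℚ} (C₀ : VariableChange ℚ) (h₀ : E' = C₀ • E)
    (A : ValuationSubring Qb) (hu : A.valuation (algebraMap ℚ Qb (C₀.u : ℚ)) = 1)
    (hr : algebraMap ℚ Qb C₀.r ∈ A) (σ : Qb ≃ₐ[ℚ] Qb) (n : ℕ)
    (H : ∀ Q' : (E'⁄Qb).Point, n • Q' = 0 → InKerRed A (E'⁄Qb) (σ • Q' - Q'))
    (Q : (E⁄Qb).Point) (hQ : n • Q = 0) :
    InKerRed A (E⁄Qb) (σ • Q - Q) := by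
  have hQ' : n • (vcPointBC C₀ h₀ Qb).symm Q = 0 := by
    rw [← map_nsmul, hQ, _root_.map_zero]
  have h1 := H ((vcPointBC C₀ h₀ Qb).symm Q) hQ'
  rw [← freyP_inKerRed_vcPoint_iff A (C₀.baseChange Qb) (baseChange_eq_smul C₀ h₀ Qb)
    (by simpa [VariableChange.baseChange, VariableChange.map] using hu)
    (by simpa [VariableChange.baseChange, VariableChange.map] using hr)] at h1
  have e : vcPoint (C₀.baseChange Qb) (baseChange_eq_smul C₀ h₀ Qb)
      (σ • (vcPointBC C₀ h₀ Qb).symm Q - (vcPointBC C₀ h₀ Qb).symm Q) = σ • Q - Q := by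
    show vcPointBC C₀ h₀ Qb _ = _
    rw [map_sub, vcPointBC_smul, AddEquiv.apply_symm_apply]
  rw [e] at h1
  exact h1

lemma freyP_not_dvd_both {a b : ℤ} (h : gcd a b = 1) {q : ℕ} (hq : q.Prime) (ha : (q : ℤ) ∣ a)
    (hb : (q : ℤ) ∣ b) : False := by
  have h1 : (q : ℤ) ∣ gcd a b := dvd_gcd ha hb
  rw [h] at h1
  have : q ∣ 1 := by exact_mod_cast h1
  exact hq.one_lt.ne' (Nat.dvd_one.1 this)

/-- the Frey model has integer coefficients -/
theorem frey_isIntegralAt (P : FreyPackage) (A : ValuationSubring Qb) :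
    IsIntegralAt A (P.freyCurve⁄Qb) := by
  have ha₁ : (P.freyCurve⁄Qb).a₁ = ((1 : ℤ) : Qb) := by simp [FreyPackage.freyCurve]
  have ha₂ : (P.freyCurve⁄Qb).a₂ = ((freyTwoA2 P : ℤ) : Qb) := by
    show algebraMap ℚ Qb P.freyCurve.a₂ = _
    rw [freyCurve_a₂_eq]; simp
  have ha₃ : (P.freyCurve⁄Qb).a₃ = ((0 : ℤ) : Qb) := by simp [FreyPackage.freyCurve]
  have ha₄ : (P.freyCurve⁄Qb).a₄ = ((freyTwoA4 P : ℤ) : Qb) := by
    show algebraMap ℚ Qb P.freyCurve.a₄ = _
    rw [freyCurve_a₄_eq]; simp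
  have ha₆ : (P.freyCurve⁄Qb).a₆ = ((0 : ℤ) : Qb) := by simp [FreyPackage.freyCurve]
  refine ⟨?_, ?_, ?_, ?_, ?_⟩
  · rw [ha₁]; exact intCast_mem A _
  · rw [ha₂]; exact intCast_mem A _
  · rw [ha₃]; exact intCast_mem A _
  · rw [ha₄]; exact intCast_mem A _
  · rw [ha₆]; exact intCast_mem A _

/-- **Odd primes (in particular `p`)**: for `σ` in the inertia group of `A | q`, `q` odd, and ANY
point `Q` of the Frey curve, `(σ - 1)² Q` lies in the kernel of reduction of the Frey model. -/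
theorem frey_odd_sq_inKerRed (P : FreyPackage) {q : ℕ} (hq : q.Prime) (hq2 : q ≠ 2)
    (A : ValuationSubring Qb) (hA : A.LiesOverPrime q) (σ : Qb ≃ₐ[ℚ] Qb)
    (hσ : σ ∈ A.inertiaSubgroupIn ℚ) (Q : (P.freyCurve⁄Qb).Point) :
    InKerRed A (P.freyCurve⁄Qb) (σ • (σ • Q - Q) - (σ • Q - Q)) := by
  have : Algebra.IsAlgebraic ℚ Qb := AlgebraicClosure.isAlgebraic ℚ
  have hσ' := isInertiaLike_of_mem_inertiaSubgroupIn A σ hσ
  have h2 := legunram_val_two hq hq2 A hA
  have hqZ : Prime (q : ℤ) := Nat.prime_iff_prime_int.1 hq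
  have hFLT : P.a ^ P.p + P.b ^ P.p = P.c ^ P.p := P.hFLT
  have h₀ : legendreCurve ((P.a ^ P.p : ℤ) : ℚ) ((P.b ^ P.p : ℤ) : ℚ) =
      freyChange • P.freyCurve := by
    have := legendreCurve_eq_smul P
    push_cast
    exact this
  have hu1 : A.valuation (algebraMap ℚ Qb (freyChange.u : ℚ)) = 1 := by
    have : algebraMap ℚ Qb (freyChange.u : ℚ) = (2 : Qb)⁻¹ := by
      simp [freyChange]
    rw [this, map_inv₀, h2, inv_one]
  have hr1 : algebraMap ℚ Qb freyChange.r ∈ A := by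
    have : algebraMap ℚ Qb freyChange.r = 0 := by simp [freyChange]
    rw [this]; exact zero_mem _
  refine freyP_transfer freyChange h₀ A hu1 hr1 σ ?_ Q
  by_cases hab : (q : ℤ) ∣ P.a * P.b
  · -- node at the origin of the Legendre model
    refine freyP_legendre_node (P.a ^ P.p) (P.b ^ P.p) hq hq2 ?_ ?_ ?_ A hA σ hσ'
    · intro hdvd
      rcases hqZ.dvd_or_dvd hab with ha | hb
      · have hb : (q : ℤ) ∣ P.b ^ P.p := by
          have := dvd_add hdvd (dvd_pow ha P.hp0)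
          simpa using this
        exact freyP_not_dvd_both P.hgcdab hq ha (hqZ.dvd_of_dvd_pow hb)
      · have ha : (q : ℤ) ∣ P.a ^ P.p := by
          have := dvd_sub (dvd_pow hb P.hp0) hdvd
          simpa using this
        exact freyP_not_dvd_both P.hgcdab hq (hqZ.dvd_of_dvd_pow ha) hb
    · rw [← mul_pow]
      exact dvd_pow hab P.hp0
    · exact mul_ne_zero (pow_ne_zero _ P.ha0) (pow_ne_zero _ P.hb0)
  · by_cases hc : (q : ℤ) ∣ P.c
    · -- translate the colliding `2`-torsion point to the origin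
      have h₁ : legendreCurve ((-(P.a ^ P.p) : ℤ) : ℚ) ((P.c ^ P.p : ℤ) : ℚ) =
          legendreTranslate ((P.a ^ P.p : ℤ) : ℚ) •
            legendreCurve ((P.a ^ P.p : ℤ) : ℚ) ((P.b ^ P.p : ℤ) : ℚ) := by
        have := legendreCurve_translate ((P.a ^ P.p : ℤ) : ℚ) ((P.b ^ P.p : ℤ) : ℚ)
        have e1 : ((-(P.a ^ P.p) : ℤ) : ℚ) = -((P.a ^ P.p : ℤ) : ℚ) := by push_cast; ring
        have e2 : ((P.c ^ P.p : ℤ) : ℚ) = ((P.a ^ P.p : ℤ) : ℚ) + ((P.b ^ P.p : ℤ) : ℚ) := by
          rw [← hFLT]; push_cast; ring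
        rw [e1, e2]
        exact this
      have hu2 : A.valuation (algebraMap ℚ Qb
          ((legendreTranslate ((P.a ^ P.p : ℤ) : ℚ)).u : ℚ)) = 1 := by
        simp [legendreTranslate]
      have hr2 : algebraMap ℚ Qb (legendreTranslate ((P.a ^ P.p : ℤ) : ℚ)).r ∈ A := by
        have : algebraMap ℚ Qb (legendreTranslate ((P.a ^ P.p : ℤ) : ℚ)).r =
            ((P.a ^ P.p : ℤ) : Qb) := by
          simp [legendreTranslate]
        rw [this]; exact intCast_mem A _
      intro Q'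
      refine freyP_transfer _ h₁ A hu2 hr2 σ ?_ Q'
      have hna : ¬ (q : ℤ) ∣ P.a := fun ha => hab (dvd_mul_of_dvd_left ha _)
      refine freyP_legendre_node (-(P.a ^ P.p)) (P.c ^ P.p) hq hq2 ?_ ?_ ?_ A hA σ hσ'
      · intro hdvd
        have ha : (q : ℤ) ∣ P.a ^ P.p := by
          have := dvd_sub hdvd (dvd_pow hc P.hp0)
          simpa using this
        exact hna (hqZ.dvd_of_dvd_pow ha)
      · exact dvd_mul_of_dvd_right (dvd_pow hc P.hp0) _
      · exact mul_ne_zero (neg_ne_zero.mpr (pow_ne_zero _ P.ha0)) (pow_ne_zero _ P.hc0)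
    · -- good reduction
      refine freyP_legendre_good (P.a ^ P.p) (P.b ^ P.p) hq hq2 ?_ A hA σ hσ'
      intro hdvd
      rw [hFLT, ← mul_pow, ← mul_pow] at hdvd
      have := hqZ.dvd_of_dvd_pow hdvd
      rcases hqZ.dvd_or_dvd this with h | h
      · exact hab h
      · exact hc h

/-- **At an odd prime `q` (in particular `q = p`)**: for `σ` in the inertia group of `A | q` and
every `p`-torsion point `x` of the Frey curve, `σ x - x` lies in the kernel of reduction of the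
Frey model. -/
theorem frey_odd_inKerRed_map_sub (P : FreyPackage) {q : ℕ} (hq : q.Prime) (hq2 : q ≠ 2)
    (A : ValuationSubring Qb) (hA : A.LiesOverPrime q) (σ : Qb ≃ₐ[ℚ] Qb)
    (hσ : σ ∈ A.inertiaSubgroupIn ℚ) (x : (P.freyCurve⁄Qb).Point) (hx : P.p • x = 0) :
    InKerRed A (P.freyCurve⁄Qb) (σ • x - x) := by
  have : Algebra.IsAlgebraic ℚ Qb := AlgebraicClosure.isAlgebraic ℚ
  have hσ' := isInertiaLike_of_mem_inertiaSubgroupIn A σ hσ
  have h2 := legunram_val_two hq hq2 A hA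
  have hqZ : Prime (q : ℤ) := Nat.prime_iff_prime_int.1 hq
  have hFLT : P.a ^ P.p + P.b ^ P.p = P.c ^ P.p := P.hFLT
  have hone : ¬ (q : ℤ) ∣ 1 := by
    intro hdvd
    have : q ∣ 1 := by exact_mod_cast hdvd
    exact hq.one_lt.ne' (Nat.dvd_one.1 this)
  have h₀ : legendreCurve ((P.a ^ P.p : ℤ) : ℚ) ((P.b ^ P.p : ℤ) : ℚ) =
      freyChange • P.freyCurve := by
    have := legendreCurve_eq_smul P
    push_cast
    exact this
  have hu1 : A.valuation (algebraMap ℚ Qb (freyChange.u : ℚ)) = 1 := by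
    have : algebraMap ℚ Qb (freyChange.u : ℚ) = (2 : Qb)⁻¹ := by
      simp [freyChange]
    rw [this, map_inv₀, h2, inv_one]
  have hr1 : algebraMap ℚ Qb freyChange.r ∈ A := by
    have : algebraMap ℚ Qb freyChange.r = 0 := by simp [freyChange]
    rw [this]; exact zero_mem _
  refine freyP_transfer_sub freyChange h₀ A hu1 hr1 σ P.p ?_ x hx
  by_cases hab : (q : ℤ) ∣ P.a * P.b
  · -- node at the origin of the Legendre model
    intro Q' hQ'
    refine freyP_legendre_mult_sub (P.a ^ P.p) (P.b ^ P.p) P.hp0 hq hq2 ?_ ?_ (-1) (P.a * P.b)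
      ?_ ?_ (mul_ne_zero P.ha0 P.hb0) A hA σ hσ' Q' hQ'
    · intro hdvd
      rcases hqZ.dvd_or_dvd hab with ha | hb
      · have hb : (q : ℤ) ∣ P.b ^ P.p := by
          have := dvd_add hdvd (dvd_pow ha P.hp0)
          simpa using this
        exact freyP_not_dvd_both P.hgcdab hq ha (hqZ.dvd_of_dvd_pow hb)
      · have ha : (q : ℤ) ∣ P.a ^ P.p := by
          have := dvd_sub (dvd_pow hb P.hp0) hdvd
          simpa using this
        exact freyP_not_dvd_both P.hgcdab hq (hqZ.dvd_of_dvd_pow ha) hb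
    · rw [← mul_pow]
      exact dvd_pow hab P.hp0
    · intro hdvd
      exact hone (by simpa using hdvd)
    · rw [mul_pow]; ring
  · by_cases hc : (q : ℤ) ∣ P.c
    · -- translate the colliding `2`-torsion point to the origin
      have h₁ : legendreCurve ((-(P.a ^ P.p) : ℤ) : ℚ) ((P.c ^ P.p : ℤ) : ℚ) =
          legendreTranslate ((P.a ^ P.p : ℤ) : ℚ) •
            legendreCurve ((P.a ^ P.p : ℤ) : ℚ) ((P.b ^ P.p : ℤ) : ℚ) := by
        have := legendreCurve_translate ((P.a ^ P.p : ℤ) : ℚ) ((P.b ^ P.p : ℤ) : ℚ)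
        have e1 : ((-(P.a ^ P.p) : ℤ) : ℚ) = -((P.a ^ P.p : ℤ) : ℚ) := by push_cast; ring
        have e2 : ((P.c ^ P.p : ℤ) : ℚ) = ((P.a ^ P.p : ℤ) : ℚ) + ((P.b ^ P.p : ℤ) : ℚ) := by
          rw [← hFLT]; push_cast; ring
        rw [e1, e2]
        exact this
      have hu2 : A.valuation (algebraMap ℚ Qb
          ((legendreTranslate ((P.a ^ P.p : ℤ) : ℚ)).u : ℚ)) = 1 := by
        simp [legendreTranslate]
      have hr2 : algebraMap ℚ Qb (legendreTranslate ((P.a ^ P.p : ℤ) : ℚ)).r ∈ A := by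
        have : algebraMap ℚ Qb (legendreTranslate ((P.a ^ P.p : ℤ) : ℚ)).r =
            ((P.a ^ P.p : ℤ) : Qb) := by
          simp [legendreTranslate]
        rw [this]; exact intCast_mem A _
      intro Q' hQ'
      refine freyP_transfer_sub _ h₁ A hu2 hr2 σ P.p ?_ Q' hQ'
      have hna : ¬ (q : ℤ) ∣ P.a := fun ha => hab (dvd_mul_of_dvd_left ha _)
      intro Q'' hQ''
      refine freyP_legendre_mult_sub (-(P.a ^ P.p)) (P.c ^ P.p) P.hp0 hq hq2 ?_ ?_ 1 (P.a * P.c)
        hone ?_ (mul_ne_zero P.ha0 P.hc0) A hA σ hσ' Q'' hQ''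
      · intro hdvd
        have ha : (q : ℤ) ∣ P.a ^ P.p := by
          have := dvd_sub hdvd (dvd_pow hc P.hp0)
          simpa using this
        exact hna (hqZ.dvd_of_dvd_pow ha)
      · exact dvd_mul_of_dvd_right (dvd_pow hc P.hp0) _
      · rw [mul_pow]; ring
    · -- good reduction
      intro Q' _
      refine freyP_legendre_good_sub (P.a ^ P.p) (P.b ^ P.p) hq hq2 ?_ A hA σ hσ' Q'
      intro hdvd
      rw [hFLT, ← mul_pow, ← mul_pow] at hdvd
      have := hqZ.dvd_of_dvd_pow hdvd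
      rcases hqZ.dvd_or_dvd this with h | h
      · exact hab h
      · exact hc h

/-- the exact statement of the S13 leaf (Lp-a) -/
theorem frey_inKerRed_map_sub (P : FreyPackage) (A : ValuationSubring Qb)
    (hA : A.LiesOverPrime P.p) (σ : Qb ≃ₐ[ℚ] Qb) (hσ : σ ∈ A.inertiaSubgroupIn ℚ)
    (x : (P.freyCurve⁄Qb).Point) (hx : P.p • x = 0) :
    InKerRed A (P.freyCurve⁄Qb) (σ • x - x) :=
  frey_odd_inKerRed_map_sub P P.pp (by have := P.hp5; omega) A hA σ hσ x hx

end frey

end Fermat.Agent.S13
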