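import Mathlib
import Fermat.Prelude.Def_FLTPrelim_Ramification
import Fermat.Agent.S13.Minkowski
import Fermat.Agent.S13.MinkTwo

/-!
# S13 leaf (M2): Minkowski glue, two-subgroup form

`H₁ H₂` open normal subgroups of `Gal(Qbar/ℚ)`; away from `p` every inertia subgroup lies in
`H₁ ⊓ H₂`; at `p` every inertia ELEMENT lies in `H₁` or in `H₂`.  Then `H₁ = ⊤ ∨ H₂ = ⊤`.

Derived from `mink_two` (helper19, `MinkTwo.lean`) and the fact that a subgroup contained in the
union of two subgroups is contained in one of them (`SubgroupClass.subset_union`).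
-/

set_option autoImplicit false

namespace Fermat.Agent.S13

theorem eq_top_or_eq_top_of_inertia_mem
    (H₁ H₂ : Subgroup (AlgebraicClosure ℚ ≃ₐ[ℚ] AlgebraicClosure ℚ)) [H₁.Normal] [H₂.Normal]
    (hopen₁ : ∃ F : IntermediateField ℚ (AlgebraicClosure ℚ),
      FiniteDimensional ℚ F ∧ F.fixingSubgroup ≤ H₁)
    (hopen₂ : ∃ F : IntermediateField ℚ (AlgebraicClosure ℚ),
      FiniteDimensional ℚ F ∧ F.fixingSubgroup ≤ H₂)
    (p : ℕ)
    (hunr : ∀ (q : ℕ) (A : ValuationSubring (AlgebraicClosure ℚ)), q.Prime → q ≠ p →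
      A.LiesOverPrime q → A.inertiaSubgroupIn ℚ ≤ H₁ ⊓ H₂)
    (hp : ∀ (A : ValuationSubring (AlgebraicClosure ℚ)), A.LiesOverPrime p →
      ∀ σ ∈ A.inertiaSubgroupIn ℚ, σ ∈ H₁ ∨ σ ∈ H₂) :
    H₁ = ⊤ ∨ H₂ = ⊤ := by
  by_cases hpp : p.Prime
  · refine mink_two p hpp H₁ H₂ hopen₁ hopen₂
      (fun q A hq hqp hA => (hunr q A hq hqp hA).trans inf_le_left)
      (fun q A hq hqp hA => (hunr q A hq hqp hA).trans inf_le_right) (fun A hA => ?_)
    rw [← SubgroupClass.subset_union]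
    intro σ hσ
    exact hp A hA σ hσ
  · left
    refine eq_top_of_inertia_le H₁ hopen₁ (fun q A hq hA => ?_)
    have hqp : q ≠ p := fun h => hpp (h ▸ hq)
    exact (hunr q A hq hqp hA).trans inf_le_left

end Fermat.Agent.S13
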