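import Mathlib

/-!
# S13 (R): linear algebra in dimension `≤ 2`

`N` a proper nonzero subspace of a space `V` of dimension `≤ 2` (so `N` and `V ⧸ N` are lines) and
`T` an endomorphism preserving `N`:
* `rep_unipotent`: `T² = 0` ⇒ `T N = 0` and `T V ⊆ N`;
* `rep_line`: `T V ⊆ M` for a proper subspace `M` ⇒ `T N = 0` or `T V ⊆ N`.
-/

set_option autoImplicit false

namespace Fermat.Agent.S13

open Module

variable {k V : Type*} [Field k] [AddCommGroup V] [Module k V] [FiniteDimensional k V]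

lemma rep_finrank (hV : finrank k V ≤ 2) {N : Submodule k V} (hN0 : N ≠ ⊥) (hN1 : N ≠ ⊤) :
    finrank k N = 1 ∧ finrank k V = 2 := by
  have h1 : finrank k N ≠ 0 := fun h => hN0 (Submodule.finrank_eq_zero.1 h)
  have h2 : finrank k N < finrank k V := Submodule.finrank_lt hN1
  omega

lemma rep_eq_bot_of_lt (hV : finrank k V ≤ 2) {N M : Submodule k V} (hM : M ≠ ⊤)
    (h : N < M) : N = ⊥ := by
  have h1 : finrank k N < finrank k M := Submodule.finrank_lt_finrank_of_lt h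
  have h2 : finrank k M < finrank k V := Submodule.finrank_lt hM
  apply Submodule.finrank_eq_zero.1
  omega

lemma rep_eq_top_of_lt (hV : finrank k V ≤ 2) {N M : Submodule k V} (hN0 : N ≠ ⊥)
    (h : N < M) : M = ⊤ := by
  by_contra hM
  exact hN0 (rep_eq_bot_of_lt hV hM h)

theorem rep_unipotent (hV : finrank k V ≤ 2) (N : Submodule k V) (hN0 : N ≠ ⊥) (hN1 : N ≠ ⊤)
    (T : V →ₗ[k] V) (hTN : ∀ x ∈ N, T x ∈ N) (hT2 : ∀ x, T (T x) = 0) :
    (∀ x ∈ N, T x = 0) ∧ (∀ x, T x ∈ N) := by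
  have hker : N ≤ LinearMap.ker T := by
    -- otherwise `N ⊓ ker T < N` is zero, but it contains `T N ≠ 0`
    by_contra hle
    have hlt : N ⊓ LinearMap.ker T < N := lt_of_le_of_ne inf_le_left (fun h => hle (h ▸ inf_le_right))
    have hbot := rep_eq_bot_of_lt hV hN1 hlt
    apply hle
    intro x hx
    have : T x ∈ N ⊓ LinearMap.ker T := ⟨hTN x hx, LinearMap.mem_ker.2 (hT2 x)⟩
    rw [hbot, Submodule.mem_bot] at this
    -- `T x = 0` means `x ∈ ker T`
    exact LinearMap.mem_ker.2 this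
  refine ⟨fun x hx => LinearMap.mem_ker.1 (hker hx), fun x => ?_⟩
  by_contra hx
  have hlt : N < LinearMap.ker T :=
    lt_of_le_of_ne hker (fun h => hx (h ▸ LinearMap.mem_ker.2 (hT2 x)))
  have htop := rep_eq_top_of_lt hV hN0 hlt
  have : x ∈ LinearMap.ker T := by rw [htop]; trivial
  rw [LinearMap.mem_ker] at this
  exact hx (this ▸ N.zero_mem)

theorem rep_line (hV : finrank k V ≤ 2) (N M : Submodule k V)
    (hM : M ≠ ⊤) (T : V →ₗ[k] V) (hTN : ∀ x ∈ N, T x ∈ N) (hTM : ∀ x, T x ∈ M) :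
    (∀ x ∈ N, T x = 0) ∨ (∀ x, T x ∈ N) := by
  by_cases h : M ≤ N
  · exact Or.inr fun x => h (hTM x)
  · left
    have hlt : N ⊓ M < M := lt_of_le_of_ne inf_le_right (fun e => h (e ▸ inf_le_left))
    have hbot := rep_eq_bot_of_lt hV hM hlt
    intro x hx
    have : T x ∈ N ⊓ M := ⟨hTN x hx, hTM x⟩
    rwa [hbot, Submodule.mem_bot] at this

end Fermat.Agent.S13
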