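import Mathlib
import Fermat.Prelude.Def_FLTPrelim_Ramification
import Fermat.Agent.S13.Rep
import Fermat.Agent.S13.Mink2

/-!
# S13 (G): the global assembly, abstractly

`V` a finite `𝔽_p[Gal(Qbar/ℚ)]`-module with at most `p²` elements and a stable subspace
`N ≠ ⊥, ⊤`; unramified outside `2p`, unipotent inertia at `2`, inertia at `p` moving everything
into a proper subspace, open kernel, no nonzero fixed vector.  Then `Gal(Qbar/ℚ)` acts trivially
on `V ⧸ N`.
-/

set_option autoImplicit false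

namespace Fermat.Agent.S13

local notation "Qb" => AlgebraicClosure ℚ
local notation "GQ" => (AlgebraicClosure ℚ ≃ₐ[ℚ] AlgebraicClosure ℚ)

section abstract

variable {p : ℕ} [Fact p.Prime] {V : Type*} [AddCommGroup V] [Module (ZMod p) V]
  [DistribMulAction GQ V]

/-- `x ↦ σ x - x` as a `ZMod p`-linear map -/
noncomputable def asmT (σ : GQ) : V →ₗ[ZMod p] V :=
  (DistribSMul.toAddMonoidHom V σ).toZModLinearMap p - LinearMap.id

lemma asmT_apply (σ : GQ) (x : V) : asmT (p := p) σ x = σ • x - x := rfl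

/-- the elements fixing `N` pointwise -/
def asmH₁ (N : Submodule (ZMod p) V) : Subgroup GQ where
  carrier := {σ | ∀ x ∈ N, σ • x = x}
  one_mem' := fun x _ => one_smul _ x
  mul_mem' := fun {a b} ha hb x hx => by rw [mul_smul, hb x hx, ha x hx]
  inv_mem' := fun {a} ha x hx => by
    have := ha x hx
    rw [inv_smul_eq_iff]; exact this.symm

/-- the elements acting trivially on `V ⧸ N` -/
def asmH₂ (N : Submodule (ZMod p) V) : Subgroup GQ where
  carrier := {σ | ∀ x : V, σ • x - x ∈ N}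
  one_mem' := fun x => by simp
  mul_mem' := fun {a b} ha hb x => by
    have h1 := ha (b • x)
    have h2 := hb x
    have : (a * b) • x - x = (a • (b • x) - b • x) + (b • x - x) := by
      rw [mul_smul]; abel
    rw [this]
    exact N.add_mem h1 h2
  inv_mem' := fun {a} ha x => by
    have h1 := ha (a⁻¹ • x)
    rw [smul_inv_smul] at h1
    have : a⁻¹ • x - x = -(x - a⁻¹ • x) := by abel
    rw [this]
    exact N.neg_mem h1

lemma mem_asmH₁ {N : Submodule (ZMod p) V} {σ : GQ} : σ ∈ asmH₁ N ↔ ∀ x ∈ N, σ • x = x := Iff.rfl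

lemma mem_asmH₂ {N : Submodule (ZMod p) V} {σ : GQ} : σ ∈ asmH₂ N ↔ ∀ x : V, σ • x - x ∈ N :=
  Iff.rfl

lemma asmH₁_normal {N : Submodule (ZMod p) V} (hN : ∀ σ : GQ, ∀ x ∈ N, σ • x ∈ N) :
    (asmH₁ N).Normal := by
  constructor
  intro n hn g x hx
  have h1 : g⁻¹ • x ∈ N := hN _ x hx
  rw [mul_smul, mul_smul, hn _ h1, smul_inv_smul]

lemma asmH₂_normal {N : Submodule (ZMod p) V} (hN : ∀ σ : GQ, ∀ x ∈ N, σ • x ∈ N) :
    (asmH₂ N).Normal := by
  constructor
  intro n hn g x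
  have h1 := hn (g⁻¹ • x)
  have h2 := hN g _ h1
  rw [smul_sub, smul_inv_smul, ← mul_smul, ← mul_smul] at h2
  exact h2

theorem cofixed_of_local [Finite V] (hcard : Nat.card V ≤ p ^ 2)
    (N : Submodule (ZMod p) V) (hN : ∀ σ : GQ, ∀ x ∈ N, σ • x ∈ N) (hN0 : N ≠ ⊥) (hN1 : N ≠ ⊤)
    (hopen : ∃ F : IntermediateField ℚ Qb, FiniteDimensional ℚ F ∧
      ∀ σ ∈ F.fixingSubgroup, ∀ x : V, σ • x = x)
    (hodd : ∀ (q : ℕ) (A : ValuationSubring Qb), q.Prime → q ≠ 2 → q ≠ p → A.LiesOverPrime q →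
      ∀ σ ∈ A.inertiaSubgroupIn ℚ, ∀ x : V, σ • x = x)
    (htwo : ∀ A : ValuationSubring Qb, A.LiesOverPrime 2 →
      ∀ σ ∈ A.inertiaSubgroupIn ℚ, ∀ x : V, σ • (σ • x - x) = σ • x - x)
    (hp : ∀ A : ValuationSubring Qb, A.LiesOverPrime p →
      ∃ M : Submodule (ZMod p) V, M ≠ ⊤ ∧ ∀ σ ∈ A.inertiaSubgroupIn ℚ, ∀ x : V, σ • x - x ∈ M)
    (hfix : ∀ x : V, (∀ σ : GQ, σ • x = x) → x = 0) :
    ∀ σ : GQ, ∀ x : V, σ • x - x ∈ N := by
  classical
  have : Module.Finite (ZMod p) V := Module.Finite.of_finite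
  have hV : Module.finrank (ZMod p) V ≤ 2 := by
    have h1 := Module.natCard_eq_pow_finrank (K := ZMod p) (V := V)
    rw [Nat.card_zmod] at h1
    rw [h1] at hcard
    exact (Nat.pow_le_pow_iff_right (Fact.out : p.Prime).one_lt).1 hcard
  have := asmH₁_normal hN
  have := asmH₂_normal hN
  obtain ⟨F, hF, hFfix⟩ := hopen
  have key := eq_top_or_eq_top_of_inertia_mem (asmH₁ N) (asmH₂ N)
    ⟨F, hF, fun σ hσ x _ => hFfix σ hσ x⟩
    ⟨F, hF, fun σ hσ x => by rw [hFfix σ hσ x, sub_self]; exact N.zero_mem⟩ p ?_ ?_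
  · rcases key with h | h
    · exfalso
      obtain ⟨x, hxN, hx0⟩ := Submodule.exists_mem_ne_zero_of_ne_bot hN0
      apply hx0
      apply hfix
      intro σ
      have : σ ∈ asmH₁ N := by rw [h]; trivial
      exact this x hxN
    · intro σ x
      have : σ ∈ asmH₂ N := by rw [h]; trivial
      exact this x
  · intro q A hq hqp hA σ hσ
    by_cases hq2 : q = 2
    · subst hq2
      have h := rep_unipotent hV N hN0 hN1 (asmT σ)
        (fun x hx => N.sub_mem (hN σ x hx) hx)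
        (fun x => by
          rw [asmT_apply, asmT_apply, htwo A hA σ hσ x, sub_self])
      exact ⟨fun x hx => sub_eq_zero.1 (h.1 x hx), fun x => h.2 x⟩
    · have h := hodd q A hq hq2 hqp hA σ hσ
      exact ⟨fun x _ => h x, fun x => by rw [h x, sub_self]; exact N.zero_mem⟩
  · intro A hA σ hσ
    obtain ⟨M, hM, hσM⟩ := hp A hA
    rcases rep_line hV N M hM (asmT σ) (fun x hx => N.sub_mem (hN σ x hx) hx)
      (fun x => hσM σ hσ x) with h | h
    · exact Or.inl fun x hx => sub_eq_zero.1 (h x hx)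
    · exact Or.inr fun x => h x

end abstract

end Fermat.Agent.S13
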