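import Mathlib
import Fermat.Prelude.Def_FLTPrelim_FreyPackage

/-!
# S13: integrality and `2`-adic shape of the coefficients of the Frey curve
-/

set_option autoImplicit false

namespace Fermat.Agent.S13

lemma freyint_a_pow_mod_four (P : FreyPackage) : ((P.a ^ P.p : ℤ) : ZMod 4) = 3 := by
  obtain ⟨k, hk⟩ := P.hp_odd
  push_cast
  rw [P.ha4, hk, pow_succ, pow_mul]
  have : (3 : ZMod 4) ^ 2 = 1 := by decide
  rw [this, one_pow, one_mul]

lemma freyint_two_dvd_b (P : FreyPackage) : (2 : ℤ) ∣ P.b :=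
  (ZMod.intCast_zmod_eq_zero_iff_dvd P.b 2).1 P.hb2

lemma freyint_a_odd (P : FreyPackage) : ¬ (2 : ℤ) ∣ P.a := by
  intro h
  have h1 : (2 : ℤ) ∣ gcd P.a P.b := dvd_gcd h (freyint_two_dvd_b P)
  rw [P.hgcdab] at h1
  norm_num at h1

/-- `b = 2 ^ e * b'` with `e ≥ 1` and `b'` odd -/
lemma freyint_b_decomp (P : FreyPackage) : ∃ (e : ℕ) (b' : ℤ), 1 ≤ e ∧ ¬ (2 : ℤ) ∣ b' ∧
    P.b = 2 ^ e * b' := by
  have hfin : FiniteMultiplicity (2 : ℤ) P.b :=
    Int.finiteMultiplicity_iff.2 ⟨by norm_num, P.hb0⟩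
  obtain ⟨b', hb', hnd⟩ := hfin.exists_eq_pow_mul_and_not_dvd
  refine ⟨multiplicity (2 : ℤ) P.b, b', ?_, hnd, hb'⟩
  by_contra h
  have h0 : multiplicity (2 : ℤ) P.b = 0 := by omega
  rw [h0, pow_zero, one_mul] at hb'
  exact hnd (hb' ▸ freyint_two_dvd_b P)

lemma freyint_thirtytwo_dvd (P : FreyPackage) : (32 : ℤ) ∣ P.b ^ P.p := by
  obtain ⟨c, hc⟩ := freyint_two_dvd_b P
  have h5 := P.hp5
  have : P.b ^ P.p = 32 * (2 ^ (P.p - 5) * c ^ P.p) := by
    rw [hc, mul_pow]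
    have : (2 : ℤ) ^ P.p = 2 ^ 5 * 2 ^ (P.p - 5) := by
      rw [← pow_add]; congr 1; omega
    rw [this]; ring
  exact ⟨_, this⟩

lemma freyint_four_dvd (P : FreyPackage) : (4 : ℤ) ∣ P.b ^ P.p - 1 - P.a ^ P.p := by
  apply (ZMod.intCast_zmod_eq_zero_iff_dvd _ 4).1
  have h1 := freyint_a_pow_mod_four P
  have h2 : ((P.b ^ P.p : ℤ) : ZMod 4) = 0 := by
    apply (ZMod.intCast_zmod_eq_zero_iff_dvd _ 4).2
    exact dvd_trans (by norm_num) (freyint_thirtytwo_dvd P)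
  push_cast at h1 h2 ⊢
  rw [h1, h2]
  decide

lemma freyint_sixteen_dvd (P : FreyPackage) : (16 : ℤ) ∣ -(P.a ^ P.p) * (P.b ^ P.p) :=
  dvd_mul_of_dvd_right (dvd_trans (by norm_num) (freyint_thirtytwo_dvd P)) _

/-- the Frey curve over `ℚ` is the base change of the integral Frey curve -/
theorem freyCurve_eq_map (P : FreyPackage) :
    P.freyCurve = P.freyCurveInt.map (Int.castRingHom ℚ) := by
  obtain ⟨k, hk⟩ := freyint_four_dvd P
  obtain ⟨l, hl⟩ := freyint_sixteen_dvd P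
  have hk' : ((P.b : ℚ) ^ P.p - 1 - (P.a : ℚ) ^ P.p) = 4 * k := by exact_mod_cast hk
  have hl' : (-((P.a : ℚ) ^ P.p) * ((P.b : ℚ) ^ P.p)) = 16 * l := by exact_mod_cast hl
  ext
  · simp [FreyPackage.freyCurve, FreyPackage.freyCurveInt]
  · simp only [FreyPackage.freyCurve, FreyPackage.freyCurveInt, WeierstrassCurve.map_a₂,
      Int.coe_castRingHom, hk, hk']
    rw [Int.mul_ediv_cancel_left _ (by norm_num : (4 : ℤ) ≠ 0)]
    field_simp
  · simp [FreyPackage.freyCurve, FreyPackage.freyCurveInt]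
  · simp only [FreyPackage.freyCurve, FreyPackage.freyCurveInt, WeierstrassCurve.map_a₄,
      Int.coe_castRingHom, hl, hl']
    rw [Int.mul_ediv_cancel_left _ (by norm_num : (16 : ℤ) ≠ 0)]
    field_simp
  · simp [FreyPackage.freyCurve, FreyPackage.freyCurveInt]

/-- `1 + 4 a₂ = b ^ p - a ^ p` (the discriminant of the tangent cone at the node), an odd integer -/
theorem freyCurveInt_b₂ (P : FreyPackage) :
    1 + 4 * P.freyCurveInt.a₂ = P.b ^ P.p - P.a ^ P.p ∧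
      ¬ (2 : ℤ) ∣ P.b ^ P.p - P.a ^ P.p := by
  obtain ⟨k, hk⟩ := freyint_four_dvd P
  constructor
  · simp only [FreyPackage.freyCurveInt, hk]
    rw [Int.mul_ediv_cancel_left _ (by norm_num : (4 : ℤ) ≠ 0)]
    linarith
  · intro h
    have h2 : (2 : ℤ) ∣ P.b ^ P.p := dvd_pow (freyint_two_dvd_b P) P.hp0
    have h3 : (2 : ℤ) ∣ P.a ^ P.p := by
      have := dvd_sub h2 h
      simpa using this
    exact freyint_a_odd P (Int.prime_two.dvd_of_dvd_pow h3)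

/-- `a₄ = 2 ^ m * w` with `w` odd, `m ≥ 1` and `p ∤ m` (`m = p * v₂(b) - 4`) -/
theorem freyCurveInt_a₄ (P : FreyPackage) : ∃ (m : ℕ) (w : ℤ), 1 ≤ m ∧ ¬ P.p ∣ m ∧
    ¬ (2 : ℤ) ∣ w ∧ P.freyCurveInt.a₄ = 2 ^ m * w := by
  obtain ⟨e, b', he, hb', hb⟩ := freyint_b_decomp P
  have h5 := P.hp5
  have hpe : 5 ≤ P.p * e := le_trans h5 (Nat.le_mul_of_pos_right _ he)
  refine ⟨P.p * e - 4, -(P.a ^ P.p) * b' ^ P.p, by omega, ?_, ?_, ?_⟩
  · intro hdvd
    have h4 : P.p ∣ 4 := by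
      have h1 : P.p ∣ P.p * e := dvd_mul_right _ _
      have : P.p * e = (P.p * e - 4) + 4 := by omega
      rw [this] at h1
      exact (Nat.dvd_add_right hdvd).1 h1
    have := Nat.le_of_dvd (by norm_num) h4
    omega
  · intro h
    rcases Int.prime_two.dvd_or_dvd h with h | h
    · rw [dvd_neg] at h
      exact freyint_a_odd P (Int.prime_two.dvd_of_dvd_pow h)
    · exact hb' (Int.prime_two.dvd_of_dvd_pow h)
  · simp only [FreyPackage.freyCurveInt]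
    have : -(P.a ^ P.p) * P.b ^ P.p = 16 * (2 ^ (P.p * e - 4) * (-(P.a ^ P.p) * b' ^ P.p)) := by
      rw [hb, mul_pow, ← pow_mul]
      have : (2 : ℤ) ^ (e * P.p) = 2 ^ 4 * 2 ^ (P.p * e - 4) := by
        rw [← pow_add]; congr 1; rw [mul_comm e]; omega
      rw [this]; ring
    rw [this, Int.mul_ediv_cancel_left _ (by norm_num : (16 : ℤ) ≠ 0)]

theorem freyCurveInt_a₁ (P : FreyPackage) : P.freyCurveInt.a₁ = 1 := rfl
theorem freyCurveInt_a₃ (P : FreyPackage) : P.freyCurveInt.a₃ = 0 := rfl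
theorem freyCurveInt_a₆ (P : FreyPackage) : P.freyCurveInt.a₆ = 0 := rfl

end Fermat.Agent.S13
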