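import Mathlib
import Fermat.Agent.S05.Legendre

set_option autoImplicit false

/-!
# S13: the structure `IsMultRedTwo` (definition only)

INTEGRATION NOTE: this is verbatim the structure of helper26's `Fermat/Agent/S13/Defs.lean`
(section `kapTwo`).  If `Defs.lean` is kept in the final tree, delete this file and make
`ComponentsTwo.lean` import `Fermat.Agent.S13.Defs` instead (nothing else changes).
-/

namespace Fermat.Agent.S13

open WeierstrassCurve WeierstrassCurve.Affine Fermat.Agent.S05

section kapTwo

variable {K : Type*} [Field K] {Γ₀ : Type*} [LinearOrderedCommGroupWithZero Γ₀]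
  (v : Valuation K Γ₀) (W : Affine K)

/-- multiplicative reduction of `Y² = X³ + a₂X² + a₄X` in any residue characteristic: `4a₂` is a
unit, `0 < v a₄ < 1` (`a₂` itself need not be integral when `v 2 < 1`). -/
structure IsMultRedTwo : Prop where
  leg : IsLeg W
  b₂ : v (4 * W.a₂) = 1
  a₄_lt : v W.a₄ < 1
  a₄_ne : W.a₄ ≠ 0

end kapTwo

end Fermat.Agent.S13
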