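import Mathlib
import Fermat.Agent.S05.Components
import Fermat.Agent.S05.ComponentsInd
import Fermat.Agent.S13.MultRedTwo

set_option autoImplicit false
set_option linter.unusedSectionVars false
set_option linter.unusedVariables false

/-!
# (L2Rkap): the component function in the multiplicative case, any residue characteristic

Generalisation of `Fermat.Agent.S05.kap_pair` from (`v 2 = 1`, `v a₂ = 1`) to `v (4 * a₂) = 1`
(`a₂` itself need not be integral when `v 2 < 1`).  MAIN: `kap_pair_two`, `kap_pow_two`.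
-/

namespace Fermat.Agent.S13

open WeierstrassCurve WeierstrassCurve.Affine Valuation Fermat.Agent.S05

section abstract

variable {K : Type*} [Field K] {Γ₀ : Type*} [LinearOrderedCommGroupWithZero Γ₀]
  (v : Valuation K Γ₀)

lemma comp2_v_two_le : v (2 : K) ≤ 1 := by
  have : (2 : K) = 1 + 1 := by norm_num
  rw [this]
  exact map_add_le v (by rw [map_one]) (by rw [map_one])

lemma comp2_v_four_le : v (4 : K) ≤ 1 := by
  have : (4 : K) = 2 * 2 := by norm_num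
  rw [this, map_mul]
  exact mul_le_one' (comp2_v_two_le v) (comp2_v_two_le v)

section regimes

variable {A b x₁ x₂ Xp Xm : K}

/-- the numerator of the sum law (`A = 4 a₂`) -/
def comp2N (A b x₁ x₂ : K) : K := 2 * ((x₁ * x₂ + b) * (x₁ + x₂)) + A * (x₁ * x₂)

/-- regime (h): both `x`-coordinates have valuation `≥ 1`. -/
lemma comp2_regime_h (hA : v A = 1) (hb : v b < 1) (hx : x₁ ≠ x₂)
    (hs : Xp + Xm = comp2N A b x₁ x₂ / (x₁ - x₂) ^ 2)
    (hp : Xp * Xm = (x₁ * x₂ - b) ^ 2 / (x₁ - x₂) ^ 2)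
    (h₁ : 1 ≤ v x₁) (h₂ : 1 ≤ v x₂) : 1 ≤ v Xp ∧ 1 ≤ v Xm := by
  have hD : x₁ - x₂ ≠ 0 := sub_ne_zero.mpr hx
  have hδ : v (x₁ - x₂) ≠ 0 := (v.ne_zero_iff).mpr hD
  have hδ2 : 0 < v (x₁ - x₂) ^ 2 := zero_lt_iff.mpr (pow_ne_zero 2 hδ)
  set m := v x₁ * v x₂ with hm
  have hm1 : 1 ≤ m := one_le_mul_of_one_le_of_one_le h₁ h₂
  have hx1m : v x₁ ≤ m := le_mul_of_one_le_right' h₂
  have hx2m : v x₂ ≤ m := le_mul_of_one_le_left' h₁
  have hmm : m ≤ m ^ 2 := by rw [sq]; exact le_mul_of_one_le_left' hm1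
  have hbm : v b < m := lt_of_lt_of_le hb hm1
  have hprod : v (x₁ * x₂ - b) = m := by
    rw [map_sub_eq_of_lt_left v (by rw [map_mul]; exact hbm), map_mul]
  have hδm : v (x₁ - x₂) ≤ m := map_sub_le v hx1m hx2m
  have hPi : v (Xp * Xm) = m ^ 2 / v (x₁ - x₂) ^ 2 := by
    rw [hp, map_div₀, map_pow, map_pow, hprod]
  have hN : v (comp2N A b x₁ x₂) ≤ m ^ 2 := by
    apply map_add_le v
    · rw [map_mul, map_mul, sq]
      calc v 2 * (v (x₁ * x₂ + b) * v (x₁ + x₂)) ≤ 1 * (m * m) :=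
            mul_le_mul' (comp2_v_two_le v)
              (mul_le_mul' (map_add_le v (by rw [map_mul]) hbm.le) (map_add_le v hx1m hx2m))
        _ = m * m := one_mul _
    · rw [map_mul, map_mul, hA, one_mul]
      exact hmm
  have hS : v (Xp + Xm) ≤ m ^ 2 / v (x₁ - x₂) ^ 2 := by
    rw [hs, map_div₀, map_pow]
    exact div_le_div_of_nonneg_right hN hδ2.le
  apply comp_newton_ge v
  · rw [hPi, le_div_iff₀ hδ2, one_mul]
    exact pow_le_pow_left' hδm 2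
  · rw [hPi]; exact hS

/-- regime (d): `1 ≤ v x₁`, `v x₂ < 1`, `v b ≤ (v x₂)²`. -/
lemma comp2_regime_d (hA : v A = 1) (hb0 : b ≠ 0) (hx : x₁ ≠ x₂)
    (hs : Xp + Xm = comp2N A b x₁ x₂ / (x₁ - x₂) ^ 2)
    (hp : Xp * Xm = (x₁ * x₂ - b) ^ 2 / (x₁ - x₂) ^ 2)
    (h₁ : 1 ≤ v x₁) (h₂ : v x₂ < 1) (hβ : v b ≤ v x₂ ^ 2) :
    v Xp = v x₂ ∧ v Xm = v x₂ := by
  have hβ0 : v b ≠ 0 := (v.ne_zero_iff).mpr hb0
  have hh0 : v x₂ ≠ 0 := comp_ne_zero_of_le_sq hβ0 hβ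
  have hg0 : v x₁ ≠ 0 := (lt_of_lt_of_le zero_lt_one h₁).ne'
  have hhg : v x₂ < v x₁ := lt_of_lt_of_le h₂ h₁
  have hδg : v (x₁ - x₂) = v x₁ := map_sub_eq_of_lt_left v hhg
  have hhsq : v x₂ ^ 2 < v x₂ := comp_sq_lt_self h₂ hh0
  have hbgh : v b < v x₁ * v x₂ :=
    lt_of_le_of_lt hβ (lt_of_lt_of_le hhsq (le_mul_of_one_le_left' h₁))
  have hprod : v (x₁ * x₂ - b) = v x₁ * v x₂ := by
    rw [map_sub_eq_of_lt_left v (by rw [map_mul]; exact hbgh), map_mul]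
  have hprod' : v (x₁ * x₂ + b) = v x₁ * v x₂ := by
    rw [map_add_eq_of_lt_left v (by rw [map_mul]; exact hbgh), map_mul]
  have hsum : v (x₁ + x₂) = v x₁ := map_add_eq_of_lt_left v hhg
  have hg2 : 0 < v x₁ ^ 2 := zero_lt_iff.mpr (pow_ne_zero 2 hg0)
  have hPi : v (Xp * Xm) = v x₂ ^ 2 := by
    rw [hp, map_div₀, map_pow, map_pow, hprod, hδg, mul_pow,
      mul_div_cancel_left₀ _ (pow_ne_zero 2 hg0)]
  have hN : v (comp2N A b x₁ x₂) ≤ v x₂ * v x₁ ^ 2 := by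
    apply map_add_le v
    · rw [map_mul, map_mul, hprod', hsum, sq]
      calc v 2 * (v x₁ * v x₂ * v x₁) ≤ 1 * (v x₁ * v x₂ * v x₁) :=
            mul_le_mul' (comp2_v_two_le v) le_rfl
        _ = v x₂ * (v x₁ * v x₁) := by rw [one_mul]; ac_rfl
    · rw [map_mul, map_mul, hA, one_mul, sq]
      calc v x₁ * v x₂ = v x₂ * (1 * v x₁) := by rw [one_mul, mul_comm]
        _ ≤ v x₂ * (v x₁ * v x₁) := mul_le_mul' le_rfl (mul_le_mul' h₁ le_rfl)
  have hS : v (Xp + Xm) ≤ v x₂ := by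
    rw [hs, map_div₀, map_pow, hδg, div_le_iff₀ hg2]
    exact hN
  have heq := comp_newton_eq v (r₁ := Xp) (r₂ := Xm) (by rw [hPi]; exact pow_le_pow_left' hS 2)
  have h1 : v Xp ^ 2 = v x₂ ^ 2 := by rw [← hPi, map_mul, ← heq, sq]
  have h1' := comp_sq_inj h1
  exact ⟨h1', heq ▸ h1'⟩

/-- regime (a): `v x₂ < v x₁ < 1`, `v b ≤ (v x₂)²`. -/
lemma comp2_regime_a (hA : v A = 1) (hb0 : b ≠ 0) (hx : x₁ ≠ x₂)
    (hs : Xp + Xm = comp2N A b x₁ x₂ / (x₁ - x₂) ^ 2)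
    (hp : Xp * Xm = (x₁ * x₂ - b) ^ 2 / (x₁ - x₂) ^ 2)
    (h₁ : v x₁ < 1) (h₂ : v x₂ < v x₁) (hβ : v b ≤ v x₂ ^ 2) :
    (v Xp = v x₂ / v x₁ ∧ v Xm = v x₁ * v x₂) ∨ (v Xm = v x₂ / v x₁ ∧ v Xp = v x₁ * v x₂) := by
  have hβ0 : v b ≠ 0 := (v.ne_zero_iff).mpr hb0
  have hh0 : v x₂ ≠ 0 := comp_ne_zero_of_le_sq hβ0 hβ
  have hg0 : v x₁ ≠ 0 := (lt_of_le_of_lt zero_le h₂).ne'
  have hgpos : 0 < v x₁ := zero_lt_iff.mpr hg0
  have hhpos : 0 < v x₂ := zero_lt_iff.mpr hh0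
  have hδg : v (x₁ - x₂) = v x₁ := map_sub_eq_of_lt_left v h₂
  have hbgh : v b < v x₁ * v x₂ := by
    refine lt_of_le_of_lt hβ ?_
    rw [sq]
    exact mul_lt_mul_of_pos_right h₂ hhpos
  have hprod : v (x₁ * x₂ - b) = v x₁ * v x₂ := by
    rw [map_sub_eq_of_lt_left v (by rw [map_mul]; exact hbgh), map_mul]
  have hprod' : v (x₁ * x₂ + b) = v x₁ * v x₂ := by
    rw [map_add_eq_of_lt_left v (by rw [map_mul]; exact hbgh), map_mul]
  have hsum : v (x₁ + x₂) = v x₁ := map_add_eq_of_lt_left v h₂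
  have hg2 : 0 < v x₁ ^ 2 := zero_lt_iff.mpr (pow_ne_zero 2 hg0)
  have hPi : v (Xp * Xm) = v x₂ ^ 2 := by
    rw [hp, map_div₀, map_pow, map_pow, hprod, hδg, mul_pow,
      mul_div_cancel_left₀ _ (pow_ne_zero 2 hg0)]
  have hN : v (comp2N A b x₁ x₂) = v x₁ * v x₂ := by
    unfold comp2N
    rw [map_add_eq_of_lt_right v]
    · rw [map_mul, map_mul, hA, one_mul]
    · rw [map_mul, map_mul, hprod', hsum, map_mul, map_mul, hA, one_mul]
      calc v 2 * (v x₁ * v x₂ * v x₁) ≤ 1 * (v x₁ * v x₂ * v x₁) :=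
            mul_le_mul' (comp2_v_two_le v) le_rfl
        _ = v x₁ * (v x₁ * v x₂) := by rw [one_mul]; ac_rfl
        _ < 1 * (v x₁ * v x₂) := mul_lt_mul_of_pos_right h₁ (mul_pos hgpos hhpos)
        _ = v x₁ * v x₂ := one_mul _
  have hS : v (Xp + Xm) = v x₂ / v x₁ := by
    rw [hs, map_div₀, map_pow, hδg, hN, sq, mul_div_mul_left _ _ hg0]
  have hlt : v (Xp * Xm) < v (Xp + Xm) ^ 2 := by
    rw [hPi, hS, div_pow, lt_div_iff₀ hg2]
    calc v x₂ ^ 2 * v x₁ ^ 2 < v x₂ ^ 2 * 1 :=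
          mul_lt_mul_of_pos_left (pow_lt_one₀ zero_le h₁ two_ne_zero)
            (zero_lt_iff.mpr (pow_ne_zero 2 hh0))
      _ = v x₂ ^ 2 := mul_one _
  have hother : ∀ t : Γ₀, t * (v x₂ / v x₁) = v x₂ ^ 2 → t = v x₁ * v x₂ := by
    intro t ht
    field_simp at ht
    rw [ht, mul_comm]
  rcases comp_newton_split v hlt with ⟨h1, h3⟩ | ⟨h1, h3⟩
  · left
    rw [hS, hPi] at h3
    exact ⟨h1.trans hS, hother _ h3⟩
  · right
    rw [hS, hPi] at h3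
    exact ⟨h1.trans hS, hother _ h3⟩

/-- regime (b): `v x₁ = v x₂ < 1`, `x₁ ≠ x₂`, `v b ≤ (v x₁)²`. -/
lemma comp2_regime_b (hA : v A = 1) (hb0 : b ≠ 0) (hx : x₁ ≠ x₂)
    (hs : Xp + Xm = comp2N A b x₁ x₂ / (x₁ - x₂) ^ 2)
    (hp : Xp * Xm = (x₁ * x₂ - b) ^ 2 / (x₁ - x₂) ^ 2)
    (h₁ : v x₁ < 1) (h₂ : v x₂ = v x₁) (hβ : v b ≤ v x₁ ^ 2) :
    (1 ≤ v Xp ∧ max (v b) (min (v Xm) 1) = v x₁ ^ 2) ∨
    (1 ≤ v Xm ∧ max (v b) (min (v Xp) 1) = v x₁ ^ 2) := by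
  have hβ0 : v b ≠ 0 := (v.ne_zero_iff).mpr hb0
  have hg0 : v x₁ ≠ 0 := comp_ne_zero_of_le_sq hβ0 hβ
  have hgpos : 0 < v x₁ := zero_lt_iff.mpr hg0
  have hg2 : 0 < v x₁ ^ 2 := zero_lt_iff.mpr (pow_ne_zero 2 hg0)
  have hg21 : v x₁ ^ 2 ≤ 1 := pow_le_one' h₁.le 2
  have hD : x₁ - x₂ ≠ 0 := sub_ne_zero.mpr hx
  have hδ0 : v (x₁ - x₂) ≠ 0 := (v.ne_zero_iff).mpr hD
  have hδ2 : 0 < v (x₁ - x₂) ^ 2 := zero_lt_iff.mpr (pow_ne_zero 2 hδ0)
  have hδg : v (x₁ - x₂) ≤ v x₁ := map_sub_le v le_rfl h₂.le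
  have hδ1 : v (x₁ - x₂) ^ 2 < 1 := pow_lt_one₀ zero_le (lt_of_le_of_lt hδg h₁) two_ne_zero
  have hx12 : v (x₁ * x₂) = v x₁ ^ 2 := by rw [map_mul, h₂, sq]
  have hc : v (x₁ * x₂ - b) ≤ v x₁ ^ 2 := map_sub_le v hx12.le hβ
  have hc' : v b < v x₁ ^ 2 → v (x₁ * x₂ - b) = v x₁ ^ 2 := fun hlt => by
    rw [map_sub_eq_of_lt_left v (by rw [hx12]; exact hlt), hx12]
  have hN : v (comp2N A b x₁ x₂) = v x₁ ^ 2 := by
    unfold comp2N
    rw [map_add_eq_of_lt_right v]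
    · rw [map_mul, hA, one_mul, hx12]
    · rw [map_mul v A, hA, one_mul, hx12, map_mul, map_mul]
      calc v 2 * (v (x₁ * x₂ + b) * v (x₁ + x₂)) ≤ 1 * (v x₁ ^ 2 * v x₁) :=
            mul_le_mul' (comp2_v_two_le v)
              (mul_le_mul' (map_add_le v hx12.le hβ) (map_add_le v le_rfl h₂.le))
        _ = v x₁ ^ 2 * v x₁ := one_mul _
        _ < v x₁ ^ 2 * 1 := mul_lt_mul_of_pos_left h₁ hg2
        _ = v x₁ ^ 2 := mul_one _
  have hS : v (Xp + Xm) = v x₁ ^ 2 / v (x₁ - x₂) ^ 2 := by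
    rw [hs, map_div₀, map_pow, hN]
  have hPi : v (Xp * Xm) = v (x₁ * x₂ - b) ^ 2 / v (x₁ - x₂) ^ 2 := by
    rw [hp, map_div₀, map_pow, map_pow]
  have hS1 : 1 ≤ v (Xp + Xm) := by
    rw [hS, le_div_iff₀ hδ2, one_mul]
    exact pow_le_pow_left' hδg 2
  have hlt : v (Xp * Xm) < v (Xp + Xm) ^ 2 := by
    rw [hPi, hS, div_pow, div_lt_div_iff₀ hδ2 (pow_pos hδ2 2)]
    calc v (x₁ * x₂ - b) ^ 2 * (v (x₁ - x₂) ^ 2) ^ 2
        ≤ (v x₁ ^ 2) ^ 2 * (v (x₁ - x₂) ^ 2) ^ 2 := mul_le_mul' (pow_le_pow_left' hc 2) le_rfl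
      _ = (v x₁ ^ 2) ^ 2 * v (x₁ - x₂) ^ 2 * v (x₁ - x₂) ^ 2 := by rw [sq (v (x₁ - x₂) ^ 2), mul_assoc]
      _ < (v x₁ ^ 2) ^ 2 * v (x₁ - x₂) ^ 2 * 1 :=
          mul_lt_mul_of_pos_left hδ1 (mul_pos (pow_pos hg2 2) hδ2)
      _ = (v x₁ ^ 2) ^ 2 * v (x₁ - x₂) ^ 2 := mul_one _
  have hother : ∀ t : Γ₀, t * v (Xp + Xm) = v (Xp * Xm) →
      max (v b) (min t 1) = v x₁ ^ 2 := by
    intro t ht
    rw [hS, hPi] at ht
    have ht' : t = v (x₁ * x₂ - b) ^ 2 / v x₁ ^ 2 := by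
      field_simp at ht
      field_simp
      rw [ht]
    apply comp_clamp_eq hβ hg21
    · rw [ht', div_le_iff₀ hg2, ← sq]
      exact pow_le_pow_left' hc 2
    · intro hlt
      rw [ht', hc' hlt, sq, mul_div_cancel_right₀ _ (pow_ne_zero 2 hg0)]
  rcases comp_newton_split v hlt with ⟨h1, h3⟩ | ⟨h1, h3⟩
  · left
    exact ⟨h1 ▸ hS1, hother _ h3⟩
  · right
    exact ⟨h1 ▸ hS1, hother _ h3⟩

/-- duplication, `1 ≤ v x`; `D = 4 y²`. -/
lemma comp2_dbl_h {x D : K} (hA : v A = 1) (hb : v b < 1)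
    (hD : D = 4 * x ^ 3 + A * x ^ 2 + 4 * b * x) (hD0 : D ≠ 0) (h₁ : 1 ≤ v x) :
    1 ≤ v ((x ^ 2 - b) ^ 2 / D) := by
  have h4 := comp2_v_four_le v
  have hy2 : 0 < v D := zero_lt_iff.mpr ((v.ne_zero_iff).mpr hD0)
  have hx2 : 1 ≤ v x ^ 2 := one_le_pow_of_one_le' h₁ 2
  have hnum : v (x ^ 2 - b) = v x ^ 2 := by
    rw [map_sub_eq_of_lt_left v (by rw [map_pow]; exact lt_of_lt_of_le hb hx2), map_pow]
  have hden : v D ≤ (v x ^ 2) ^ 2 := by
    have e4 : (v x ^ 2) ^ 2 = v x ^ 4 := by rw [← pow_mul]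
    rw [hD, e4]
    apply map_add_le v (map_add_le v _ _)
    · rw [map_mul, map_mul]
      calc v 4 * v b * v x ≤ 1 * 1 * v x := mul_le_mul' (mul_le_mul' h4 hb.le) le_rfl
        _ = v x ^ 1 := by rw [one_mul, one_mul, pow_one]
        _ ≤ v x ^ 4 := pow_le_pow_right' h₁ (by norm_num)
    · rw [map_mul, map_pow]
      calc v 4 * v x ^ 3 ≤ 1 * v x ^ 3 := mul_le_mul' h4 le_rfl
        _ = v x ^ 3 := one_mul _
        _ ≤ v x ^ 4 := pow_le_pow_right' h₁ (by norm_num)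
    · rw [map_mul, hA, one_mul, map_pow]; exact pow_le_pow_right' h₁ (by norm_num)
  rw [map_div₀, map_pow, hnum, le_div_iff₀ hy2, one_mul]
  exact hden

/-- duplication, `v x < 1`, `v b ≤ (v x)²`; `D = 4 y²`. -/
lemma comp2_dbl_a {x D : K} (hA : v A = 1) (hb0 : b ≠ 0)
    (hD : D = 4 * x ^ 3 + A * x ^ 2 + 4 * b * x) (h₁ : v x < 1) (hβ : v b ≤ v x ^ 2) :
    D ≠ 0 ∧ max (v b) (min (v ((x ^ 2 - b) ^ 2 / D)) 1) = v x ^ 2 := by
  have h4 := comp2_v_four_le v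
  have hβ0 : v b ≠ 0 := (v.ne_zero_iff).mpr hb0
  have hg0 : v x ≠ 0 := comp_ne_zero_of_le_sq hβ0 hβ
  have hgpos : 0 < v x := zero_lt_iff.mpr hg0
  have hg2 : 0 < v x ^ 2 := zero_lt_iff.mpr (pow_ne_zero 2 hg0)
  have hg21 : v x ^ 2 ≤ 1 := pow_le_one' h₁.le 2
  have hcube : v (4 * x ^ 3) < v x ^ 2 := by
    rw [map_mul, map_pow, pow_succ]
    calc v 4 * (v x ^ 2 * v x) ≤ 1 * (v x ^ 2 * v x) := mul_le_mul' h4 le_rfl
      _ = v x ^ 2 * v x := one_mul _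
      _ < v x ^ 2 * 1 := mul_lt_mul_of_pos_left h₁ hg2
      _ = v x ^ 2 := mul_one _
  have hlin : v (4 * b * x) < v x ^ 2 := by
    rw [map_mul, map_mul, sq]
    calc v 4 * v b * v x ≤ 1 * v b * v x := mul_le_mul' (mul_le_mul' h4 le_rfl) le_rfl
      _ = v b * v x := by rw [one_mul]
      _ < v x * v x :=
          mul_lt_mul_of_pos_right (lt_of_le_of_lt hβ (comp_sq_lt_self h₁ hg0)) hgpos
  have hmid : v (A * x ^ 2) = v x ^ 2 := by rw [map_mul, hA, one_mul, map_pow]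
  have hy2 : v D = v x ^ 2 := by
    rw [hD, map_add_eq_of_lt_left v, map_add_eq_of_lt_right v]
    · exact hmid
    · rw [hmid]; exact hcube
    · rw [map_add_eq_of_lt_right v]
      · rw [hmid]; exact hlin
      · rw [hmid]; exact hcube
  have hy : D ≠ 0 := by
    rintro h0
    rw [h0, map_zero] at hy2
    exact hg2.ne hy2
  refine ⟨hy, ?_⟩
  have hc : v (x ^ 2 - b) ≤ v x ^ 2 := map_sub_le v (by rw [map_pow]) hβ
  have hc' : v b < v x ^ 2 → v (x ^ 2 - b) = v x ^ 2 := fun hlt => by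
    rw [map_sub_eq_of_lt_left v (by rw [map_pow]; exact hlt), map_pow]
  have hval : v ((x ^ 2 - b) ^ 2 / D) = v (x ^ 2 - b) ^ 2 / v x ^ 2 := by
    rw [map_div₀, map_pow, hy2]
  rw [hval]
  apply comp_clamp_eq hβ hg21
  · rw [div_le_iff₀ hg2, ← sq]
    exact pow_le_pow_left' hc 2
  · intro hlt
    rw [hc' hlt, sq, mul_div_cancel_right₀ _ (pow_ne_zero 2 hg0)]

end regimes

end abstract

section curve

variable {K : Type*} [Field K] [DecidableEq K] {Γ₀ : Type*} [LinearOrderedCommGroupWithZero Γ₀]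
  (v : Valuation K Γ₀) (W : Affine K)

variable {v W}

lemma IsMultRedTwo.a₄_val_ne (h : IsMultRedTwo v W) : v W.a₄ ≠ 0 := (v.ne_zero_iff).mpr h.a₄_ne

lemma IsMultRedTwo.four_ne (h : IsMultRedTwo v W) : (4 : K) ≠ 0 := by
  intro h0
  have := h.b₂
  rw [h0, zero_mul, map_zero] at this
  exact zero_ne_one this

lemma IsMultRedTwo.two_ne (h : IsMultRedTwo v W) : (2 : K) ≠ 0 := by
  intro h0
  apply h.four_ne
  have : (4 : K) = 2 * 2 := by norm_num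
  rw [this, h0, zero_mul]

lemma IsMultRedTwo.kap_le_one (h : IsMultRedTwo v W) (P : W.Point) : kap v P ≤ 1 := by
  unfold kap
  split_ifs
  · exact le_rfl
  · exact max_le h.a₄_lt.le (min_le_right _ _)

lemma IsMultRedTwo.le_kap (h : IsMultRedTwo v W) (P : W.Point) : v W.a₄ ≤ kap v P := by
  unfold kap
  split_ifs
  · exact h.a₄_lt.le
  · exact le_max_left _ _

lemma IsMultRedTwo.kap_ne_zero (h : IsMultRedTwo v W) (P : W.Point) : kap v P ≠ 0 :=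
  (lt_of_lt_of_le (zero_lt_iff.mpr h.a₄_val_ne) (h.le_kap P)).ne'

/-- description of `kap` in the lower half -/
lemma IsMultRedTwo.lower_facts (h : IsMultRedTwo v W) {x y : K} (hxy : W.Nonsingular x y)
    (hg : v W.a₄ ≤ kap v (Point.some x y hxy) ^ 2) :
    (1 ≤ v x ∧ kap v (Point.some x y hxy) = 1) ∨
      (v x < 1 ∧ kap v (Point.some x y hxy) = v x ∧ v W.a₄ ≤ v x ^ 2) := by
  rw [kap_some] at hg ⊢
  rcases le_or_gt 1 (v x) with h1 | h1
  · left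
    exact ⟨h1, by rw [min_eq_right h1, max_eq_right h.a₄_lt.le]⟩
  · right
    rw [min_eq_left h1.le] at hg ⊢
    rcases le_or_gt (v x) (v W.a₄) with h3 | h3
    · exfalso
      rw [max_eq_left h3] at hg
      exact absurd hg (not_le.mpr (comp_sq_lt_self h.a₄_lt h.a₄_val_ne))
    · rw [max_eq_right h3.le] at hg ⊢
      exact ⟨h1, rfl, hg⟩

/-- the sum law with numerator `comp2N` -/
lemma IsMultRedTwo.sum_law (h : IsMultRedTwo v W) {x₁ y₁ x₂ y₂ : K} (h₁ : W.Nonsingular x₁ y₁)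
    (h₂ : W.Nonsingular x₂ y₂) (hx : x₁ ≠ x₂) :
    xc (Point.some x₁ y₁ h₁ + Point.some x₂ y₂ h₂) +
      xc (Point.some x₁ y₁ h₁ - Point.some x₂ y₂ h₂) =
      comp2N (4 * W.a₂) W.a₄ x₁ x₂ / (x₁ - x₂) ^ 2 := by
  rw [h.leg.xc_add_add_xc_sub h₁ h₂ hx]
  congr 1
  unfold comp2N
  ring

/-- generic pair in the lower half -/
lemma IsMultRedTwo.lower_generic (h : IsMultRedTwo v W) {x₁ y₁ x₂ y₂ : K}
    (h₁ : W.Nonsingular x₁ y₁)
    (h₂ : W.Nonsingular x₂ y₂) (hx : x₁ ≠ x₂)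
    (hg : v W.a₄ ≤ kap v (Point.some x₁ y₁ h₁) ^ 2)
    (hh : v W.a₄ ≤ kap v (Point.some x₂ y₂ h₂) ^ 2)
    (hle : kap v (Point.some x₂ y₂ h₂) ≤ kap v (Point.some x₁ y₁ h₁)) :
    s(kap v (Point.some x₁ y₁ h₁ + Point.some x₂ y₂ h₂),
        kap v (Point.some x₁ y₁ h₁ - Point.some x₂ y₂ h₂)) =
      s(kap v (Point.some x₂ y₂ h₂) / kap v (Point.some x₁ y₁ h₁),
        kap v (Point.some x₁ y₁ h₁) * kap v (Point.some x₂ y₂ h₂)) := by
  have hs := h.sum_law h₁ h₂ hx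
  have hp := h.leg.xc_add_mul_xc_sub h₁ h₂ hx
  rw [kap_of_ne_zero v (add_ne_zero_of_xc_ne h₁ h₂ hx),
    kap_of_ne_zero v (sub_ne_zero_of_xc_ne h₁ h₂ hx)]
  have hβ1 := h.a₄_lt
  rcases h.lower_facts h₁ hg with ⟨hx1, hk1⟩ | ⟨hx1, hk1, hb1⟩ <;>
    rcases h.lower_facts h₂ hh with ⟨hx2, hk2⟩ | ⟨hx2, hk2, hb2⟩
  · -- regime (h)
    obtain ⟨hp1, hm1⟩ := comp2_regime_h v h.b₂ h.a₄_lt hx hs hp hx1 hx2
    rw [hk1, hk2, min_eq_right hp1, min_eq_right hm1, max_eq_right hβ1.le, div_one, one_mul]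
  · -- regime (d)
    obtain ⟨hp1, hm1⟩ := comp2_regime_d v h.b₂ h.a₄_ne hx hs hp hx1 hx2 hb2
    have hβx : v W.a₄ ≤ v x₂ := hb2.trans (pow_le_of_le_one zero_le hx2.le two_ne_zero)
    rw [hk1, hk2, hp1, hm1, div_one, one_mul, comp_clamp_of_mem hβx hx2.le]
  · -- impossible
    rw [hk1, hk2] at hle
    exact absurd hle (not_le.mpr hx1)
  · rw [hk1, hk2] at hle ⊢
    have hg0 : v x₁ ≠ 0 := comp_ne_zero_of_le_sq h.a₄_val_ne hb1
    have hh0 : v x₂ ≠ 0 := comp_ne_zero_of_le_sq h.a₄_val_ne hb2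
    have hgpos : 0 < v x₁ := zero_lt_iff.mpr hg0
    rcases hle.lt_or_eq with hlt | heq
    · -- regime (a)
      have hβx : v W.a₄ ≤ v x₂ := hb2.trans (pow_le_of_le_one zero_le hx2.le two_ne_zero)
      have c1 : max (v W.a₄) (min (v x₂ / v x₁) 1) = v x₂ / v x₁ := by
        apply comp_clamp_of_mem
        · rw [le_div_iff₀ hgpos]
          calc v W.a₄ * v x₁ ≤ v x₂ * 1 := mul_le_mul' hβx hx1.le
            _ = v x₂ := mul_one _
        · exact (div_le_one₀ hgpos).mpr hlt.le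
      have c2 : max (v W.a₄) (min (v x₁ * v x₂) 1) = v x₁ * v x₂ := by
        apply comp_clamp_of_mem
        · calc v W.a₄ ≤ v x₂ ^ 2 := hb2
            _ = v x₂ * v x₂ := sq _
            _ ≤ v x₁ * v x₂ := mul_le_mul' hlt.le le_rfl
        · exact mul_le_one' hx1.le hx2.le
      rcases comp2_regime_a v h.b₂ h.a₄_ne hx hs hp hx1 hlt hb2 with ⟨e1, e2⟩ | ⟨e1, e2⟩
      · rw [e1, e2, c1, c2]
      · rw [e1, e2, c1, c2, Sym2.eq_swap]
    · -- regime (b)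
      rw [heq, div_self hg0, ← sq]
      rcases comp2_regime_b v h.b₂ h.a₄_ne hx hs hp hx1 heq hb1 with ⟨e1, e2⟩ | ⟨e1, e2⟩
      · rw [e2, min_eq_right e1, max_eq_right hβ1.le]
      · rw [e2, min_eq_right e1, max_eq_right hβ1.le, Sym2.eq_swap]

/-- doubling in the lower half -/
lemma IsMultRedTwo.lower_dbl (h : IsMultRedTwo v W) {x y : K} (hxy : W.Nonsingular x y)
    (hg : v W.a₄ ≤ kap v (Point.some x y hxy) ^ 2) :
    kap v (Point.some x y hxy + Point.some x y hxy) = kap v (Point.some x y hxy) ^ 2 := by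
  have heq := h.leg.sq_yc hxy
  have hD : 4 * y ^ 2 = 4 * x ^ 3 + (4 * W.a₂) * x ^ 2 + 4 * W.a₄ * x := by
    rw [heq]; ring
  rcases h.lower_facts hxy hg with ⟨hx1, hk1⟩ | ⟨hx1, hk1, hb1⟩
  · rw [hk1, one_pow]
    by_cases hy : y = 0
    · rw [(h.leg.add_self_eq_zero_iff h.two_ne hxy).mpr hy, kap_zero]
    · have hne : Point.some x y hxy + Point.some x y hxy ≠ 0 := fun h0 =>
        hy ((h.leg.add_self_eq_zero_iff h.two_ne hxy).mp h0)
      rw [kap_of_ne_zero v hne, h.leg.xc_add_self h.two_ne hxy hy]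
      have hD0 : 4 * y ^ 2 ≠ 0 := mul_ne_zero h.four_ne (pow_ne_zero 2 hy)
      have := comp2_dbl_h v h.b₂ h.a₄_lt hD hD0 hx1
      rw [min_eq_right this, max_eq_right h.a₄_lt.le]
  · obtain ⟨hD0, hval⟩ := comp2_dbl_a v h.b₂ h.a₄_ne hD hx1 hb1
    have hy : y ≠ 0 := by
      rintro rfl
      apply hD0
      ring
    have hne : Point.some x y hxy + Point.some x y hxy ≠ 0 := fun h0 =>
      hy ((h.leg.add_self_eq_zero_iff h.two_ne hxy).mp h0)
    rw [kap_of_ne_zero v hne, h.leg.xc_add_self h.two_ne hxy hy, hk1]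
    exact hval

/-- the pair law in the lower half, `kap Q ≤ kap P` -/
lemma IsMultRedTwo.lower_pair (h : IsMultRedTwo v W) (P Q : W.Point)
    (hg : v W.a₄ ≤ kap v P ^ 2) (hh : v W.a₄ ≤ kap v Q ^ 2) (hle : kap v Q ≤ kap v P) :
    s(kap v (P + Q), kap v (P - Q)) = s(kap v Q / kap v P, kap v P * kap v Q) := by
  rcases P with _ | ⟨x₁, y₁, h₁⟩
  · rw [← Point.zero_def, zero_add, zero_sub, kap_neg, kap_zero, div_one, one_mul]
  rcases Q with _ | ⟨x₂, y₂, h₂⟩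
  · rw [← Point.zero_def] at hle ⊢
    rw [kap_zero] at hle
    have hk : kap v (Point.some x₁ y₁ h₁) = 1 := le_antisymm (h.kap_le_one _) hle
    rw [add_zero, sub_zero, kap_zero, hk, div_one, one_mul]
  by_cases hx : x₁ = x₂
  · subst hx
    have hg0 := h.kap_ne_zero (Point.some x₁ y₁ h₁)
    have e₁ := h.leg.sq_yc h₁
    have e₂ := h.leg.sq_yc h₂
    have hyy : y₂ ^ 2 = y₁ ^ 2 := by rw [e₁, e₂]
    rcases sq_eq_sq_iff_eq_or_eq_neg.mp hyy with rfl | rfl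
    · rw [sub_self, kap_zero, h.lower_dbl h₁ hg, div_self hg0, ← sq, Sym2.eq_swap]
    · have hQ : Point.some x₁ (-y₁) h₂ = -Point.some x₁ y₁ h₁ := by
        rw [Point.neg_some]
        congr 1
        rw [h.leg.negY]
      rw [hQ, add_neg_cancel, sub_neg_eq_add, kap_neg, kap_zero, h.lower_dbl h₁ hg,
        div_self hg0, ← sq]
  · exact h.lower_generic h₁ h₂ hx hg hh hle

/-- the `2`-torsion point `(0, 0)` -/
noncomputable def IsMultRedTwo.T (h : IsMultRedTwo v W) : W.Point :=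
  Point.some 0 0 (h.leg.nonsingular_zero_zero h.a₄_ne)

lemma IsMultRedTwo.T_add_T (h : IsMultRedTwo v W) : h.T + h.T = 0 :=
  (h.leg.add_self_eq_zero_iff h.two_ne _).mpr rfl

lemma IsMultRedTwo.kap_T (h : IsMultRedTwo v W) : kap v h.T = v W.a₄ := by
  unfold IsMultRedTwo.T
  rw [kap_some, map_zero, min_eq_left zero_le, max_eq_left zero_le]

/-- translation by `(0,0)` inverts `kap` -/
lemma IsMultRedTwo.kap_add_T (h : IsMultRedTwo v W) (P : W.Point) :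
    kap v (P + h.T) = v W.a₄ / kap v P := by
  rcases P with _ | ⟨x, y, hxy⟩
  · rw [← Point.zero_def, zero_add, h.kap_T, kap_zero, div_one]
  by_cases hx : x = 0
  · subst hx
    have hy : y = 0 := by
      have := h.leg.sq_yc hxy
      simpa using this
    subst hy
    have : Point.some 0 0 hxy = h.T := rfl
    rw [this, h.T_add_T, kap_zero, h.kap_T, div_self h.a₄_val_ne]
  · have h0 := h.leg.nonsingular_zero_zero h.a₄_ne
    have hne : Point.some x y hxy + h.T ≠ 0 := add_ne_zero_of_xc_ne hxy h0 hx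
    have hxc : xc (Point.some x y hxy + h.T) = W.a₄ / x := h.leg.xc_add_zero_zero hxy h0 hx
    rw [kap_of_ne_zero v hne, hxc, kap_some, map_div₀]
    exact comp_clamp_inv h.a₄_val_ne h.a₄_lt.le ((v.ne_zero_iff).mpr hx)

/-- the pair law when both points are in the lower half -/
lemma IsMultRedTwo.pair_LL (h : IsMultRedTwo v W) (P Q : W.Point)
    (hg : v W.a₄ ≤ kap v P ^ 2) (hh : v W.a₄ ≤ kap v Q ^ 2) :
    s(kap v (P + Q), kap v (P - Q)) = compPair (v W.a₄) (kap v P) (kap v Q) := by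
  have hg0 := h.kap_ne_zero P
  have hh0 := h.kap_ne_zero Q
  have hgpos : 0 < kap v P := zero_lt_iff.mpr hg0
  have hhpos : 0 < kap v Q := zero_lt_iff.mpr hh0
  rw [compPair_lower hg0 hh0 hg hh]
  rcases le_total (kap v Q) (kap v P) with hle | hle
  · rw [h.lower_pair P Q hg hh hle, min_eq_right]
    exact ((div_le_one₀ hgpos).mpr hle).trans ((one_le_div₀ hhpos).mpr hle)
  · have := h.lower_pair Q P hh hg hle
    rw [add_comm Q P, ← neg_sub P Q, kap_neg] at this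
    rw [this, min_eq_left, mul_comm]
    exact ((div_le_one₀ hhpos).mpr hle).trans ((one_le_div₀ hgpos).mpr hle)

/-- the pair law is invariant under translation of `P` by `(0,0)` -/
lemma IsMultRedTwo.pair_tau (h : IsMultRedTwo v W) (P Q : W.Point)
    (hc : s(kap v (P + h.T + Q), kap v (P + h.T - Q)) =
      compPair (v W.a₄) (kap v (P + h.T)) (kap v Q)) :
    s(kap v (P + Q), kap v (P - Q)) = compPair (v W.a₄) (kap v P) (kap v Q) := by
  have hβ0 := h.a₄_val_ne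
  have e1 : P + h.T + Q = (P + Q) + h.T := add_right_comm _ _ _
  have e2 : P + h.T - Q = (P - Q) + h.T := by abel
  rw [e1, e2, h.kap_add_T, h.kap_add_T, h.kap_add_T,
    compPair_tau hβ0 (h.kap_ne_zero P) (h.kap_ne_zero Q)] at hc
  have hc' := congrArg (Sym2.map (fun t => v W.a₄ / t)) hc
  rw [← Sym2.map_mk (f := fun t => v W.a₄ / t),
    comp_sym2_invol hβ0 (h.kap_ne_zero _) (h.kap_ne_zero _)] at hc'
  rw [hc']
  unfold compPair
  have hg0 := h.kap_ne_zero P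
  have hh0 := h.kap_ne_zero Q
  apply comp_sym2_invol hβ0
  · rcases le_total (kap v P / kap v Q) (kap v Q / kap v P) with hle | hle
    · rw [min_eq_left hle]; exact div_ne_zero hg0 hh0
    · rw [min_eq_right hle]; exact div_ne_zero hh0 hg0
  · exact (lt_of_lt_of_le (zero_lt_iff.mpr (mul_ne_zero hg0 hh0)) (le_max_left _ _)).ne'

lemma IsMultRedTwo.pair_symm (h : IsMultRedTwo v W) (P Q : W.Point)
    (hc : s(kap v (Q + P), kap v (Q - P)) = compPair (v W.a₄) (kap v Q) (kap v P)) :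
    s(kap v (P + Q), kap v (P - Q)) = compPair (v W.a₄) (kap v P) (kap v Q) := by
  rw [add_comm Q P, ← neg_sub P Q, kap_neg, compPair_comm] at hc
  exact hc

lemma IsMultRedTwo.upper_to_lower (h : IsMultRedTwo v W) (P : W.Point)
    (hg : ¬ v W.a₄ ≤ kap v P ^ 2) : v W.a₄ ≤ kap v (P + h.T) ^ 2 := by
  rw [not_le] at hg
  have hβ0 := h.a₄_val_ne
  have hβpos : 0 < v W.a₄ := zero_lt_iff.mpr hβ0
  have hg2 : 0 < kap v P ^ 2 := zero_lt_iff.mpr (pow_ne_zero 2 (h.kap_ne_zero P))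
  rw [h.kap_add_T, div_pow, le_div_iff₀ hg2, sq (v W.a₄)]
  exact mul_le_mul' le_rfl hg.le

/-- the pair law, `Sym2` form -/
lemma IsMultRedTwo.pair_sym2 (h : IsMultRedTwo v W) (P Q : W.Point) :
    s(kap v (P + Q), kap v (P - Q)) = compPair (v W.a₄) (kap v P) (kap v Q) := by
  have key : ∀ P Q : W.Point, v W.a₄ ≤ kap v Q ^ 2 →
      s(kap v (P + Q), kap v (P - Q)) = compPair (v W.a₄) (kap v P) (kap v Q) := by
    intro P Q hh
    by_cases hg : v W.a₄ ≤ kap v P ^ 2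
    · exact h.pair_LL P Q hg hh
    · exact h.pair_tau P Q (h.pair_LL _ Q (h.upper_to_lower P hg) hh)
  by_cases hh : v W.a₄ ≤ kap v Q ^ 2
  · exact key P Q hh
  · by_cases hg : v W.a₄ ≤ kap v P ^ 2
    · exact h.pair_symm P Q (key Q P hg)
    · exact h.pair_tau P Q (h.pair_symm _ Q (key Q _ (h.upper_to_lower P hg)))

/-- (L2Rkap) the pair law in any residue characteristic -/
theorem kap_pair_two (h : IsMultRedTwo v W) (P Q : W.Point) :
    (kap v (P + Q) = min (kap v P / kap v Q) (kap v Q / kap v P) ∧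
      kap v (P - Q) = max (kap v P * kap v Q) (v W.a₄ ^ 2 / (kap v P * kap v Q))) ∨
    (kap v (P - Q) = min (kap v P / kap v Q) (kap v Q / kap v P) ∧
      kap v (P + Q) = max (kap v P * kap v Q) (v W.a₄ ^ 2 / (kap v P * kap v Q))) := by
  have := h.pair_sym2 P Q
  unfold compPair at this
  rcases Sym2.eq_iff.mp this with ⟨h1, h2⟩ | ⟨h1, h2⟩
  · exact Or.inl ⟨h1, h2⟩
  · exact Or.inr ⟨h2, h1⟩

/-- (L2Rkap) consequence by induction (copy of `S05.kap_pow_of_nsmul_eq_zero_of_pair`) -/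
theorem kap_pow_two (h : IsMultRedTwo v W) {P : W.Point} {n : ℕ} (hP : n • P = 0) :
    ∃ l : ℤ, kap v P ^ n = v W.a₄ ^ (2 * l) := by
  have hpair := kap_pair_two h
  have hβ : v W.a₄ ≠ 0 := h.a₄_val_ne
  have hβ2 : v W.a₄ ^ 2 ≠ 0 := pow_ne_zero 2 hβ
  have hne : ∀ Q : W.Point, kap v Q ≠ 0 := h.kap_ne_zero
  -- the conversion of the four shapes
  have hmin : ∀ x y z : Γ₀, y ≠ 0 → z ≠ 0 → x = min (y / z) (z / y) →
      compLg x = compLg y - compLg z ∨ compLg x = -(compLg y - compLg z) := by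
    intro x y z hy hz hx
    rcases min_choice (y / z) (z / y) with e | e
    · left
      rw [hx, e, compLg_div hy hz]
    · right
      rw [hx, e, compLg_div hz hy, neg_sub]
  have hmax : ∀ x y z : Γ₀, y ≠ 0 → z ≠ 0 → x = max (y * z) (v W.a₄ ^ 2 / (y * z)) →
      compLg x = compLg y + compLg z ∨
        compLg x = compLg (v W.a₄ ^ 2) - (compLg y + compLg z) := by
    intro x y z hy hz hx
    rcases max_choice (y * z) (v W.a₄ ^ 2 / (y * z)) with e | e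
    · left
      rw [hx, e, compLg_mul hy hz]
    · right
      rw [hx, e, compLg_div hβ2 (mul_ne_zero hy hz), compLg_mul hy hz]
  have key := compRel_nsmul (b := compLg (v W.a₄ ^ 2)) (g := compLg (kap v P))
    (fun k => compLg (kap v (k • P)))
    (by simp only [zero_smul, comp_kap_zero, compLg_one])
    (by simp only [one_smul])
    (by
      intro k
      have e1 : (k + 2) • P = (k + 1) • P + P := succ_nsmul P (k + 1)
      have e2 : k • P = (k + 1) • P - P := by rw [succ_nsmul, add_sub_cancel_right]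
      show ((compLg (kap v ((k + 2) • P)) = _ ∨ _) ∧ (compLg (kap v (k • P)) = _ ∨ _)) ∨
        ((compLg (kap v (k • P)) = _ ∨ _) ∧ (compLg (kap v ((k + 2) • P)) = _ ∨ _))
      rw [e1, e2]
      rcases hpair ((k + 1) • P) P with ⟨hA1, hA2⟩ | ⟨hB1, hB2⟩
      · exact Or.inl ⟨hmin _ _ _ (hne _) (hne _) hA1, hmax _ _ _ (hne _) (hne _) hA2⟩
      · exact Or.inr ⟨hmin _ _ _ (hne _) (hne _) hB1, hmax _ _ _ (hne _) (hne _) hB2⟩)
    n
  simp only [hP, comp_kap_zero, compLg_one] at key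
  obtain ⟨l, hl | hl⟩ := key
  · refine ⟨-l, ?_⟩
    apply compLg_injOn (pow_ne_zero n (hne P)) (zpow_ne_zero _ hβ)
    rw [compLg_pow (hne P), zpow_mul, compLg_zpow (zpow_ne_zero _ hβ), zpow_two, ← pow_two,
      neg_smul, eq_neg_iff_add_eq_zero]
    exact hl.symm
  · refine ⟨l, ?_⟩
    apply compLg_injOn (pow_ne_zero n (hne P)) (zpow_ne_zero _ hβ)
    rw [compLg_pow (hne P), zpow_mul, compLg_zpow (zpow_ne_zero _ hβ), zpow_two, ← pow_two]
    have : -(n • compLg (kap v P)) + l • compLg (v W.a₄ ^ 2) = 0 := hl.symm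
    rw [neg_add_eq_zero] at this
    exact this

end curve

end Fermat.Agent.S13
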