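import Mathlib
import Fermat.Prelude.Def_FLTPrelim_FreyPackage
import Fermat.Prelude.Def_FLTPrelim_GaloisRep
import Fermat.Prelude.Def_FLTPrelim_Ramification
import Fermat.Agent.S05.Legendre
import Fermat.Agent.S05.Components
import Fermat.Agent.S05.KerRed
import Fermat.Agent.S05.SameRed
import Fermat.Agent.S05.SameRedCore
import Fermat.Agent.S05.Inertia
import Fermat.Agent.S05.VariableChangeGalois

set_option autoImplicit false

/-!
# S13 (L2Rmain): the Frey curve has no Galois-fixed point of order `p`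

Core file: everything except the component law `kap ^ p = v a₄ ^ (2 l)` at `2`, which enters as a
hypothesis (`rt_no_fixed_torsion`).  All helper names are prefixed `rt`.
-/

namespace Fermat.Agent.S13

open WeierstrassCurve WeierstrassCurve.Affine WeierstrassCurve.Affine.Point Fermat.Agent.S05

/-! ## rational numbers in a valuation subring over `2` -/

section Rat

variable {K : Type*} [Field K] [CharZero K] (A : ValuationSubring K)

omit [CharZero K] in
lemma rt_val_two_lt (hA : A.LiesOverPrime 2) : A.valuation (2 : K) < 1 := by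
  have h : ((2 : ℕ) : K) ∈ A.nonunits := hA
  rw [ValuationSubring.mem_nonunits_iff] at h
  simpa using h

lemma rt_val_two_pos : 0 < A.valuation (2 : K) := by
  rw [zero_lt_iff, ne_eq, map_eq_zero]
  exact two_ne_zero

omit [CharZero K] in
lemma rt_val_int_lt (hA : A.LiesOverPrime 2) {n : ℤ} (hn : (2 : ℤ) ∣ n) :
    A.valuation (n : K) < 1 := by
  have h1 := valuation_intCast_le_one A n
  rcases h1.lt_or_eq with h | h
  · exact h
  · exact absurd hn ((valuation_intCast_eq_one_iff A Nat.prime_two hA n).1 h)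

omit [CharZero K] in
lemma rt_val_int_eq (hA : A.LiesOverPrime 2) {n : ℤ} (hn : ¬ (2 : ℤ) ∣ n) :
    A.valuation (n : K) = 1 :=
  (valuation_intCast_eq_one_iff A Nat.prime_two hA n).2 hn

/-- a rational number which is integral at `2` has an odd denominator -/
lemma rt_exists_odd_den (hA : A.LiesOverPrime 2) (r : ℚ) (hr : A.valuation (r : K) ≤ 1) :
    ∃ n d : ℤ, ¬ (2 : ℤ) ∣ d ∧ (r : K) = (n : K) / (d : K) := by
  refine ⟨r.num, (r.den : ℤ), ?_, ?_⟩
  · intro hd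
    have hnum : ¬ (2 : ℤ) ∣ r.num := by
      intro hn
      have hcop : IsCoprime r.num (r.den : ℤ) := by
        rw [Int.isCoprime_iff_gcd_eq_one]
        exact r.reduced
      exact (Int.prime_two.not_isUnit) (hcop.isUnit_of_dvd' hn hd)
    have h1 : A.valuation ((r.num : ℤ) : K) = 1 := rt_val_int_eq A hA hnum
    have h2 : A.valuation (((r.den : ℤ)) : K) < 1 := rt_val_int_lt A hA hd
    have hden0 : (((r.den : ℤ)) : K) ≠ 0 := by
      have := r.den_ne_zero
      exact_mod_cast this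
    have e : (r : K) * (((r.den : ℤ)) : K) = ((r.num : ℤ) : K) := by
      have := Rat.mul_den_eq_num r
      have h3 : ((r * (r.den : ℚ) : ℚ) : K) = ((r.num : ℚ) : K) := by rw [this]
      push_cast at h3 ⊢
      exact h3
    have h3 : A.valuation (r : K) * A.valuation (((r.den : ℤ)) : K) = 1 := by
      rw [← map_mul, e, h1]
    have hpos : 0 < A.valuation (((r.den : ℤ)) : K) := by
      rw [zero_lt_iff, ne_eq, map_eq_zero]; exact hden0
    have h4 : A.valuation (r : K) * A.valuation (((r.den : ℤ)) : K) < 1 :=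
      calc A.valuation (r : K) * A.valuation (((r.den : ℤ)) : K)
          ≤ 1 * A.valuation (((r.den : ℤ)) : K) := by gcongr
        _ = A.valuation (((r.den : ℤ)) : K) := one_mul _
        _ < 1 := h2
    rw [h3] at h4
    exact lt_irrefl _ h4
  · have hden0 : (((r.den : ℤ)) : K) ≠ 0 := by
      have := r.den_ne_zero
      exact_mod_cast this
    rw [eq_div_iff hden0]
    have := Rat.mul_den_eq_num r
    have h3 : ((r * (r.den : ℚ) : ℚ) : K) = ((r.num : ℚ) : K) := by rw [this]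
    push_cast at h3 ⊢
    exact h3

/-- a `2`-integral rational number is congruent to `0` or to `1` modulo `2` -/
lemma rt_val_lt_or (hA : A.LiesOverPrime 2) (r : ℚ) (hr : A.valuation (r : K) ≤ 1) :
    A.valuation (r : K) < 1 ∨ A.valuation ((r : K) - 1) < 1 := by
  obtain ⟨n, d, hd, e⟩ := rt_exists_odd_den A hA r hr
  have hvd : A.valuation (d : K) = 1 := rt_val_int_eq A hA hd
  have hd0 : (d : K) ≠ 0 := by
    intro h0
    rw [h0, _root_.map_zero] at hvd
    exact zero_ne_one hvd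
  by_cases hn : (2 : ℤ) ∣ n
  · left
    rw [e, map_div₀, hvd, div_one]
    exact rt_val_int_lt A hA hn
  · right
    have e2 : (r : K) - 1 = ((n - d : ℤ) : K) / (d : K) := by
      rw [e]; push_cast; field_simp
    rw [e2, map_div₀, hvd, div_one]
    apply rt_val_int_lt A hA
    omega

/-- the valuation of a rational number in the maximal ideal is a positive power of `v 2` -/
lemma rt_val_eq_pow (hA : A.LiesOverPrime 2) (r : ℚ) (hr0 : r ≠ 0)
    (hr : A.valuation (r : K) < 1) :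
    ∃ m : ℕ, 1 ≤ m ∧ A.valuation (r : K) = A.valuation (2 : K) ^ m := by
  obtain ⟨n, d, hd, e⟩ := rt_exists_odd_den A hA r hr.le
  have hvd : A.valuation (d : K) = 1 := rt_val_int_eq A hA hd
  have hn0 : n ≠ 0 := by
    rintro rfl
    apply hr0
    have : (r : K) = 0 := by rw [e]; simp
    exact_mod_cast this
  obtain ⟨m, n', hn', hnm⟩ : ∃ (m : ℕ) (n' : ℤ), ¬ (2 : ℤ) ∣ n' ∧ n = 2 ^ m * n' := by
    have hfin : FiniteMultiplicity (2 : ℤ) n :=
      Int.finiteMultiplicity_iff.2 ⟨by norm_num, hn0⟩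
    obtain ⟨c, hc1, hc2⟩ := hfin.exists_eq_pow_mul_and_not_dvd
    exact ⟨_, c, hc2, hc1⟩
  have hv : A.valuation (r : K) = A.valuation (2 : K) ^ m := by
    rw [e, map_div₀, hvd, div_one, hnm]
    push_cast
    rw [map_mul, map_pow, rt_val_int_eq A hA hn', mul_one]
  refine ⟨m, ?_, hv⟩
  rcases Nat.eq_zero_or_pos m with h0 | h0
  · rw [h0, pow_zero] at hv
    rw [hv] at hr
    exact absurd hr (lt_irrefl _)
  · exact h0

end Rat

/-- comparing exponents of an element `0 < γ < 1` of the value group -/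
lemma rt_exp_eq {Γ₀ : Type*} [LinearOrderedCommGroupWithZero Γ₀] {γ : Γ₀} (h0 : 0 < γ)
    (h1 : γ < 1) {m p n' : ℕ} {l : ℤ} (h : (γ ^ m) ^ p = (γ ^ n') ^ (2 * l)) :
    (m : ℤ) * p = n' * (2 * l) := by
  have h2 : γ ^ ((m : ℤ) * p) = γ ^ ((n' : ℤ) * (2 * l)) := by
    rw [zpow_mul, zpow_mul, zpow_natCast, zpow_natCast, zpow_natCast]
    exact h
  exact (zpow_right_strictAnti₀ h0 h1).injective h2

/-! ## integer facts about the Frey package -/

section Integers

lemma rt_two_dvd_b (P : FreyPackage) : (2 : ℤ) ∣ P.b :=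
  (ZMod.intCast_zmod_eq_zero_iff_dvd P.b 2).1 P.hb2

lemma rt_not_two_dvd_a (P : FreyPackage) : ¬ (2 : ℤ) ∣ P.a := by
  rintro ⟨m, hm⟩
  have h := P.ha4
  rw [hm] at h
  have h2 : ((2 * m : ℤ) : ZMod 4) * 2 = 0 := by
    push_cast
    have : (2 : ZMod 4) * (m : ZMod 4) * 2 = 4 * (m : ZMod 4) := by ring
    rw [this]
    have h4 : (4 : ZMod 4) = 0 := by decide
    rw [h4, zero_mul]
  rw [h] at h2
  exact absurd h2 (by decide)

lemma rt_32_dvd (P : FreyPackage) : (32 : ℤ) ∣ P.b ^ P.p := by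
  obtain ⟨k, hk⟩ := rt_two_dvd_b P
  obtain ⟨m, hm⟩ : ∃ m, P.p = 5 + m := ⟨P.p - 5, by have := P.hp5; omega⟩
  rw [hk, hm, pow_add]
  exact ⟨k ^ 5 * (2 * k) ^ m, by ring⟩

lemma rt_apow_mod (P : FreyPackage) : ((P.a ^ P.p : ℤ) : ZMod 4) = 3 := by
  push_cast
  rw [P.ha4]
  obtain ⟨k, hk⟩ := P.hp_odd
  rw [hk, pow_succ, pow_mul]
  have : (3 : ZMod 4) ^ 2 = 1 := by decide
  rw [this, one_pow, one_mul]

lemma rt_four_dvd (P : FreyPackage) : (4 : ℤ) ∣ P.b ^ P.p - 1 - P.a ^ P.p := by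
  have h1 : ((P.b ^ P.p : ℤ) : ZMod 4) = 0 := by
    rw [ZMod.intCast_zmod_eq_zero_iff_dvd]
    exact dvd_trans (by norm_num) (rt_32_dvd P)
  have h2 := rt_apow_mod P
  have key : ((P.b ^ P.p - 1 - P.a ^ P.p : ℤ) : ZMod 4) = 0 := by
    rw [Int.cast_sub, Int.cast_sub, h1, h2]
    decide
  have := (ZMod.intCast_zmod_eq_zero_iff_dvd _ 4).1 key
  exact_mod_cast this

lemma rt_not_two_dvd_apow (P : FreyPackage) : ¬ (2 : ℤ) ∣ P.a ^ P.p := fun h =>
  rt_not_two_dvd_a P (Int.prime_two.dvd_of_dvd_pow h)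

/-- `b = 2 ^ k * b'` with `b'` odd and `k ≥ 1` -/
lemma rt_b_eq (P : FreyPackage) :
    ∃ (k : ℕ) (b' : ℤ), 1 ≤ k ∧ ¬ (2 : ℤ) ∣ b' ∧ P.b = 2 ^ k * b' := by
  have hfin : FiniteMultiplicity (2 : ℤ) P.b :=
    Int.finiteMultiplicity_iff.2 ⟨by norm_num, P.hb0⟩
  obtain ⟨c, hc1, hc2⟩ := hfin.exists_eq_pow_mul_and_not_dvd
  refine ⟨_, c, ?_, hc2, hc1⟩
  rcases Nat.eq_zero_or_pos (multiplicity (2 : ℤ) P.b) with h0 | h0
  · exfalso
    rw [h0, pow_zero, one_mul] at hc1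
    exact hc2 (hc1 ▸ rt_two_dvd_b P)
  · exact h0

/-- the arithmetic heart: `p m' = 2 l n'` with `n' ≡ -4 mod p` and `1 ≤ m' ≤ n'` is impossible -/
lemma rt_arith {p k n' m' : ℕ} {l : ℤ} (hp : p.Prime) (hp5 : 5 ≤ p) (hn' : n' + 4 = p * k)
    (hm1 : 1 ≤ m') (hm2 : m' ≤ n') (h : (m' : ℤ) * p = n' * (2 * l)) : False := by
  have hpint : Prime (p : ℤ) := Nat.prime_iff_prime_int.mp hp
  have h1 : (p : ℤ) ∣ (n' : ℤ) * (2 * l) := ⟨m', by linarith⟩
  rcases hpint.dvd_or_dvd h1 with h2 | h2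
  · have h3 : p ∣ n' := by exact_mod_cast h2
    have h4 : p ∣ 4 := by
      have : p ∣ n' + 4 := ⟨k, hn'⟩
      exact (Nat.dvd_add_right h3).1 this
    have := Nat.le_of_dvd (by norm_num) h4
    omega
  · rcases hpint.dvd_or_dvd h2 with h3 | h3
    · have h4 : p ∣ 2 := by exact_mod_cast h3
      have := Nat.le_of_dvd (by norm_num) h4
      omega
    · obtain ⟨l', rfl⟩ := h3
      have hp0 : (p : ℤ) ≠ 0 := by exact_mod_cast hp.ne_zero
      have h5 : (m' : ℤ) = n' * (2 * l') := by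
        have : (p : ℤ) * (m' : ℤ) = p * (n' * (2 * l')) := by linarith
        exact mul_left_cancel₀ hp0 this
      have hm1' : (1 : ℤ) ≤ m' := by exact_mod_cast hm1
      have hm2' : (m' : ℤ) ≤ n' := by exact_mod_cast hm2
      rcases le_or_gt l' 0 with hl | hl
      · have : (n' : ℤ) * (2 * l') ≤ 0 :=
          mul_nonpos_of_nonneg_of_nonpos (by positivity) (by linarith)
        linarith
      · have : (n' : ℤ) * 2 ≤ n' * (2 * l') := by
          have hn0 : (0 : ℤ) ≤ n' := by positivity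
          nlinarith
        linarith

end Integers

/-! ## the two models of the Frey curve at `2` -/

section Models

local notation "Qb" => AlgebraicClosure ℚ

local instance rt_isAlgebraic : Algebra.IsAlgebraic ℚ (AlgebraicClosure ℚ) :=
  AlgebraicClosure.isAlgebraic ℚ
local instance rt_isAlgClosure : IsAlgClosure ℚ (AlgebraicClosure ℚ) :=
  ⟨inferInstance, inferInstance⟩
local instance rt_isGalois : IsGalois ℚ (AlgebraicClosure ℚ) := inferInstance

/-- the change of variables `(X, Y) ↦ (X, Y - X / 2)` from `Y² = X³ + ((B - A)/4) X² - (AB/16) X`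
to the Frey curve -/
def rtChange : VariableChange ℚ := ⟨1, 0, -1 / 2, 0⟩

/-- the model `Y² = X³ + ((B - A)/4) X² - (AB/16) X` of the Frey curve (`A = a ^ p`, `B = b ^ p`) -/
def rtCurve (P : FreyPackage) : WeierstrassCurve ℚ :=
  ⟨0, ((P.b : ℚ) ^ P.p - (P.a : ℚ) ^ P.p) / 4, 0, -((P.a : ℚ) ^ P.p) * ((P.b : ℚ) ^ P.p) / 16, 0⟩

lemma rtCurve_eq_smul (P : FreyPackage) : rtCurve P = rtChange • P.freyCurve := by
  rw [variableChange_def]
  simp only [rtCurve, rtChange, FreyPackage.freyCurve, Units.val_one, inv_one]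
  ext <;> simp <;> ring

lemma rtCurve_isLeg (P : FreyPackage) : IsLeg (rtCurve P) := ⟨rfl, rfl, rfl⟩

lemma rtCurve_isLeg_bc (P : FreyPackage) : IsLeg ((rtCurve P)⁄Qb) :=
  (rtCurve_isLeg P).map (algebraMap ℚ Qb)

/-- `4 a₂ = B - A` on the model `rtCurve` -/
lemma rtCurve_four_a₂ (P : FreyPackage) :
    4 * ((rtCurve P)⁄Qb).a₂ = ((P.b ^ P.p - P.a ^ P.p : ℤ) : Qb) := by
  show 4 * algebraMap ℚ Qb (rtCurve P).a₂ = _
  have : (rtCurve P).a₂ = ((P.b ^ P.p - P.a ^ P.p : ℤ) : ℚ) / 4 := by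
    simp [rtCurve]
  rw [this, map_div₀, map_intCast, map_ofNat]
  field_simp

/-- `16 a₄ = - A B` -/
lemma rtCurve_sixteen_a₄ (P : FreyPackage) :
    16 * ((rtCurve P)⁄Qb).a₄ = ((-(P.a ^ P.p) * P.b ^ P.p : ℤ) : Qb) := by
  show 16 * algebraMap ℚ Qb (rtCurve P).a₄ = _
  have : (rtCurve P).a₄ = ((-(P.a ^ P.p) * P.b ^ P.p : ℤ) : ℚ) / 16 := by
    simp [rtCurve]
  rw [this, map_div₀, map_intCast, map_ofNat]
  field_simp

lemma rtCurve_a₄_ne (P : FreyPackage) : ((rtCurve P)⁄Qb).a₄ ≠ 0 := by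
  intro h
  have h1 := rtCurve_sixteen_a₄ P
  rw [h, mul_zero] at h1
  have h2 : (-(P.a ^ P.p) * P.b ^ P.p : ℤ) = 0 := by exact_mod_cast h1.symm
  have h3 : P.a ^ P.p ≠ 0 := pow_ne_zero _ P.ha0
  have h4 : P.b ^ P.p ≠ 0 := pow_ne_zero _ P.hb0
  exact mul_ne_zero (neg_ne_zero.mpr h3) h4 h2

variable (A : ValuationSubring Qb)

lemma rt_val_pow_two (n : ℕ) : A.valuation ((2 : Qb) ^ n) = A.valuation (2 : Qb) ^ n :=
  map_pow _ _ _

/-- `4 a₂` is a unit at `2` -/
lemma rtCurve_val_four_a₂ (P : FreyPackage) (hA : A.LiesOverPrime 2) :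
    A.valuation (4 * ((rtCurve P)⁄Qb).a₂) = 1 := by
  rw [rtCurve_four_a₂]
  apply rt_val_int_eq A hA
  intro h
  have h1 : (2 : ℤ) ∣ P.b ^ P.p := dvd_trans (by norm_num) (rt_32_dvd P)
  exact rt_not_two_dvd_apow P ((dvd_sub_right h1).1 h)

/-- `v a₄ = v 2 ^ n'` with `n' + 4 = p k`, `k = v₂(b) ≥ 1` -/
lemma rtCurve_val_a₄ (P : FreyPackage) (hA : A.LiesOverPrime 2) :
    ∃ k n' : ℕ, 1 ≤ k ∧ n' + 4 = P.p * k ∧
      A.valuation ((rtCurve P)⁄Qb).a₄ = A.valuation (2 : Qb) ^ n' := by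
  obtain ⟨k, b', hk, hb', hb⟩ := rt_b_eq P
  have hpk : 5 ≤ P.p * k := by
    calc 5 ≤ P.p := P.hp5
      _ = P.p * 1 := (mul_one _).symm
      _ ≤ P.p * k := Nat.mul_le_mul_left _ hk
  refine ⟨k, P.p * k - 4, hk, by omega, ?_⟩
  have h16 := rtCurve_sixteen_a₄ P
  have hodd : ¬ (2 : ℤ) ∣ -(P.a ^ P.p) * b' ^ P.p := by
    intro h
    rcases Int.prime_two.dvd_or_dvd h with h1 | h1
    · exact rt_not_two_dvd_apow P ((dvd_neg).1 h1)
    · exact hb' (Int.prime_two.dvd_of_dvd_pow h1)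
  have e : (-(P.a ^ P.p) * P.b ^ P.p : ℤ) = 2 ^ (P.p * k) * (-(P.a ^ P.p) * b' ^ P.p) := by
    rw [hb, mul_pow, ← pow_mul, mul_comm k P.p]
    ring
  rw [e] at h16
  have hv := congrArg A.valuation h16
  push_cast at hv
  rw [map_mul, map_mul] at hv
  have h1 : A.valuation ((-(P.a : Qb) ^ P.p) * (b' : Qb) ^ P.p) = 1 := by
    have := rt_val_int_eq A hA hodd
    push_cast at this
    exact this
  rw [h1, mul_one, map_pow] at hv
  have h2 : A.valuation (16 : Qb) = A.valuation (2 : Qb) ^ 4 := by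
    rw [← map_pow]; norm_num
  rw [h2] at hv
  have h3 : P.p * k = 4 + (P.p * k - 4) := by omega
  rw [h3, pow_add] at hv
  have hpos : A.valuation (2 : Qb) ^ 4 ≠ 0 := pow_ne_zero _ (rt_val_two_pos A).ne'
  exact mul_left_cancel₀ hpos hv

lemma rtCurve_val_a₄_lt (P : FreyPackage) (hA : A.LiesOverPrime 2) :
    A.valuation ((rtCurve P)⁄Qb).a₄ < 1 := by
  obtain ⟨k, n', hk, hn', hv⟩ := rtCurve_val_a₄ A P hA
  rw [hv]
  have hn1 : n' ≠ 0 := by
    have := P.hp5
    have : 5 ≤ P.p * k := by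
      calc 5 ≤ P.p := P.hp5
        _ = P.p * 1 := (mul_one _).symm
        _ ≤ P.p * k := Nat.mul_le_mul_left _ hk
    omega
  exact pow_lt_one₀ (rt_val_two_pos A).le (rt_val_two_lt A hA) hn1

/-- the Frey model is integral (at every valuation subring) -/
lemma rt_frey_isIntegralAt (P : FreyPackage) : IsIntegralAt A (P.freyCurve⁄Qb) := by
  refine ⟨?_, ?_, ?_, ?_, ?_⟩
  · show algebraMap ℚ Qb P.freyCurve.a₁ ∈ A
    simp only [FreyPackage.freyCurve, map_one]
    exact A.one_mem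
  · show algebraMap ℚ Qb P.freyCurve.a₂ ∈ A
    obtain ⟨m, hm⟩ := rt_four_dvd P
    have h : P.freyCurve.a₂ = (m : ℚ) := by
      have h4 : ((P.b : ℚ) ^ P.p - 1 - (P.a : ℚ) ^ P.p) = 4 * (m : ℚ) := by exact_mod_cast hm
      simp only [FreyPackage.freyCurve]
      rw [h4]; ring
    rw [h, map_intCast]
    exact intCast_mem A m
  · show algebraMap ℚ Qb P.freyCurve.a₃ ∈ A
    simp only [FreyPackage.freyCurve, _root_.map_zero]
    exact A.zero_mem
  · show algebraMap ℚ Qb P.freyCurve.a₄ ∈ A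
    obtain ⟨m, hm⟩ := rt_32_dvd P
    have h : P.freyCurve.a₄ = ((-(P.a ^ P.p) * (2 * m) : ℤ) : ℚ) := by
      have h4 : ((P.b : ℚ) ^ P.p) = 32 * (m : ℚ) := by exact_mod_cast hm
      simp only [FreyPackage.freyCurve]
      rw [h4]; push_cast; ring
    rw [h, map_intCast]
    exact intCast_mem A _
  · show algebraMap ℚ Qb P.freyCurve.a₆ ∈ A
    simp only [FreyPackage.freyCurve, _root_.map_zero]
    exact A.zero_mem

lemma rt_val_p (P : FreyPackage) (hA : A.LiesOverPrime 2) : A.valuation (P.p : Qb) = 1 := by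
  have h : ¬ (2 : ℤ) ∣ (P.p : ℤ) := by
    intro h
    have h2 : 2 ∣ P.p := by exact_mod_cast h
    have := (Nat.prime_dvd_prime_iff_eq Nat.prime_two P.pp).1 h2
    have := P.hp5
    omega
  have := rt_val_int_eq A hA h
  exact_mod_cast this

/-- a nonzero `p`-torsion point of the Frey model has integral `x`-coordinate at `2` -/
lemma rt_frey_x_mem (P : FreyPackage) (hA : A.LiesOverPrime 2) {x y : Qb}
    (h : (P.freyCurve⁄Qb).Nonsingular x y) (hp : P.p • Point.some x y h = 0) : x ∈ A := by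
  by_contra hx
  have hp0 : ((P.p : ℕ) : Qb) ≠ 0 := by
    have := P.hp0
    exact_mod_cast this
  have hinv : (((P.p : ℕ) : Qb))⁻¹ ∈ A := by
    rw [← A.valuation_le_one_iff, map_inv₀, rt_val_p A P hA, inv_one]
  have := kerRed_torsion_free (A := A) (rt_frey_isIntegralAt A P) hp0 hinv
    (P := Point.some x y h) (by simpa using hx) hp
  exact Point.some_ne_zero h this

/-- **component argument**: a nonzero `p`-torsion point with rational `x`-coordinate of the
model `rtCurve` does not reduce to the node -/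
lemma rt_one_le_val_xc (P : FreyPackage) (hA : A.LiesOverPrime 2)
    (hkap : ∀ Q : ((rtCurve P)⁄Qb).Point, P.p • Q = 0 →
      ∃ l : ℤ, kap A.valuation Q ^ P.p = A.valuation ((rtCurve P)⁄Qb).a₄ ^ (2 * l))
    {Q : ((rtCurve P)⁄Qb).Point} (hQ0 : Q ≠ 0) (hQ : P.p • Q = 0) {r : ℚ}
    (hr : xc Q = (r : Qb)) : 1 ≤ A.valuation (xc Q) := by
  by_contra hlt
  rw [not_le] at hlt
  obtain ⟨k, n', hk, hn', hβ⟩ := rtCurve_val_a₄ A P hA
  obtain ⟨l, hl⟩ := hkap Q hQ
  have h20 := rt_val_two_pos A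
  have h21 := rt_val_two_lt A hA
  have hn1 : 1 ≤ n' := by
    have : 5 ≤ P.p * k := by
      calc 5 ≤ P.p := P.hp5
        _ = P.p * 1 := (mul_one _).symm
        _ ≤ P.p * k := Nat.mul_le_mul_left _ hk
    omega
  rw [kap_of_ne_zero _ hQ0, min_eq_left hlt.le, hβ] at hl
  rcases le_or_gt (A.valuation (xc Q)) (A.valuation (2 : Qb) ^ n') with hle | hgt
  · rw [max_eq_left hle] at hl
    exact rt_arith P.pp P.hp5 hn' hn1 le_rfl (rt_exp_eq h20 h21 hl)
  · rw [max_eq_right hgt.le] at hl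
    have hr0 : r ≠ 0 := by
      rintro rfl
      rw [hr] at hgt
      simp only [Rat.cast_zero, _root_.map_zero] at hgt
      exact absurd hgt (not_lt.mpr zero_le)
    rw [hr] at hlt hgt hl
    obtain ⟨m, hm1, hm⟩ := rt_val_eq_pow A hA r hr0 hlt
    rw [hm] at hgt hl
    have hmn : m < n' := (pow_lt_pow_iff_right_of_lt_one₀ h20 h21).1 hgt
    exact rt_arith P.pp P.hp5 hn' hm1 hmn.le (rt_exp_eq h20 h21 hl)

/-- the coordinates of a Galois-fixed point are rational -/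
lemma rt_rational_of_fixed (W' : Affine ℚ) {x y : Qb} (h : (W'⁄Qb).Nonsingular x y)
    (hfix : ∀ σ : Qb ≃ₐ[ℚ] Qb, σ • Point.some x y h = Point.some x y h) :
    ∃ x₀ y₀ : ℚ, x = (x₀ : Qb) ∧ y = (y₀ : Qb) := by
  have hxy : ∀ σ : Qb ≃ₐ[ℚ] Qb, σ x = x ∧ σ y = y := by
    intro σ
    have := hfix σ
    rw [algEquiv_smul_def, Point.map_some, Point.some.injEq] at this
    exact this
  obtain ⟨x₀, hx₀⟩ := (InfiniteGalois.mem_range_algebraMap_iff_fixed (k := ℚ) (K := Qb) x).mpr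
    (fun σ => (hxy σ).1)
  obtain ⟨y₀, hy₀⟩ := (InfiniteGalois.mem_range_algebraMap_iff_fixed (k := ℚ) (K := Qb) y).mpr
    (fun σ => (hxy σ).2)
  refine ⟨x₀, y₀, ?_, ?_⟩
  · rw [← hx₀, eq_ratCast]
  · rw [← hy₀, eq_ratCast]

/-- the isomorphism from the model `rtCurve` to the Frey model preserves `x`-coordinates -/
lemma rt_xc_symm (P : FreyPackage) {x y : Qb} (h : (P.freyCurve⁄Qb).Nonsingular x y) :
    xc ((vcPointBC rtChange (rtCurve_eq_smul P) Qb).symm (Point.some x y h)) = x := by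
  set e := vcPointBC rtChange (rtCurve_eq_smul P) Qb with he
  have h1 : e (e.symm (Point.some x y h)) = Point.some x y h := e.apply_symm_apply _
  rcases hQ' : e.symm (Point.some x y h) with _ | ⟨X, Y, h'⟩
  · rw [hQ'] at h1
    have : e (0 : ((rtCurve P)⁄Qb).Point) = 0 := _root_.map_zero e
    rw [show (Point.zero : ((rtCurve P)⁄Qb).Point) = 0 from rfl, this] at h1
    exact absurd h1.symm (Point.some_ne_zero h)
  · rw [hQ'] at h1
    rw [he, vcPointBC, vcPoint_some, Point.some.injEq] at h1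
    rw [xc_some, ← h1.1]
    simp [vcX, rtChange, VariableChange.baseChange, VariableChange.map]

/-- **the facts about a Galois-fixed point of order `p`**: rational coordinates, `x` a unit at
`2`, `y` integral at `2` -/
lemma rt_fixed_point_facts (P : FreyPackage) (hA : A.LiesOverPrime 2)
    (hkap : ∀ Q : ((rtCurve P)⁄Qb).Point, P.p • Q = 0 →
      ∃ l : ℤ, kap A.valuation Q ^ P.p = A.valuation ((rtCurve P)⁄Qb).a₄ ^ (2 * l))
    {Q : (P.freyCurve⁄Qb).Point} (hQ0 : Q ≠ 0) (hQ : P.p • Q = 0)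
    (hfix : ∀ σ : Qb ≃ₐ[ℚ] Qb, σ • Q = Q) :
    ∃ (x₀ y₀ : ℚ) (h : (P.freyCurve⁄Qb).Nonsingular (x₀ : Qb) (y₀ : Qb)),
      Q = Point.some _ _ h ∧ A.valuation (x₀ : Qb) = 1 ∧ (y₀ : Qb) ∈ A := by
  rcases Q with _ | ⟨x, y, h⟩
  · exact absurd rfl hQ0
  obtain ⟨x₀, y₀, rfl, rfl⟩ := rt_rational_of_fixed P.freyCurve h hfix
  refine ⟨x₀, y₀, h, rfl, ?_, ?_⟩
  · set e := vcPointBC rtChange (rtCurve_eq_smul P) Qb with he
    have hxc := rt_xc_symm P h
    rw [← he] at hxc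
    have hQ'0 : e.symm (Point.some _ _ h) ≠ 0 := by
      intro h0
      have := congrArg e h0
      rw [e.apply_symm_apply, _root_.map_zero] at this
      exact Point.some_ne_zero h this
    have hQ' : P.p • e.symm (Point.some _ _ h) = 0 := by
      rw [← map_nsmul, hQ, _root_.map_zero]
    have h1 := rt_one_le_val_xc A P hA hkap hQ'0 hQ' hxc
    rw [hxc] at h1
    have h2 : A.valuation (x₀ : Qb) ≤ 1 :=
      (A.valuation_le_one_iff _).mpr (rt_frey_x_mem A P hA h hQ)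
    exact le_antisymm h2 h1
  · have hW := rt_frey_isIntegralAt A P
    exact samered_y_mem_of_x_mem A (P.freyCurve⁄Qb) hW.1 hW.2.1 hW.2.2.1 hW.2.2.2.1 hW.2.2.2.2
      h.1 (rt_frey_x_mem A P hA h hQ)

/-- the class modulo `2` of the `y`-coordinate -/
def rtCls {W : Affine Qb} : W.Point → Prop
  | .zero => True
  | .some _ y _ => A.valuation y < 1

lemma rt_nsmul_ne_zero {G : Type*} [AddGroup G] {Q : G} {p : ℕ} (hp : p.Prime)
    (hQ : p • Q = 0) (hQ0 : Q ≠ 0) {j : ℕ} (hj0 : 0 < j) (hjp : j < p) : j • Q ≠ 0 := by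
  intro hj
  have h1 : addOrderOf Q ∣ p := addOrderOf_dvd_of_nsmul_eq_zero hQ
  have h2 : addOrderOf Q ≠ 1 := by
    rw [ne_eq, AddMonoid.addOrderOf_eq_one_iff]
    exact hQ0
  have h3 : addOrderOf Q = p := ((Nat.dvd_prime hp).1 h1).resolve_left h2
  have h4 : p ∣ j := h3 ▸ addOrderOf_dvd_of_nsmul_eq_zero hj
  exact absurd (Nat.le_of_dvd hj0 h4) (not_le.mpr hjp)

/-- two multiples of a fixed point of order `p` cannot have the same reduction modulo `2` -/
lemma rt_pair (P : FreyPackage) (hA : A.LiesOverPrime 2)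
    (hkap : ∀ Q : ((rtCurve P)⁄Qb).Point, P.p • Q = 0 →
      ∃ l : ℤ, kap A.valuation Q ^ P.p = A.valuation ((rtCurve P)⁄Qb).a₄ ^ (2 * l))
    {Q : (P.freyCurve⁄Qb).Point} (hQ0 : Q ≠ 0) (hQ : P.p • Q = 0)
    (hfix : ∀ σ : Qb ≃ₐ[ℚ] Qb, σ • Q = Q) {i j : ℕ} (hj : 0 < j) (hij : j < i) (hip : i < P.p)
    (hcls : rtCls A (i • Q) ↔ rtCls A (j • Q)) : False := by
  have hfixn : ∀ (n : ℕ) (σ : Qb ≃ₐ[ℚ] Qb), σ • (n • Q) = n • Q := by
    intro n σ
    rw [algEquiv_smul_def, map_nsmul, ← algEquiv_smul_def, hfix σ]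
  have htors : ∀ n : ℕ, P.p • (n • Q) = 0 := by
    intro n
    rw [smul_comm, hQ, nsmul_zero]
  obtain ⟨x₁, y₁, h₁, e₁, hx₁, hy₁⟩ := rt_fixed_point_facts A P hA hkap
    (rt_nsmul_ne_zero P.pp hQ hQ0 (hj.trans hij) hip) (htors i) (hfixn i)
  obtain ⟨x₂, y₂, h₂, e₂, hx₂, hy₂⟩ := rt_fixed_point_facts A P hA hkap
    (rt_nsmul_ne_zero P.pp hQ hQ0 hj (hij.trans hip)) (htors j) (hfixn j)
  rw [e₁, e₂] at hcls
  simp only [rtCls] at hcls
  -- the difference of the two points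
  have hD : i • Q - j • Q = (i - j) • Q := by
    rw [sub_nsmul Q hij.le, sub_eq_add_neg]
  have hD0 : i • Q - j • Q ≠ 0 := by
    rw [hD]
    exact rt_nsmul_ne_zero P.pp hQ hQ0 (by omega) (by omega)
  have hDt : P.p • (i • Q - j • Q) = 0 := by
    rw [hD]; exact htors _
  -- congruences modulo `2`
  have hxA₁ : (x₁ : Qb) ∈ A := (A.valuation_le_one_iff _).mp hx₁.le
  have hxA₂ : (x₂ : Qb) ∈ A := (A.valuation_le_one_iff _).mp hx₂.le
  have hx1 : ∀ r : ℚ, A.valuation (r : Qb) = 1 → A.valuation ((r : Qb) - 1) < 1 := by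
    intro r hr
    rcases rt_val_lt_or A hA r hr.le with h | h
    · rw [hr] at h; exact absurd h (lt_irrefl _)
    · exact h
  have hxx : (x₁ : Qb) - (x₂ : Qb) ∈ A.nonunits := by
    rw [ValuationSubring.mem_nonunits_iff]
    have e : (x₁ : Qb) - (x₂ : Qb) = ((x₁ : Qb) - 1) - ((x₂ : Qb) - 1) := by ring
    rw [e]
    exact lt_of_le_of_lt (Valuation.map_sub _ _ _) (max_lt (hx1 x₁ hx₁) (hx1 x₂ hx₂))
  have hyy : (y₁ : Qb) - (y₂ : Qb) ∈ A.nonunits := by
    rw [ValuationSubring.mem_nonunits_iff]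
    by_cases hc : A.valuation (y₁ : Qb) < 1
    · exact lt_of_le_of_lt (Valuation.map_sub _ _ _) (max_lt hc (hcls.1 hc))
    · have hc' : ¬ A.valuation (y₂ : Qb) < 1 := fun h => hc (hcls.2 h)
      have k₁ := (rt_val_lt_or A hA y₁ ((A.valuation_le_one_iff _).mpr hy₁)).resolve_left hc
      have k₂ := (rt_val_lt_or A hA y₂ ((A.valuation_le_one_iff _).mpr hy₂)).resolve_left hc'
      have e : (y₁ : Qb) - (y₂ : Qb) = ((y₁ : Qb) - 1) - ((y₂ : Qb) - 1) := by ring
      rw [e]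
      exact lt_of_le_of_lt (Valuation.map_sub _ _ _) (max_lt k₁ k₂)
  have hW := rt_frey_isIntegralAt A P
  have ha₁ : (P.freyCurve⁄Qb).a₁ = 1 := by
    show algebraMap ℚ Qb P.freyCurve.a₁ = 1
    simp [FreyPackage.freyCurve]
  have ha₃ : (P.freyCurve⁄Qb).a₃ = 0 := by
    show algebraMap ℚ Qb P.freyCurve.a₃ = 0
    simp [FreyPackage.freyCurve]
  have hns : ¬ ((P.freyCurve⁄Qb).polynomialX.evalEval (x₁ : Qb) (y₁ : Qb) ∈ A.nonunits ∧
      (P.freyCurve⁄Qb).polynomialY.evalEval (x₁ : Qb) (y₁ : Qb) ∈ A.nonunits) := by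
    rintro ⟨-, hY⟩
    rw [evalEval_polynomialY, ha₁, ha₃, one_mul, add_zero,
      ValuationSubring.mem_nonunits_iff] at hY
    have h2y : A.valuation (2 * (y₁ : Qb)) < 1 := by
      rw [map_mul]
      calc A.valuation (2 : Qb) * A.valuation (y₁ : Qb) ≤ A.valuation (2 : Qb) * 1 := by
            gcongr
            exact (A.valuation_le_one_iff _).mpr hy₁
        _ = A.valuation (2 : Qb) := mul_one _
        _ < 1 := rt_val_two_lt A hA
    have h3 : A.valuation (2 * (y₁ : Qb) + (x₁ : Qb)) = 1 := by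
      rw [add_comm, ← hx₁]
      exact Valuation.map_add_eq_of_lt_left _ (by rw [hx₁]; exact h2y)
    rw [h3] at hY
    exact lt_irrefl _ hY
  rw [e₁, e₂] at hD0 hDt
  rcases sameRed_sub A (P.freyCurve⁄Qb) hW.1 hW.2.1 hW.2.2.1 hW.2.2.2.1 h₁ h₂ hxA₁ hy₁ hxA₂ hy₂
    hxx hyy hns with h0 | ⟨x₃, y₃, h₃, e₃, hx₃⟩
  · exact hD0 h0
  · rw [e₃] at hDt
    exact hx₃ (rt_frey_x_mem A P hA h₃ hDt)

/-- **no Galois-fixed point of order `p`** on the Frey curve, given the component law at `2` -/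
theorem rt_no_fixed_torsion (P : FreyPackage) (hA : A.LiesOverPrime 2)
    (hkap : ∀ Q : ((rtCurve P)⁄Qb).Point, P.p • Q = 0 →
      ∃ l : ℤ, kap A.valuation Q ^ P.p = A.valuation ((rtCurve P)⁄Qb).a₄ ^ (2 * l))
    (Q : (P.freyCurve⁄Qb).Point) (hQ : P.p • Q = 0)
    (hfix : ∀ σ : Qb ≃ₐ[ℚ] Qb, σ • Q = Q) : Q = 0 := by
  by_contra hQ0
  have hp5 := P.hp5
  have h21 := rt_pair A P hA hkap hQ0 hQ hfix (i := 2) (j := 1) (by norm_num) (by norm_num)
    (by omega)
  have h31 := rt_pair A P hA hkap hQ0 hQ hfix (i := 3) (j := 1) (by norm_num) (by norm_num)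
    (by omega)
  have h32 := rt_pair A P hA hkap hQ0 hQ hfix (i := 3) (j := 2) (by norm_num) (by norm_num)
    (by omega)
  by_cases c1 : rtCls A (1 • Q) <;> by_cases c2 : rtCls A (2 • Q) <;>
    by_cases c3 : rtCls A (3 • Q) <;> tauto

end Models

end Fermat.Agent.S13
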