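import Mathlib
import Fermat.Agent.S13.ComponentsTwo
import Fermat.Agent.S13.RationalTorsionCore
import Fermat.Agent.S54.Frobenius

set_option autoImplicit false

/-!
# S13 (L2Rmain): no rational point of order `p` on the Frey curve

Wrapper around `rt_no_fixed_torsion` (file `RationalTorsionCore.lean`): the component law at `2`
is supplied by `kap_pow_two` for the model `rtCurve P`, which has multiplicative reduction at `2`
in the sense of `IsMultRedTwo`.
-/

namespace Fermat.Agent.S13

open WeierstrassCurve WeierstrassCurve.Affine WeierstrassCurve.Affine.Point Fermat.Agent.S05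

local notation "Qb" => AlgebraicClosure ℚ

/-- the model `rtCurve P` has multiplicative reduction at every place over `2` -/
theorem rt_isMultRedTwo (P : FreyPackage) (A : ValuationSubring Qb) (hA : A.LiesOverPrime 2) :
    IsMultRedTwo A.valuation ((rtCurve P)⁄Qb) where
  leg := rtCurve_isLeg_bc P
  b₂ := rtCurve_val_four_a₂ A P hA
  a₄_lt := rtCurve_val_a₄_lt A P hA
  a₄_ne := rtCurve_a₄_ne P

/-- (L2R) no rational point of order `p` -/
theorem no_rational_torsion (P : FreyPackage) (x : Submodule.torsionBy ℤ (P.freyCurve⁄Qb).Point P.p)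
    (hx : ∀ σ : Qb ≃ₐ[ℚ] Qb, σ • x = x) : x = 0 := by
  obtain ⟨A, hA⟩ := Fermat.Agent.S54.exists_valuationSubring_liesOver 2 Nat.prime_two
  have hkap : ∀ Q : ((rtCurve P)⁄Qb).Point, P.p • Q = 0 →
      ∃ l : ℤ, kap A.valuation Q ^ P.p = A.valuation ((rtCurve P)⁄Qb).a₄ ^ (2 * l) :=
    fun Q hQ => kap_pow_two (rt_isMultRedTwo P A hA) hQ
  have hQ : P.p • (x : (P.freyCurve⁄Qb).Point) = 0 := by
    have := (Submodule.mem_torsionBy_iff _ _).1 x.2
    rwa [natCast_zsmul] at this
  have hfix : ∀ σ : Qb ≃ₐ[ℚ] Qb, σ • (x : (P.freyCurve⁄Qb).Point) = x := fun σ =>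
    congrArg Subtype.val (hx σ)
  exact Subtype.ext (rt_no_fixed_torsion A P hA hkap _ hQ hfix)

end Fermat.Agent.S13
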