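import Mathlib
import Fermat.Prelude.Def_FLTPrelim_Ramification
import Fermat.Prelude.Def_FLTPrelim_CofixedLine
import Fermat.Agent.S05
import Fermat.Agent.S13.Assembly
import Fermat.Agent.S13.TorsionField
import Fermat.Agent.S13.FreyTwo
import Fermat.Agent.S13.FreyP
import Fermat.Agent.S13.ProductTrick
import Fermat.Agent.S13.RationalTorsion
import Fermat.Agent.S13.FreyTorsion
import Fermat.Agent.S13.FreyInt

/-!
# S13: instantiation of the abstract assembly at the Frey curve
-/

set_option autoImplicit false

namespace Fermat.Agent.S13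

open WeierstrassCurve WeierstrassCurve.Affine WeierstrassCurve.Affine.Point Fermat.Agent.S05

local notation "Qb" => AlgebraicClosure ℚ
local notation "GQ" => (AlgebraicClosure ℚ ≃ₐ[ℚ] AlgebraicClosure ℚ)

theorem frey_reducible_cofixed (P : FreyPackage)
    (hred : ¬ GaloisRepIsIrreducible (K := Qb) ℚ P.freyCurve P.p) :
    HasGaloisStableCofixedLine (K := Qb) ℚ P.freyCurve P.p := by
  classical
  haveI : Fact P.p.Prime := ⟨P.pp⟩
  have hp2 : P.p ≠ 2 := by have := P.hp5; omega
  have hnt := frey_torsion_nontrivial P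
  haveI := frey_torsion_finite P
  unfold GaloisRepIsIrreducible at hred
  rw [not_and] at hred
  have h1 := hred hnt
  rw [not_forall] at h1
  obtain ⟨N, hN⟩ := h1
  rw [Classical.not_imp, not_or] at hN
  obtain ⟨hNst, hN0, hN1⟩ := hN
  refine ⟨N, hNst, hN0, hN1, ?_⟩
  refine cofixed_of_local (frey_torsion_card_le P) N hNst hN0 hN1
    (exists_finite_fixing_torsion P.freyCurve P.p) ?_ ?_ ?_ (no_rational_torsion P)
  · intro q A hq hq2 hqp hA σ hσ x
    exact Fermat.Agent.S05.result P hq hq2 hqp A hA σ hσ x
  · intro A hA σ hσ x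
    exact frey_unipotent_two P A hA σ hσ x
  · intro A hA
    have hW := frey_isIntegralAt P A
    let M₀ : AddSubgroup (Submodule.torsionBy ℤ (P.freyCurve⁄Qb).Point P.p) :=
      (kerRed A (P.freyCurve⁄Qb) hW).comap (Submodule.torsionBy ℤ (P.freyCurve⁄Qb).Point P.p).subtype.toAddMonoidHom
    refine ⟨AddSubgroup.toZModSubmodule P.p M₀, ?_, ?_⟩
    · intro htop
      apply not_forall_inKerRed_of_stable P.freyCurveInt P.freyCurve (freyCurve_eq_map P)
        (freyCurve_Δ_ne_zero P) P.pp hp2 A hA N hNst hN0 hN1
      intro x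
      have hx : x ∈ AddSubgroup.toZModSubmodule P.p M₀ := by rw [htop]; trivial
      rw [AddSubgroup.mem_toZModSubmodule] at hx
      exact hx
    · intro σ hσ x
      have hx : P.p • (x : (P.freyCurve⁄Qb).Point) = 0 := by
        have := x.2
        rw [Submodule.mem_torsionBy_iff] at this
        rwa [natCast_zsmul] at this
      rw [AddSubgroup.mem_toZModSubmodule]
      exact frey_inKerRed_map_sub P A hA σ hσ x hx

end Fermat.Agent.S13
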